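import Mathlib

/-!
# TW / Ram: Fontaine's property `(P_m)`

`FontaineP O K L ϖ a b` is Fontaine's property `(P_m)` for `m = a / b` (valuation normalised by
`v(ϖ) = 1`), in an instance-free form: for every finite extension `E / K` and every ideal `J` of
the ring of integers of `E` with `J ^ b ⊆ (ϖ ^ a)` (i.e. `J ⊆ {x | v(x) ≥ a / b}`), the existence
of an `O`-algebra homomorphism `O_L → O_E / J` forces the existence of a `K`-embedding `L → E`.

The rings of integers are `integralClosure O L`, `integralClosure O E` (as on main, `CFT/Local`).
-/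

set_option autoImplicit false

namespace Fermat.Agent.TW.Ram

/-- Fontaine's property `(P_m)`, `m = a / b`, for the extension `L / K` over the base ring `O`
with chosen element `ϖ` (a uniformiser of `O` in the applications). -/
def FontaineP (O K L : Type) [CommRing O] [Field K] [Algebra O K] [Field L] [Algebra O L]
    [Algebra K L] (ϖ : O) (a b : ℕ) : Prop :=
  ∀ (E : Type) [Field E] [Algebra O E] [Algebra K E] [IsScalarTower O K E]
    [FiniteDimensional K E] (J : Ideal (integralClosure O E)),
    J ^ b ≤ Ideal.span {algebraMap O (integralClosure O E) (ϖ ^ a)} →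
    Nonempty (integralClosure O L →ₐ[O] (integralClosure O E ⧸ J)) →
    Nonempty (L →ₐ[K] E)

/-- `(P_m)` for all `m > c / d`. -/
def FontainePAbove (O K L : Type) [CommRing O] [Field K] [Algebra O K] [Field L] [Algebra O L]
    [Algebra K L] (ϖ : O) (c d : ℕ) : Prop :=
  ∀ a b : ℕ, 0 < b → c * b < a * d → FontaineP O K L ϖ a b

end Fermat.Agent.TW.Ram
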