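import Fermat.Agent.CFT.Local.UnramUnique
import Fermat.Agent.CFT.Local.ExtDVRTower

/-!
# TW / Ram: the maximal unramified subextension

Layer B with finite residue field.  For a finite extension `L / K` there is an intermediate field
`K₀` with `K₀ / K` unramified of degree `f(L/K)`; then `L / K₀` is totally ramified:
`ramIdx (integralClosure O K₀) L = [L : K₀]`.
-/

set_option autoImplicit false
set_option linter.unusedSectionVars false
set_option linter.style.haveILetI false

open IsLocalRing Polynomial Fermat.Agent.CFT

namespace Fermat.Agent.TW.Ram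

section

variable (O K : Type) [CommRing O] [IsDomain O] [IsDiscreteValuationRing O]
  [IsAdicComplete (maximalIdeal O) O] [Finite (ResidueField O)]
  [Field K] [Algebra O K] [IsFractionRing O K] [CharZero K]
  (L : Type) [Field L] [Algebra K L] [FiniteDimensional K L] [Algebra O L] [IsScalarTower O K L]

include K in
/-- `L` contains a root of an unramified polynomial of degree `f(L/K)`. -/
theorem exists_unram_root [IsLocalRing (integralClosure O L)] :
    ∃ (g : O[X]) (θ : L), IsUnramPoly g ∧ g.natDegree = inertDeg O L ∧ aeval θ g = 0 := by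
  haveI := intRing_isLocalHom O K L
  haveI := intRing_finite O K L
  haveI := intRing_henselianLocalRing O K L
  haveI := intRing_finite_residueField O K L
  obtain ⟨g, hg, hdeg⟩ := exists_isUnramPoly O (inertDeg O L) (inertDeg_pos O K L)
  have hfin : Module.finrank (ResidueField O) (ResidueField (integralClosure O L)) =
      inertDeg O L := (inertDeg_eq_finrank O K L).symm
  obtain ⟨a₀, ha₀⟩ := exists_root_of_irreducible_of_dvd_finrank
    (l := ResidueField (integralClosure O L)) hg.irreducible_map
    (by rw [hg.monic.natDegree_map, hdeg, hfin])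
  have hsep : (g.map (residue O)).Separable :=
    PerfectField.separable_of_irreducible hg.irreducible_map
  have e1 : aeval a₀ g = 0 := by
    rw [← ha₀, ← ResidueField.algebraMap_eq, aeval_map_algebraMap]
  have e2 : aeval a₀ (derivative g) ≠ 0 := by
    have hroot : (g.map (residue O)).eval₂ (algebraMap _ _) a₀ = 0 := by
      rw [← aeval_def]; exact ha₀
    have := hsep.aeval_derivative_ne_zero (x := a₀) (by rw [aeval_def]; exact hroot)
    rwa [← ResidueField.algebraMap_eq, derivative_map, aeval_map_algebraMap] at this
  obtain ⟨a, ha, -⟩ := exists_root_lift hg.monic a₀ e1 e2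
  refine ⟨g, (a : L), hg, hdeg, ?_⟩
  rw [Subalgebra.aeval_coe, ha]
  rfl

/-- **Maximal unramified subextension.** -/
theorem exists_maxUnram [IsLocalRing (integralClosure O L)] :
    ∃ K₀ : IntermediateField K L, IsUnramExt O K₀ ∧
      Module.finrank K K₀ = inertDeg O L := by
  obtain ⟨g, θ, hg, hdeg, hθ⟩ := exists_unram_root O K L
  have hint : IsIntegral K θ := Algebra.IsIntegral.isIntegral θ
  refine ⟨IntermediateField.adjoin K {θ}, ?_, ?_⟩
  · have hfin : Module.finrank K (IntermediateField.adjoin K {θ}) = g.natDegree := by
      rw [IntermediateField.adjoin.finrank hint, minpoly_eq_of_root hg θ hθ,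
        hg.monic.natDegree_map]
    refine isUnramExt_of_root (K := K) (L := IntermediateField.adjoin K {θ}) hg
      ⟨θ, IntermediateField.mem_adjoin_simple_self K θ⟩ ?_ hfin
    haveI := tower_isScalarTower_O_L_M O K (IntermediateField.adjoin K {θ}) L
    apply (algebraMap (IntermediateField.adjoin K {θ}) L).injective
    rw [map_zero, ← aeval_algebraMap_apply]
    exact hθ
  · rw [IntermediateField.adjoin.finrank hint, minpoly_eq_of_root hg θ hθ,
      hg.monic.natDegree_map, hdeg]

/-- `L / K₀` is totally ramified when `K₀ / K` is unramified of degree `f(L/K)`. -/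
theorem ramIdx_eq_finrank_of_unram (K₀ : IntermediateField K L)
    [IsLocalRing (integralClosure O L)] [IsLocalRing (integralClosure O K₀)]
    [IsLocalRing (integralClosure (integralClosure O K₀) L)]
    (h₀ : IsUnramExt O K₀) (hf : Module.finrank K K₀ = inertDeg O L) :
    ramIdx (integralClosure O K₀) L = Module.finrank K₀ L := by
  have h1 := ramIdx_tower O K K₀ L
  have h2 : ramIdx O K₀ = 1 := (isUnramExt_iff_ramIdx O K K₀).mp h₀
  have h3 := ramIdx_mul_inertDeg O K L
  have h4 := Module.finrank_mul_finrank K K₀ L
  rw [h2, one_mul] at h1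
  rw [← h1]
  have hpos : 0 < inertDeg O L := inertDeg_pos O K L
  rw [hf, ← h3, mul_comm] at h4
  exact (Nat.eq_of_mul_eq_mul_right hpos h4).symm

end

end Fermat.Agent.TW.Ram
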