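import Mathlib
import Fermat.Agent.TW.Ram.FontaineP

/-!
# TW / Ram: E0 — descent of Fontaine's property `(P_m)` to an intermediate field

`K ⊆ K₀ ⊆ L` with `L / K` normal, `O₀ := integralClosure O K₀`.  Then
`FontaineP O K L ϖ a b → FontaineP O₀ K₀ L (algebraMap O O₀ ϖ) a b` (and the same for
`FontainePAbove`).

Proof: a finite extension `E / K₀` is a finite extension of `K`, with the same ring of integers
(`integralClosure O₀ E = integralClosure O E` as subsets of `E`); `(P_m)` over `K` gives a
`K`-embedding `ι : L → E`; every `x : L` has all its `K`-conjugates in `ι L ⊆ E`, a fortiori all its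
`K₀`-conjugates, so there is a `K₀`-embedding `L → E`.
-/

set_option autoImplicit false
set_option linter.unusedSectionVars false

open Polynomial

namespace Fermat.Agent.TW.Ram

section Same

variable (O O₀ E : Type) [CommRing O] [CommRing O₀] [Algebra O O₀] [Algebra.IsIntegral O O₀]
  [Field E] [Algebra O E] [Algebra O₀ E] [IsScalarTower O O₀ E]

/-- `integralClosure O₀ E` and `integralClosure O E` have the same elements when `O₀ / O` is
integral. -/
theorem mem_integralClosure_iff_of_isIntegral (x : E) :
    x ∈ integralClosure O₀ E ↔ x ∈ integralClosure O E := by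
  constructor
  · intro hx
    exact isIntegral_trans (R := O) (A := O₀) x hx
  · intro hx
    exact IsIntegral.tower_top (R := O) (A := O₀) hx

/-- The identification `integralClosure O E ≃ integralClosure O₀ E` (identity on `E`). -/
noncomputable def intClosureBaseEquiv : integralClosure O E ≃+* integralClosure O₀ E :=
  RingEquiv.subringCongr (s := (integralClosure O E).toSubring)
    (t := (integralClosure O₀ E).toSubring)
    (by ext x; exact (mem_integralClosure_iff_of_isIntegral O O₀ E x).symm)

@[simp] theorem coe_intClosureBaseEquiv (x : integralClosure O E) :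
    ((intClosureBaseEquiv O O₀ E x : integralClosure O₀ E) : E) = (x : E) := rfl

@[simp] theorem coe_intClosureBaseEquiv_symm (x : integralClosure O₀ E) :
    (((intClosureBaseEquiv O O₀ E).symm x : integralClosure O E) : E) = (x : E) := rfl

end Same

/-- The ideal `e⁻¹(J)` for a ring isomorphism `e : R ≃ S`. -/
def symmIdeal {R S : Type*} [CommRing R] [CommRing S] (e : R ≃+* S) (J : Ideal S) : Ideal R :=
  J.map (e.symm : S →+* R)

theorem symmIdeal_pow_le {R S : Type*} [CommRing R] [CommRing S] (e : R ≃+* S) (J : Ideal S)
    (b : ℕ) (c : S) (h : J ^ b ≤ Ideal.span {c}) :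
    symmIdeal e J ^ b ≤ Ideal.span {e.symm c} := by
  unfold symmIdeal
  rw [← Ideal.map_pow]
  refine (Ideal.map_mono h).trans ?_
  rw [Ideal.map_span, Set.image_singleton]
  rfl

/-- The ring homomorphism `S ⧸ J → R ⧸ e⁻¹(J)` induced by the inverse of a ring isomorphism
`e : R ≃ S`. -/
noncomputable def quotMapSymm {R S : Type*} [CommRing R] [CommRing S] (e : R ≃+* S)
    (J : Ideal S) : S ⧸ J →+* R ⧸ symmIdeal e J :=
  Ideal.quotientMap _ (e.symm : S →+* R) Ideal.le_comap_map

theorem quotMapSymm_mk {R S : Type*} [CommRing R] [CommRing S] (e : R ≃+* S)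
    (J : Ideal S) (x : S) :
    quotMapSymm e J (Ideal.Quotient.mk J x) = Ideal.Quotient.mk _ (e.symm x) := rfl

/-- Transport of a ring homomorphism `S' → S ⧸ J` along ring isomorphisms. -/
theorem exists_ringHom_transport {R S R' S' : Type*} [CommRing R] [CommRing S] [CommRing R']
    [CommRing S'] (e : R ≃+* S) (e' : R' ≃+* S') (J : Ideal S) (f : S' →+* S ⧸ J) :
    ∃ g : R' →+* R ⧸ symmIdeal e J, ∀ x, g x = quotMapSymm e J (f (e' x)) :=
  ⟨(quotMapSymm e J).comp (f.comp e'.toRingHom), fun _ => rfl⟩

section Descent

variable (O K K₀ L : Type) [CommRing O] [Field K] [Algebra O K]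
  [Field K₀] [Algebra K K₀] [FiniteDimensional K K₀] [Algebra O K₀] [IsScalarTower O K K₀]
  [Field L] [Algebra K₀ L] [Algebra K L] [IsScalarTower K K₀ L] [Algebra O L] [IsScalarTower O K L]

/-- Extending a `K`-embedding `L → E` of a normal extension `L / K` to a `K₀`-embedding. -/
theorem nonempty_algHom_of_normal [Normal K L] (E : Type) [Field E] [Algebra K₀ E] [Algebra K E]
    [IsScalarTower K K₀ E] (ι : L →ₐ[K] E) : Nonempty (L →ₐ[K₀] E) := by
  refine IntermediateField.nonempty_algHom_of_splits fun s => ?_
  have hint : IsIntegral K s := (Normal.isIntegral (F := K) (K := L) inferInstance s)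
  refine ⟨hint.tower_top, ?_⟩
  have hdvd : minpoly K₀ s ∣ (minpoly K s).map (algebraMap K K₀) :=
    minpoly.dvd_map_of_isScalarTower K K₀ s
  have hdvd' : (minpoly K₀ s).map (algebraMap K₀ E) ∣
      ((minpoly K s).map (algebraMap K K₀)).map (algebraMap K₀ E) :=
    Polynomial.map_dvd _ hdvd
  have heq : ((minpoly K s).map (algebraMap K K₀)).map (algebraMap K₀ E) =
      ((minpoly K s).map (algebraMap K L)).map (ι : L →+* E) := by
    rw [Polynomial.map_map, Polynomial.map_map, ← IsScalarTower.algebraMap_eq,
      AlgHom.comp_algebraMap]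
  rw [heq] at hdvd'
  have hsplit : (((minpoly K s).map (algebraMap K L)).map (ι : L →+* E)).Splits :=
    (Normal.splits (F := K) (K := L) inferInstance s).map _
  refine hsplit.of_dvd ?_ hdvd'
  exact (Polynomial.map_ne_zero_iff (ι : L →+* E).injective).mpr
    ((Polynomial.map_ne_zero_iff (algebraMap K L).injective).mpr (minpoly.ne_zero hint))

/-- **E0.**  Descent of `(P_m)` from `K` to an intermediate field `K₀` of a normal extension
`L / K`. -/
theorem FontaineP.descent [Normal K L] {ϖ : O} {a b : ℕ} (hP : FontaineP O K L ϖ a b) :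
    FontaineP (integralClosure O K₀) K₀ L (algebraMap O (integralClosure O K₀) ϖ) a b := by
  intro E instF instA0 instAK0 instST0 instFD J hJ hf
  obtain ⟨f⟩ := hf
  -- `E` as an extension of `K`
  let algKE : Algebra K E := ((algebraMap K₀ E).comp (algebraMap K K₀)).toAlgebra
  let algOE : Algebra O E := ((algebraMap K₀ E).comp (algebraMap O K₀)).toAlgebra
  have : IsScalarTower K K₀ E := IsScalarTower.of_algebraMap_eq fun _ => rfl
  have : IsScalarTower O K₀ E := IsScalarTower.of_algebraMap_eq fun _ => rfl
  have : IsScalarTower O K E := IsScalarTower.of_algebraMap_eq fun x => by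
    change algebraMap K₀ E (algebraMap O K₀ x) = algebraMap K₀ E (algebraMap K K₀ (algebraMap O K x))
    rw [← IsScalarTower.algebraMap_apply O K K₀]
  have : FiniteDimensional K E := FiniteDimensional.trans K K₀ E
  have : @IsScalarTower O (integralClosure O K₀) E _ instA0.toSMul _ :=
    IsScalarTower.of_algebraMap_eq (R := O) (S := integralClosure O K₀) (A := E) fun x => by
      rw [IsScalarTower.algebraMap_apply (integralClosure O K₀) K₀ E]
      rfl
  have : IsScalarTower O K₀ L := IsScalarTower.of_algebraMap_eq fun x => by
    rw [IsScalarTower.algebraMap_apply O K L, IsScalarTower.algebraMap_apply K K₀ L,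
      ← IsScalarTower.algebraMap_apply O K K₀]
  have : IsScalarTower O (integralClosure O K₀) L :=
    IsScalarTower.of_algebraMap_eq (R := O) (S := integralClosure O K₀) (A := L) fun x => by
      rw [IsScalarTower.algebraMap_apply O K₀ L]
      rfl
  -- the identifications of the rings of integers (made opaque)
  obtain ⟨eE, heE⟩ : ∃ e : integralClosure O E ≃+* integralClosure (integralClosure O K₀) E,
      ∀ x, ((e.symm x : integralClosure O E) : E) = (x : E) :=
    ⟨intClosureBaseEquiv O (integralClosure O K₀) E, fun _ => rfl⟩
  obtain ⟨eL, heL⟩ : ∃ e : integralClosure O L ≃+* integralClosure (integralClosure O K₀) L,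
      ∀ x, ((e x : integralClosure (integralClosure O K₀) L) : L) = (x : L) :=
    ⟨intClosureBaseEquiv O (integralClosure O K₀) L, fun _ => rfl⟩
  have hJb : symmIdeal eE J ^ b ≤ Ideal.span {algebraMap O (integralClosure O E) (ϖ ^ a)} := by
    refine (symmIdeal_pow_le eE J b _ hJ).trans (le_of_eq ?_)
    congr 2
    apply Subtype.ext
    rw [heE]
    change algebraMap (integralClosure O K₀) E ((algebraMap O (integralClosure O K₀) ϖ) ^ a) =
      algebraMap O E (ϖ ^ a)
    rw [← map_pow, ← IsScalarTower.algebraMap_apply]
  -- the transported homomorphism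
  obtain ⟨g, hg⟩ := exists_ringHom_transport eE eL J f.toRingHom
  have hcomm : ∀ x : O, g (algebraMap O (integralClosure O L) x) =
      algebraMap O (integralClosure O E ⧸ symmIdeal eE J) x := by
    intro x
    have h1 : eL (algebraMap O (integralClosure O L) x) =
        algebraMap (integralClosure O K₀) (integralClosure (integralClosure O K₀) L)
          (algebraMap O (integralClosure O K₀) x) := by
      apply Subtype.ext
      rw [heL]
      change algebraMap O L x = algebraMap (integralClosure O K₀) L (algebraMap O _ x)
      rw [← IsScalarTower.algebraMap_apply]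
    have h2 : eE.symm (algebraMap (integralClosure O K₀) (integralClosure (integralClosure O K₀) E)
        (algebraMap O (integralClosure O K₀) x)) = algebraMap O (integralClosure O E) x := by
      apply Subtype.ext
      rw [heE]
      change algebraMap (integralClosure O K₀) E (algebraMap O _ x) = algebraMap O E x
      rw [← IsScalarTower.algebraMap_apply]
    rw [hg, h1]
    change quotMapSymm eE J (f _) = _
    rw [f.commutes, IsScalarTower.algebraMap_apply (integralClosure O K₀)
      (integralClosure (integralClosure O K₀) E) (integralClosure (integralClosure O K₀) E ⧸ J),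
      Ideal.Quotient.algebraMap_eq, quotMapSymm_mk, h2]
    rfl
  obtain ⟨ι⟩ := hP E _ hJb ⟨{ g with commutes' := hcomm }⟩
  exact nonempty_algHom_of_normal K K₀ L E ι

/-- **E0**, limit form. -/
theorem FontainePAbove.descent [Normal K L] {ϖ : O} {c d : ℕ} (hP : FontainePAbove O K L ϖ c d) :
    FontainePAbove (integralClosure O K₀) K₀ L (algebraMap O (integralClosure O K₀) ϖ) c d :=
  fun a b hb hab => FontaineP.descent O K K₀ L (hP a b hb hab)

end Descent

end Fermat.Agent.TW.Ram
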