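import Mathlib
import Fermat.Agent.CFT.Local.ExtDVR
import Fermat.Agent.CFT.Local.ExtDVROrd

/-!
# Program G (S56), block F3-(e), prerequisites: totally ramified extensions and Eisenstein
polynomials, in the Layer-B vocabulary of `CFT/Local/ExtDVR`

`O` a complete DVR with fraction field `K` of characteristic zero, `L / K` finite, integers
`integralClosure O L`, `e = ramIdx O L`.  Totally ramified means `ramIdx O L = finrank K L`.

* (T1) `adjoin_uniformiser_eq_top`, `exists_repr_uniformiser` : `O_L = O[π]`;
* (T2) `minpoly_uniformiser_isEisensteinAt` : the minimal polynomial of a uniformiser is Eisenstein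
  of degree `[L : K]`;
* (T3) `ramIdx_eq_of_isEisensteinAt` : a root of an Eisenstein polynomial of degree `[L : K]` is a
  uniformiser, and `L / K` is totally ramified;
* (T4) `exists_unique_lift_uniformiser` : `O_L = O[X] / (P)` (universal property).
-/

set_option autoImplicit false
set_option linter.unusedSectionVars false

open IsLocalRing Polynomial Module

namespace Fermat.Agent.TW.Ram

open Fermat.Agent.CFT

variable (O K : Type) [CommRing O] [IsDomain O] [IsDiscreteValuationRing O]
  [IsAdicComplete (maximalIdeal O) O]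
  [Field K] [Algebra O K] [IsFractionRing O K] [CharZero K]
  (L : Type) [Field L] [Algebra K L] [FiniteDimensional K L] [Algebra O L] [IsScalarTower O K L]

/-- Totally ramified: the residue degree is one. -/
theorem inertDeg_eq_one_of_totallyRamified [IsLocalRing (integralClosure O L)]
    (htr : ramIdx O L = finrank K L) : inertDeg O L = 1 := by
  have h := ramIdx_mul_inertDeg O K L
  have hpos : 0 < finrank K L := finrank_pos
  rw [htr] at h
  exact Nat.eq_of_mul_eq_mul_left hpos (h.trans (mul_one _).symm)

/-- Totally ramified: every integer of `L` is congruent to an element of `O` modulo the maximal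
ideal. -/
theorem exists_sub_mem_maximalIdeal [IsLocalRing (integralClosure O L)]
    (htr : ramIdx O L = finrank K L) (y : integralClosure O L) :
    ∃ a : O, y - algebraMap O (integralClosure O L) a ∈ maximalIdeal (integralClosure O L) := by
  have := intRing_isLocalHom O K L
  have h1 : finrank (ResidueField O) (ResidueField (integralClosure O L)) = 1 := by
    rw [← inertDeg_eq_finrank O K L]
    exact inertDeg_eq_one_of_totallyRamified O K L htr
  have h2 : (⊥ : Subalgebra (ResidueField O) (ResidueField (integralClosure O L))) = ⊤ :=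
    Subalgebra.bot_eq_top_of_finrank_eq_one h1
  have h3 : residue (integralClosure O L) y ∈
      (⊥ : Subalgebra (ResidueField O) (ResidueField (integralClosure O L))) :=
    h2 ▸ Algebra.mem_top
  obtain ⟨abar, habar⟩ := Algebra.mem_bot.mp h3
  obtain ⟨a, rfl⟩ := residue_surjective abar
  refine ⟨a, ?_⟩
  rw [← residue_eq_zero_iff, map_sub, ← habar]
  exact sub_eq_zero.mpr rfl

/-- Totally ramified: the first `e` powers of a uniformiser span the integers over `O`
(Nakayama). -/
theorem span_pow_uniformiser_eq_top [IsDiscreteValuationRing (integralClosure O L)]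
    (htr : ramIdx O L = finrank K L) {π : integralClosure O L} (hπ : Irreducible π) :
    Submodule.span O (Set.range fun i : Fin (finrank K L) => π ^ (i : ℕ)) = ⊤ := by
  have hfin : Module.Finite O (integralClosure O L) := intRing_finite O K L
  have hmax : maximalIdeal (integralClosure O L) = Ideal.span {π} := hπ.maximalIdeal_eq
  -- the filtration step
  have claim : ∀ j : ℕ, j ≤ finrank K L → ∀ y : integralClosure O L,
      ∃ n ∈ Submodule.span O (Set.range fun i : Fin (finrank K L) => π ^ (i : ℕ)),
        ∃ z : integralClosure O L, y = n + π ^ j * z := by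
    intro j
    induction j with
    | zero => intro _ y; exact ⟨0, Submodule.zero_mem _, y, by simp⟩
    | succ j ih =>
      intro hj y
      obtain ⟨n, hn, z, rfl⟩ := ih (Nat.le_of_succ_le hj) y
      obtain ⟨a, ha⟩ := exists_sub_mem_maximalIdeal O K L htr z
      rw [hmax, Ideal.mem_span_singleton'] at ha
      obtain ⟨z', hz'⟩ := ha
      refine ⟨n + a • π ^ j, Submodule.add_mem _ hn (Submodule.smul_mem _ a ?_), z', ?_⟩
      · exact Submodule.subset_span ⟨⟨j, hj⟩, rfl⟩
      · have hz : z = algebraMap O (integralClosure O L) a + z' * π := by rw [hz']; ring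
        rw [hz, Algebra.smul_def]
        ring
  -- Nakayama
  have hle : (⊤ : Submodule O (integralClosure O L)) ≤
      Submodule.span O (Set.range fun i : Fin (finrank K L) => π ^ (i : ℕ)) ⊔
        (maximalIdeal O) • (⊤ : Submodule O (integralClosure O L)) := by
    intro y _
    obtain ⟨n, hn, z, rfl⟩ := claim (finrank K L) le_rfl y
    refine Submodule.add_mem_sup hn ?_
    rw [Ideal.smul_top_eq_map, Submodule.restrictScalars_mem, map_maximalIdeal_eq_pow_ramIdx O K L,
      htr, hmax, Ideal.span_singleton_pow]
    exact Ideal.mul_mem_right _ _ (Ideal.mem_span_singleton_self _)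
  have hjac : maximalIdeal O ≤ Ideal.jacobson ⊥ := by
    rw [IsLocalRing.jacobson_eq_maximalIdeal ⊥ bot_ne_top]
  exact top_le_iff.mp
    (Submodule.le_of_le_smul_of_le_jacobson_bot (Module.Finite.fg_top) hjac hle)

/-- **(T1)** Totally ramified: `O_L = O[π]`. -/
theorem adjoin_uniformiser_eq_top [IsDiscreteValuationRing (integralClosure O L)]
    (htr : ramIdx O L = finrank K L) {π : integralClosure O L} (hπ : Irreducible π) :
    Algebra.adjoin O {π} = ⊤ := by
  rw [eq_top_iff]
  intro x _
  have hx : x ∈ Submodule.span O (Set.range fun i : Fin (finrank K L) => π ^ (i : ℕ)) := by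
    rw [span_pow_uniformiser_eq_top O K L htr hπ]; exact Submodule.mem_top
  have hle : Submodule.span O (Set.range fun i : Fin (finrank K L) => π ^ (i : ℕ)) ≤
      Subalgebra.toSubmodule (Algebra.adjoin O {π}) := by
    rw [Submodule.span_le]
    rintro _ ⟨i, rfl⟩
    exact Subalgebra.pow_mem _ (Algebra.subset_adjoin (Set.mem_singleton π)) _
  exact hle hx

/-- **(T1')** Totally ramified: every integer of `L` is an `O`-combination of `1, π, …, π^(e-1)`. -/
theorem exists_repr_uniformiser [IsDiscreteValuationRing (integralClosure O L)]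
    (htr : ramIdx O L = finrank K L) {π : integralClosure O L} (hπ : Irreducible π)
    (x : integralClosure O L) :
    ∃ a : Fin (finrank K L) → O,
      x = ∑ i, algebraMap O (integralClosure O L) (a i) * π ^ (i : ℕ) := by
  have hx : x ∈ Submodule.span O (Set.range fun i : Fin (finrank K L) => π ^ (i : ℕ)) := by
    rw [span_pow_uniformiser_eq_top O K L htr hπ]; exact Submodule.mem_top
  obtain ⟨a, ha⟩ := (Submodule.mem_span_range_iff_exists_fun O).mp hx
  refine ⟨a, ?_⟩
  rw [← ha]
  exact Finset.sum_congr rfl fun i _ => Algebra.smul_def _ _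

section Dominant

variable (B M : Type) [CommRing B] [IsDomain B] [IsDiscreteValuationRing B]
  [Field M] [Algebra B M] [IsFractionRing B M]

/-- `v x < v y` from `ord y < ord x` (nonzero elements). -/
theorem dvrVal_lt_of_dvrOrd_lt {x y : M} (hx : x ≠ 0) (hy : y ≠ 0)
    (h : dvrOrd B M y < dvrOrd B M x) : dvrVal B M x < dvrVal B M y := by
  rw [← not_le]
  intro hle
  have := (dvrOrd_le_iff B M hx hy).mpr hle
  omega

/-- A sum with a strictly dominant term `j` (all other nonzero terms have larger order) is nonzero
of the order of that term. -/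
theorem dvrOrd_sum_of_dominant {ι : Type*} [DecidableEq ι] (s : Finset ι) (f : ι → M) {j : ι}
    (hj : j ∈ s) (hfj : f j ≠ 0)
    (hdom : ∀ i ∈ s, i ≠ j → f i ≠ 0 → dvrOrd B M (f j) < dvrOrd B M (f i)) :
    (∑ i ∈ s, f i) ≠ 0 ∧ dvrOrd B M (∑ i ∈ s, f i) = dvrOrd B M (f j) := by
  have hv : dvrVal B M (∑ i ∈ s, f i) = dvrVal B M (f j) := by
    refine Valuation.map_sum_eq_of_lt _ hj fun i hi => ?_
    rw [Finset.mem_sdiff, Finset.mem_singleton] at hi
    by_cases h0 : f i = 0
    · rw [h0, map_zero]
      exact zero_lt_iff.mpr ((Valuation.ne_zero_iff _).mpr hfj)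
    · exact dvrVal_lt_of_dvrOrd_lt B M h0 hfj (hdom i hi.1 hi.2 h0)
  refine ⟨fun h => ?_, by rw [dvrOrd_def, dvrOrd_def, hv]⟩
  rw [h, map_zero] at hv
  exact (Valuation.ne_zero_iff _).mpr hfj hv.symm

/-- In a nonzero-term sum whose nonzero terms have pairwise distinct orders, one term is strictly
dominant. -/
theorem exists_dominant_of_distinct {ι : Type*} [DecidableEq ι] (s : Finset ι) (f : ι → M)
    (hne : ∃ i ∈ s, f i ≠ 0)
    (hdist : ∀ i ∈ s, ∀ j ∈ s, f i ≠ 0 → f j ≠ 0 → i ≠ j → dvrOrd B M (f i) ≠ dvrOrd B M (f j)) :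
    ∃ j ∈ s, f j ≠ 0 ∧ (∑ i ∈ s, f i) ≠ 0 ∧ dvrOrd B M (∑ i ∈ s, f i) = dvrOrd B M (f j) ∧
      ∀ i ∈ s, f i ≠ 0 → dvrOrd B M (f j) ≤ dvrOrd B M (f i) := by
  classical
  have hne' : (s.filter fun i => f i ≠ 0).Nonempty := by
    obtain ⟨i, hi, h0⟩ := hne
    exact ⟨i, Finset.mem_filter.mpr ⟨hi, h0⟩⟩
  obtain ⟨j, hj, hmin⟩ := Finset.exists_min_image _ (fun i => dvrOrd B M (f i)) hne'
  rw [Finset.mem_filter] at hj
  have hmin' : ∀ i ∈ s, f i ≠ 0 → dvrOrd B M (f j) ≤ dvrOrd B M (f i) := fun i hi h0 =>
    hmin i (Finset.mem_filter.mpr ⟨hi, h0⟩)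
  obtain ⟨h1, h2⟩ := dvrOrd_sum_of_dominant B M s f hj.1 hj.2 (fun i hi hij h0 =>
    lt_of_le_of_ne (hmin' i hi h0) (hdist j hj.1 i hi hj.2 h0 (Ne.symm hij)))
  exact ⟨j, hj.1, hj.2, h1, h2, hmin'⟩

end Dominant

/-- The order in `L` of an element of `O`. -/
theorem dvrOrd_algebraMap_O [IsDiscreteValuationRing (integralClosure O L)]
    [IsFractionRing (integralClosure O L) L] (c : O) :
    dvrOrd (integralClosure O L) L (algebraMap O L c) =
      ramIdx O L * dvrOrd O K (algebraMap O K c) := by
  rw [IsScalarTower.algebraMap_apply O K L, dvrOrd_algebraMap_eq_ramIdx_mul O K L]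

/-- The order of a term `c β^i`. -/
theorem dvrOrd_term [IsDiscreteValuationRing (integralClosure O L)]
    [IsFractionRing (integralClosure O L) L] {c : O} (hc : c ≠ 0) {β : L} (hβ : β ≠ 0) (i : ℕ) :
    dvrOrd (integralClosure O L) L (algebraMap O L c * β ^ i) =
      ramIdx O L * dvrOrd O K (algebraMap O K c) + i * dvrOrd (integralClosure O L) L β := by
  have hinj : Function.Injective (algebraMap O L) := by
    rw [IsScalarTower.algebraMap_eq O K L]
    exact (algebraMap K L).injective.comp (IsFractionRing.injective O K)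
  have hc' : algebraMap O L c ≠ 0 := fun h => hc (hinj (h.trans (map_zero _).symm))
  rw [dvrOrd_mul _ _ hc' (pow_ne_zero _ hβ), dvrOrd_pow, dvrOrd_algebraMap_O O K L]

include K in
theorem term_ne_zero {c : O} (hc : c ≠ 0) {β : L} (hβ : β ≠ 0) (i : ℕ) :
    algebraMap O L c * β ^ i ≠ 0 := by
  have hinj : Function.Injective (algebraMap O L) := by
    rw [IsScalarTower.algebraMap_eq O K L]
    exact (algebraMap K L).injective.comp (IsFractionRing.injective O K)
  exact mul_ne_zero (fun h => hc (hinj (h.trans (map_zero _).symm))) (pow_ne_zero _ hβ)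

/-- A root of a monic polynomial: the top power is minus the sum of the lower terms. -/
theorem sum_lower_terms_eq {Q : O[X]} (hmon : Q.Monic) {β : L} (hβ : aeval β Q = 0) :
    ∑ i ∈ Finset.range Q.natDegree, algebraMap O L (Q.coeff i) * β ^ i = -β ^ Q.natDegree := by
  have h := hmon.as_sum
  have h2 : aeval β Q = β ^ Q.natDegree +
      ∑ i ∈ Finset.range Q.natDegree, algebraMap O L (Q.coeff i) * β ^ i := by
    conv_lhs => rw [h]
    simp only [map_add, map_pow, aeval_X, map_sum, map_mul, aeval_C]
  rw [hβ] at h2
  exact eq_neg_of_add_eq_zero_right h2.symm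

/-- **(T2)** Totally ramified: the minimal polynomial of a uniformiser is Eisenstein of degree
`[L : K]`. -/
theorem minpoly_uniformiser_isEisensteinAt [IsDiscreteValuationRing (integralClosure O L)]
    (htr : ramIdx O L = finrank K L) {π : integralClosure O L} (hπ : Irreducible π) :
    (minpoly O π).IsEisensteinAt (maximalIdeal O) ∧ (minpoly O π).natDegree = finrank K L := by
  classical
  have hfr := intRing_isFractionRing O K L
  have hintA := intRing_isIntegral O L
  have hint : IsIntegral O π := Algebra.IsIntegral.isIntegral π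
  have hmon : (minpoly O π).Monic := minpoly.monic hint
  set πL : L := algebraMap (integralClosure O L) L π with hπL
  have hπL0 : πL ≠ 0 := algebraMap_ne_zero_of_ne_zero _ L hπ.ne_zero
  have hordπ : dvrOrd (integralClosure O L) L πL = 1 := dvrOrd_irreducible _ L hπ
  -- the degree is at most `[L : K]`
  have hminL : minpoly O πL = minpoly O π :=
    minpoly.algebraMap_eq (IsFractionRing.injective (integralClosure O L) L) π
  have hintL : IsIntegral O πL := hint.algebraMap
  have hdle : (minpoly O π).natDegree ≤ finrank K L := by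
    have h1 : minpoly K πL = (minpoly O πL).map (algebraMap O K) :=
      minpoly.isIntegrallyClosed_eq_field_fractions' K hintL
    have h2 := minpoly.natDegree_le (A := K) πL
    rw [h1, hminL, hmon.natDegree_map] at h2
    exact h2
  have hroot : aeval πL (minpoly O π) = 0 := by
    rw [← hminL]; exact minpoly.aeval O πL
  have hsum := sum_lower_terms_eq O L hmon hroot
  set d := (minpoly O π).natDegree with hd
  set e := finrank K L with he
  have hsum0 : (∑ i ∈ Finset.range d, algebraMap O L ((minpoly O π).coeff i) * πL ^ i) ≠ 0 := by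
    rw [hsum]; exact neg_ne_zero.mpr (pow_ne_zero _ hπL0)
  have hordsum : dvrOrd (integralClosure O L) L
      (∑ i ∈ Finset.range d, algebraMap O L ((minpoly O π).coeff i) * πL ^ i) = d := by
    rw [hsum, dvrOrd_neg, dvrOrd_pow, hordπ, mul_one]
  -- abbreviations
  have hterm0 : ∀ i, algebraMap O L ((minpoly O π).coeff i) * πL ^ i ≠ 0 →
      (minpoly O π).coeff i ≠ 0 := by
    intro i h hc
    rw [hc, map_zero, zero_mul] at h
    exact h rfl
  have hordterm : ∀ i, (minpoly O π).coeff i ≠ 0 →
      dvrOrd (integralClosure O L) L (algebraMap O L ((minpoly O π).coeff i) * πL ^ i) =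
        e * dvrOrd O K (algebraMap O K ((minpoly O π).coeff i)) + i := by
    intro i hc
    rw [dvrOrd_term O K L hc hπL0, hordπ, mul_one, htr]
  have hnonneg : ∀ c : O, 0 ≤ dvrOrd O K (algebraMap O K c) := dvrOrd_algebraMap_nonneg O K
  -- one term is dominant
  obtain ⟨j, hjs, hj0, -, hjord, hjmin⟩ := exists_dominant_of_distinct (integralClosure O L) L
    (Finset.range d) (fun i => algebraMap O L ((minpoly O π).coeff i) * πL ^ i)
    (by
      by_contra hcon
      push Not at hcon
      exact hsum0 (Finset.sum_eq_zero hcon))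
    (by
      intro i hi k hk hi0 hk0 hik heq
      rw [Finset.mem_range] at hi hk
      rw [hordterm i (hterm0 i hi0), hordterm k (hterm0 k hk0)] at heq
      have h1 : ((i : ℤ)) % (e : ℤ) = (k : ℤ) % (e : ℤ) := by
        have := congrArg (fun z : ℤ => z % (e : ℤ)) heq
        simpa [Int.add_mul_emod_self_left, Int.mul_emod_right] using this
      have hie : (i : ℤ) < e := by exact_mod_cast lt_of_lt_of_le hi hdle
      have hke : (k : ℤ) < e := by exact_mod_cast lt_of_lt_of_le hk hdle
      rw [Int.emod_eq_of_lt (by positivity) hie, Int.emod_eq_of_lt (by positivity) hke] at h1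
      exact hik (by exact_mod_cast h1))
  rw [Finset.mem_range] at hjs
  have hcj := hterm0 j hj0
  rw [hordsum, hordterm j hcj] at hjord
  -- arithmetic
  have haj := hnonneg ((minpoly O π).coeff j)
  have haj1 : 1 ≤ dvrOrd O K (algebraMap O K ((minpoly O π).coeff j)) := by
    by_contra hlt
    have h0 : dvrOrd O K (algebraMap O K ((minpoly O π).coeff j)) = 0 := by omega
    rw [h0, mul_zero, zero_add] at hjord
    have : d = j := by exact_mod_cast hjord
    omega
  have hde : d = e := by
    have h1 : (e : ℤ) ≤ d := by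
      have : (e : ℤ) * 1 ≤ e * dvrOrd O K (algebraMap O K ((minpoly O π).coeff j)) :=
        mul_le_mul_of_nonneg_left haj1 (by positivity)
      have hj' : (0 : ℤ) ≤ j := by positivity
      linarith
    have h2 : (d : ℤ) ≤ e := by exact_mod_cast hdle
    exact_mod_cast le_antisymm h2 h1
  have hj0' : j = 0 ∧ dvrOrd O K (algebraMap O K ((minpoly O π).coeff j)) = 1 := by
    have hje : (j : ℤ) < e := by exact_mod_cast lt_of_lt_of_le hjs hdle
    have hd' : (d : ℤ) = e := by exact_mod_cast hde
    rw [hd'] at hjord
    have hepos : (0 : ℤ) < e := by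
      have : 0 < e := finrank_pos
      exact_mod_cast this
    have h3 : dvrOrd O K (algebraMap O K ((minpoly O π).coeff j)) < 2 := by
      by_contra hge
      have : (e : ℤ) * 2 ≤ e * dvrOrd O K (algebraMap O K ((minpoly O π).coeff j)) :=
        mul_le_mul_of_nonneg_left (by omega) hepos.le
      have hj' : (0 : ℤ) ≤ j := by positivity
      linarith
    have h4 : dvrOrd O K (algebraMap O K ((minpoly O π).coeff j)) = 1 := by omega
    rw [h4, mul_one] at hjord
    exact ⟨by exact_mod_cast (by linarith : (j : ℤ) = 0), h4⟩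
  obtain ⟨hj00, hj01⟩ := hj0'
  subst hj00
  refine ⟨⟨?_, ?_, ?_⟩, hde⟩
  · rw [hmon.leadingCoeff]
    exact fun h => (maximalIdeal.isMaximal O).ne_top ((Ideal.eq_top_iff_one _).mpr h)
  · intro i hi
    by_cases hc : (minpoly O π).coeff i = 0
    · rw [hc]; exact Ideal.zero_mem _
    rw [mem_maximalIdeal_iff_dvrOrd_pos O K hc]
    have hmin := hjmin i (Finset.mem_range.mpr hi) (term_ne_zero O K L hc hπL0 i)
    rw [hordterm 0 hcj, hordterm i hc, hj01] at hmin
    have hie : (i : ℤ) < e := by exact_mod_cast lt_of_lt_of_le hi hdle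
    by_contra hle
    have h0 : dvrOrd O K (algebraMap O K ((minpoly O π).coeff i)) = 0 := by
      have := hnonneg ((minpoly O π).coeff i); omega
    rw [h0] at hmin
    simp at hmin
    omega
  · rw [mem_maximalIdeal_pow_iff_le_dvrOrd O K hcj, hj01]
    norm_num

/-- `e ≤ [L : K]` and `0 < e`. -/
theorem ramIdx_pos_le [IsLocalRing (integralClosure O L)] :
    0 < ramIdx O L ∧ ramIdx O L ≤ finrank K L := by
  have h := ramIdx_mul_inertDeg O K L
  have hpos : 0 < finrank K L := finrank_pos
  rw [← h] at hpos
  have h1 : 0 < ramIdx O L := Nat.pos_of_mul_pos_right hpos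
  have h2 : 0 < inertDeg O L := Nat.pos_of_mul_pos_left hpos
  refine ⟨h1, ?_⟩
  rw [← h]
  exact Nat.le_mul_of_pos_right _ h2

/-- **(T3)** A root of a monic Eisenstein polynomial of degree `[L : K]` is a uniformiser of `L`, and
`L / K` is totally ramified. -/
theorem ramIdx_eq_of_isEisensteinAt [IsDiscreteValuationRing (integralClosure O L)]
    [IsFractionRing (integralClosure O L) L]
    {Q : O[X]} (hQ : Q.IsEisensteinAt (maximalIdeal O)) (hmon : Q.Monic)
    (hdeg : Q.natDegree = finrank K L) {β : L} (hβ : aeval β Q = 0) :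
    dvrOrd (integralClosure O L) L β = 1 ∧ ramIdx O L = finrank K L := by
  classical
  obtain ⟨hepos, hele⟩ := ramIdx_pos_le O K L
  have hnpos : 0 < Q.natDegree := by rw [hdeg]; exact finrank_pos
  set n := Q.natDegree with hn
  set e := ramIdx O L with he
  -- the constant coefficient has order one
  have hc0 : Q.coeff 0 ≠ 0 := fun h => hQ.notMem (by rw [h]; exact Ideal.zero_mem _)
  have ha0 : dvrOrd O K (algebraMap O K (Q.coeff 0)) = 1 := by
    have h1 := (mem_maximalIdeal_iff_dvrOrd_pos O K hc0).mp (hQ.mem hnpos)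
    have h2 := (mem_maximalIdeal_pow_iff_le_dvrOrd O K hc0 2).not.mp hQ.notMem
    push_cast at h2
    omega
  have hai : ∀ i, i < n → Q.coeff i ≠ 0 → 1 ≤ dvrOrd O K (algebraMap O K (Q.coeff i)) :=
    fun i hi hc => (mem_maximalIdeal_iff_dvrOrd_pos O K hc).mp (hQ.mem hi)
  -- `β ≠ 0`
  have hβ0 : β ≠ 0 := by
    rintro rfl
    have hinj : Function.Injective (algebraMap O L) := by
      rw [IsScalarTower.algebraMap_eq O K L]
      exact (algebraMap K L).injective.comp (IsFractionRing.injective O K)
    rw [← coeff_zero_eq_aeval_zero'] at hβ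
    exact hc0 (hinj (hβ.trans (map_zero _).symm))
  set v := dvrOrd (integralClosure O L) L β with hv
  -- the full sum
  set f : ℕ → L := fun i => algebraMap O L (Q.coeff i) * β ^ i with hf
  have hS : ∑ i ∈ Finset.range (n + 1), f i = 0 := by
    rw [← hβ, aeval_eq_sum_range]
    exact Finset.sum_congr rfl fun i _ => (Algebra.smul_def _ _).symm
  have hfn : f n = β ^ n := by
    simp only [hf, hn]
    rw [hmon.coeff_natDegree, map_one, one_mul]
  have hfn0 : f n ≠ 0 := by rw [hfn]; exact pow_ne_zero _ hβ0
  have hordn : dvrOrd (integralClosure O L) L (f n) = n * v := by rw [hfn, dvrOrd_pow]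
  have hterm0 : ∀ i, f i ≠ 0 → Q.coeff i ≠ 0 := by
    intro i h hc
    simp only [hf] at h
    rw [hc, map_zero, zero_mul] at h
    exact h rfl
  have hordi : ∀ i, Q.coeff i ≠ 0 → dvrOrd (integralClosure O L) L (f i) =
      e * dvrOrd O K (algebraMap O K (Q.coeff i)) + i * v := fun i hc =>
    dvrOrd_term O K L hc hβ0 i
  have hf0 : f 0 ≠ 0 := term_ne_zero O K L hc0 hβ0 0
  have hord0 : dvrOrd (integralClosure O L) L (f 0) = e := by
    rw [hordi 0 hc0, ha0]; push_cast; ring
  have hmemn : n ∈ Finset.range (n + 1) := Finset.mem_range.mpr (Nat.lt_succ_self n)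
  have hmem0 : 0 ∈ Finset.range (n + 1) := Finset.mem_range.mpr (Nat.succ_pos n)
  have hepos' : (1 : ℤ) ≤ e := by exact_mod_cast hepos
  have hnpos' : (1 : ℤ) ≤ n := by exact_mod_cast hnpos
  -- a lower bound for the lower terms
  have hlow : ∀ i, i < n → f i ≠ 0 → (e : ℤ) + i * v ≤ dvrOrd (integralClosure O L) L (f i) := by
    intro i hi h0
    have hc := hterm0 i h0
    rw [hordi i hc]
    have h1 := hai i hi hc
    have : (e : ℤ) * 1 ≤ e * dvrOrd O K (algebraMap O K (Q.coeff i)) :=
      mul_le_mul_of_nonneg_left h1 (by positivity)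
    linarith
  -- Step A: `1 ≤ v`
  have hv1 : 1 ≤ v := by
    by_contra hlt
    have hv0 : v ≤ 0 := by omega
    refine (dvrOrd_sum_of_dominant (integralClosure O L) L (Finset.range (n + 1)) f hmemn hfn0
      (fun i hi hin h0 => ?_)).1 hS
    have hi' : i < n := lt_of_le_of_ne (Nat.lt_succ_iff.mp (Finset.mem_range.mp hi)) hin
    have h1 := hlow i hi' h0
    rw [hordn]
    have hin' : (i : ℤ) < n := by exact_mod_cast hi'
    have h2 : ((n : ℤ) - i) * v ≤ 0 :=
      mul_nonpos_of_nonneg_of_nonpos (by linarith) hv0
    nlinarith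
  -- Step B: `e = n v`
  have hB : (e : ℤ) = n * v := by
    by_contra hne
    rcases lt_or_gt_of_ne hne with hlt | hgt
    · -- the constant term is dominant
      refine (dvrOrd_sum_of_dominant (integralClosure O L) L (Finset.range (n + 1)) f hmem0 hf0
        (fun i hi hi0 h0 => ?_)).1 hS
      rw [hord0]
      rcases (Nat.lt_succ_iff.mp (Finset.mem_range.mp hi)).lt_or_eq with hi' | rfl
      · have h1 := hlow i hi' h0
        have hipos : (1 : ℤ) ≤ i := by
          have : 0 < i := Nat.pos_of_ne_zero hi0
          exact_mod_cast this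
        have : (1 : ℤ) * 1 ≤ i * v := mul_le_mul hipos hv1 (by norm_num) (by linarith)
        linarith
      · rw [hordn]; exact hlt
    · -- the top term is dominant
      refine (dvrOrd_sum_of_dominant (integralClosure O L) L (Finset.range (n + 1)) f hmemn hfn0
        (fun i hi hin h0 => ?_)).1 hS
      have hi' : i < n := lt_of_le_of_ne (Nat.lt_succ_iff.mp (Finset.mem_range.mp hi)) hin
      have h1 := hlow i hi' h0
      rw [hordn]
      have : (0 : ℤ) ≤ i * v := mul_nonneg (by positivity) (by linarith)
      linarith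
  -- Step C
  have hele' : (e : ℤ) ≤ n := by
    have : e ≤ n := by rw [hdeg]; exact hele
    exact_mod_cast this
  have hnv : (n : ℤ) * 1 ≤ n * v := mul_le_mul_of_nonneg_left hv1 (by linarith)
  have hen : (e : ℤ) = n := by linarith
  have hv1' : v = 1 := by
    rw [hen] at hB
    have : (n : ℤ) * (v - 1) = 0 := by linarith
    rcases mul_eq_zero.mp this with h | h
    · omega
    · omega
  refine ⟨hv1', ?_⟩
  rw [← hdeg]
  exact_mod_cast hen

/-- The power basis `1, π, …, π^(e-1)` of the integers of a totally ramified extension. -/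
noncomputable def uniformiserPowerBasis [IsDiscreteValuationRing (integralClosure O L)]
    (htr : ramIdx O L = finrank K L) {π : integralClosure O L} (hπ : Irreducible π) :
    PowerBasis O (integralClosure O L) :=
  haveI := intRing_isIntegral O L
  haveI := intRing_isTorsionFree O K L
  PowerBasis.ofAdjoinEqTop' (Algebra.IsIntegral.isIntegral π) (adjoin_uniformiser_eq_top O K L htr hπ)

theorem uniformiserPowerBasis_gen [IsDiscreteValuationRing (integralClosure O L)]
    (htr : ramIdx O L = finrank K L) {π : integralClosure O L} (hπ : Irreducible π) :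
    (uniformiserPowerBasis O K L htr hπ).gen = π := by
  have := intRing_isIntegral O L
  have := intRing_isTorsionFree O K L
  exact PowerBasis.ofAdjoinEqTop'_gen _ _

theorem uniformiserPowerBasis_dim [IsDiscreteValuationRing (integralClosure O L)]
    (htr : ramIdx O L = finrank K L) {π : integralClosure O L} (hπ : Irreducible π) :
    (uniformiserPowerBasis O K L htr hπ).dim = finrank K L := by
  have := intRing_isIntegral O L
  have := intRing_isTorsionFree O K L
  have h : (uniformiserPowerBasis O K L htr hπ).dim = (minpoly O π).natDegree :=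
    PowerBasis.ofAdjoinEqTop'_dim _ _
  rw [h]
  exact (minpoly_uniformiser_isEisensteinAt O K L htr hπ).2

/-- **(T4)** Totally ramified: `O_L = O[X] / (P)`, `P` the minimal polynomial of a uniformiser
(universal property). -/
theorem exists_unique_lift_uniformiser [IsDiscreteValuationRing (integralClosure O L)]
    (htr : ramIdx O L = finrank K L) {π : integralClosure O L} (hπ : Irreducible π)
    (R : Type) [CommRing R] [Algebra O R] (r : R) (hr : aeval r (minpoly O π) = 0) :
    ∃! φ : integralClosure O L →ₐ[O] R, φ π = r := by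
  have hgen := uniformiserPowerBasis_gen O K L htr hπ
  have hr' : aeval r (minpoly O (uniformiserPowerBasis O K L htr hπ).gen) = 0 := by
    rw [hgen]; exact hr
  refine ⟨(uniformiserPowerBasis O K L htr hπ).lift r hr', ?_, fun φ hφ => ?_⟩
  · have := (uniformiserPowerBasis O K L htr hπ).lift_gen r hr'
    rw [hgen] at this
    exact this
  · refine (uniformiserPowerBasis O K L htr hπ).algHom_ext ?_
    rw [PowerBasis.lift_gen, hgen]
    exact hφ

end Fermat.Agent.TW.Ram
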