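import Fermat.Agent.TW.Ram.PhiFormula

/-!
# TW / Ram: the averaging inequality (top break of a quotient)

`Γ` a finite group, `i : Γ → ℤ` a "ramification function" (`i τ⁻¹ = i τ`,
`min (i σ) (i τ) ≤ i (σ τ)` for non-trivial elements), `H ≤ Γ` a subgroup, `J` an upper bound
for `i`.  For `σ ∉ H` put `S σ := ∑ h : H, i (σ h)` (the coset sum; by Serre IV Prop. 3 this is
`|H| · i_{Γ/H}(σ̄)`).  If `S σ ≥ S₀` for all `σ ∉ H` then `[Γ : H] · S₀ ≤ Φ_Γ(J)`.
-/

set_option autoImplicit false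
set_option linter.unusedSectionVars false

open Finset

namespace Fermat.Agent.TW.Ram

variable {Γ : Type*} [Group Γ] [Fintype Γ]

/-- Axioms of a ramification function (values at `1` are junk). -/
structure IsRamFn (i : Γ → ℤ) : Prop where
  inv : ∀ τ : Γ, i τ⁻¹ = i τ
  mul : ∀ σ τ : Γ, σ ≠ 1 → τ ≠ 1 → σ * τ ≠ 1 → min (i σ) (i τ) ≤ i (σ * τ)

variable {i : Γ → ℤ} (H : Subgroup Γ) [Fintype H]

/-- The coset sum. -/
def cosetSum (i : Γ → ℤ) (H : Subgroup Γ) [Fintype H] (σ : Γ) : ℤ := ∑ h : H, i (σ * (h : Γ))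

omit [Fintype Γ] in
theorem cosetSum_mul_right (σ : Γ) (h₀ : H) : cosetSum i H (σ * (h₀ : Γ)) = cosetSum i H σ := by
  unfold cosetSum
  refine Fintype.sum_equiv (Equiv.mulLeft h₀) _ _ fun h => ?_
  simp [mul_assoc]

omit [Fintype Γ] in
/-- If `σ₀ ∉ H` maximises `i` on its coset then `i (σ₀ h) = min (i σ₀) (i h)`. -/
theorem IsRamFn.coset_eq_min (hi : IsRamFn i) {σ₀ : Γ} (hσ₀ : σ₀ ∉ H)
    (hmax : ∀ h : H, i (σ₀ * (h : Γ)) ≤ i σ₀) (h : H) (hh : h ≠ 1) :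
    i (σ₀ * (h : Γ)) = min (i σ₀) (i (h : Γ)) := by
  have hσ1 : σ₀ ≠ 1 := fun h1 => hσ₀ (h1 ▸ H.one_mem)
  have hh1 : (h : Γ) ≠ 1 := fun h1 => hh (Subtype.ext h1)
  have hσh : σ₀ * (h : Γ) ≠ 1 := by
    intro h1
    apply hσ₀
    have : σ₀ = (h : Γ)⁻¹ := eq_inv_of_mul_eq_one_left h1
    rw [this]
    exact H.inv_mem h.2
  have h1 := hi.mul σ₀ h hσ1 hh1 hσh
  have h2 := hmax h
  -- `h = σ₀⁻¹ * (σ₀ h)`
  have h3 := hi.mul σ₀⁻¹ (σ₀ * (h : Γ)) (inv_ne_one.mpr hσ1) hσh (by simpa using hh1)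
  rw [inv_mul_cancel_left, hi.inv] at h3
  rcases le_total (i σ₀) (i (h : Γ)) with h4 | h4
  · rw [min_eq_left h4] at h1 ⊢
    omega
  · rw [min_eq_right h4] at h1 ⊢
    rcases le_total (i σ₀) (i (σ₀ * (h : Γ))) with h5 | h5
    · rw [min_eq_left h5] at h3; omega
    · rw [min_eq_right h5] at h3; omega

omit [Fintype Γ] in
/-- The coset sum of a maximising representative is `Φ_H (i σ₀)`. -/
theorem IsRamFn.cosetSum_eq_phiFn (hi : IsRamFn i) {σ₀ : Γ} (hσ₀ : σ₀ ∉ H)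
    (hmax : ∀ h : H, i (σ₀ * (h : Γ)) ≤ i σ₀) :
    cosetSum i H σ₀ = phiFn (fun h : H => i (h : Γ)) (i σ₀) := by
  classical
  rw [phiFn_eq_erase]
  unfold cosetSum
  rw [← Finset.add_sum_erase _ _ (Finset.mem_univ (1 : H))]
  simp only [OneMemClass.coe_one, mul_one]
  congr 1
  refine Finset.sum_congr rfl fun h hh => ?_
  exact hi.coset_eq_min H hσ₀ hmax h (by simpa using hh)

omit [Fintype Γ] in
/-- Every coset sum outside `H` is at most `Φ_H J` for an upper bound `J` of `i`. -/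
theorem IsRamFn.cosetSum_le_phiFn (hi : IsRamFn i) {σ : Γ} (hσ : σ ∉ H) (J : ℤ)
    (hJ : ∀ τ : Γ, τ ≠ 1 → i τ ≤ J) :
    cosetSum i H σ ≤ phiFn (fun h : H => i (h : Γ)) J := by
  obtain ⟨h₀, -, hh₀⟩ := Finset.exists_max_image (Finset.univ : Finset H)
    (fun h : H => i (σ * (h : Γ))) ⟨1, Finset.mem_univ _⟩
  have hσ₀ : σ * (h₀ : Γ) ∉ H := fun h1 => hσ ((Subgroup.mul_mem_cancel_right H h₀.2).mp h1)
  have hmax : ∀ h : H, i (σ * (h₀ : Γ) * (h : Γ)) ≤ i (σ * (h₀ : Γ)) := by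
    intro h
    have := hh₀ (h₀ * h) (Finset.mem_univ _)
    simpa [mul_assoc] using this
  rw [← cosetSum_mul_right H σ h₀, hi.cosetSum_eq_phiFn H hσ₀ hmax]
  have hle : i (σ * (h₀ : Γ)) ≤ J := hJ _ fun h1 => hσ₀ (h1 ▸ H.one_mem)
  have := phiFn_mono (fun h : H => i (h : Γ)) hle
  linarith

/-- Splitting `Φ_Γ J` along `H`. -/
theorem phiFn_eq_add_sum_compl (J : ℤ) (hJ : ∀ τ : Γ, τ ≠ 1 → i τ ≤ J) [DecidablePred (· ∈ H)] :
    phiFn i J = phiFn (fun h : H => i (h : Γ)) J +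
      ∑ τ ∈ (Finset.univ : Finset Γ).filter (· ∉ H), i τ := by
  classical
  rw [phiFn_eq_sum_ite, phiFn_eq_sum_ite, add_assoc]
  congr 1
  rw [← Finset.sum_filter_add_sum_filter_not (Finset.univ : Finset Γ) (· ∈ H)]
  congr 1
  · rw [Finset.sum_subtype (p := (· ∈ H)) _ (by simp)
      (fun τ : Γ => if τ = 1 then 0 else min J (i τ))]
    refine Finset.sum_congr rfl fun h _ => ?_
    by_cases h1 : h = 1
    · simp [h1]
    · have : (h : Γ) ≠ 1 := fun h2 => h1 (Subtype.ext h2)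
      simp [h1, this]
  · refine Finset.sum_congr rfl fun τ hτ => ?_
    have hτ' : τ ∉ H := by simpa using hτ
    have h1 : τ ≠ 1 := fun h1 => hτ' (h1 ▸ H.one_mem)
    rw [if_neg h1, min_eq_right (hJ τ h1)]

/-- `|H| · ∑_{τ ∉ H} i τ = ∑_{σ ∉ H} S σ`. -/
theorem card_mul_sum_compl [DecidablePred (· ∈ H)] :
    (Fintype.card H : ℤ) * ∑ τ ∈ (Finset.univ : Finset Γ).filter (· ∉ H), i τ =
      ∑ σ ∈ (Finset.univ : Finset Γ).filter (· ∉ H), cosetSum i H σ := by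
  classical
  unfold cosetSum
  rw [Finset.sum_comm]
  have : ∀ h : H, ∑ σ ∈ (Finset.univ : Finset Γ).filter (· ∉ H), i (σ * (h : Γ)) =
      ∑ τ ∈ (Finset.univ : Finset Γ).filter (· ∉ H), i τ := by
    intro h
    refine Finset.sum_bij (fun σ _ => σ * (h : Γ)) ?_ ?_ ?_ ?_
    · intro σ hσ
      simp only [Finset.mem_filter, Finset.mem_univ, true_and] at hσ ⊢
      exact fun h1 => hσ ((Subgroup.mul_mem_cancel_right H h.2).mp h1)
    · intro a _ b _ hab; exact mul_right_cancel hab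
    · intro τ hτ
      simp only [Finset.mem_filter, Finset.mem_univ, true_and] at hτ
      refine ⟨τ * (h : Γ)⁻¹, ?_, by simp⟩
      simp only [Finset.mem_filter, Finset.mem_univ, true_and]
      exact fun h1 => hτ ((Subgroup.mul_mem_cancel_right H (H.inv_mem h.2)).mp h1)
    · intro _ _; rfl
  rw [Finset.sum_congr rfl fun h _ => this h]
  simp

/-- **Averaging inequality.** -/
theorem IsRamFn.index_mul_le_phiFn (hi : IsRamFn i) (J : ℤ) (hJ : ∀ τ : Γ, τ ≠ 1 → i τ ≤ J)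
    (S₀ : ℤ) (hS : ∀ σ : Γ, σ ∉ H → S₀ ≤ cosetSum i H σ) (hne : ∃ σ : Γ, σ ∉ H) :
    (H.index : ℤ) * S₀ ≤ phiFn i J := by
  classical
  rw [phiFn_eq_add_sum_compl H J hJ]
  obtain ⟨σ, hσ⟩ := hne
  have h1 : S₀ ≤ phiFn (fun h : H => i (h : Γ)) J :=
    (hS σ hσ).trans (hi.cosetSum_le_phiFn H hσ J hJ)
  have h2 := card_mul_sum_compl (i := i) H
  have h3 : ((Finset.univ : Finset Γ).filter (· ∉ H)).card • S₀ ≤
      ∑ σ ∈ (Finset.univ : Finset Γ).filter (· ∉ H), cosetSum i H σ :=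
    Finset.card_nsmul_le_sum _ _ _ fun σ hσ => hS σ (by simpa using hσ)
  have hcard : ((Finset.univ : Finset Γ).filter (· ∉ H)).card + Fintype.card H =
      Fintype.card Γ := by
    have := Finset.card_filter_add_card_filter_not (s := (Finset.univ : Finset Γ))
      (· ∈ H)
    rw [Finset.card_univ] at this
    have h4 : ((Finset.univ : Finset Γ).filter (· ∈ H)).card = Fintype.card H := by
      rw [Fintype.card_subtype]
    omega
  have hidx : H.index * Fintype.card H = Fintype.card Γ := by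
    have := H.index_mul_card
    rwa [Nat.card_eq_fintype_card, Nat.card_eq_fintype_card] at this
  have hHpos : (0 : ℤ) < Fintype.card H := by exact_mod_cast Fintype.card_pos
  -- `|H| * (index * S₀) ≤ |H| * (Φ_H J + Σ)`
  have hcard' : (((Finset.univ : Finset Γ).filter (· ∉ H)).card : ℤ) =
      (H.index : ℤ) * Fintype.card H - Fintype.card H := by
    have : (((Finset.univ : Finset Γ).filter (· ∉ H)).card : ℤ) + Fintype.card H =
        (H.index : ℤ) * Fintype.card H := by exact_mod_cast hcard.trans hidx.symm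
    linarith
  rw [nsmul_eq_mul, hcard', ← h2] at h3
  nlinarith [mul_le_mul_of_nonneg_left h1 hHpos.le]

end Fermat.Agent.TW.Ram
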