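import Mathlib

/-!
# TW / Ram: the `Φ`-formula for `ord (∏ g, (β - g • π))`

Abstract valued-field computation behind Fontaine's Proposition 1.5 (ii).  `L` is a field with an
integer valued "order function" `v` (multiplicative, ultrametric), `G` a finite group acting on `L`
by automorphisms preserving `v`, `π ∈ L` with trivial stabiliser.  For `β ∈ L` different from all
conjugates of `π`, with `t := max_g v (β - g • π)`,
`v (∏ g, (β - g • π)) = t + ∑_{τ ≠ 1} min t (v (τ • π - π)) =: Φ t`.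
Consequently this order is never equal to `Φ imax - 1`, where `imax := max_{τ ≠ 1} v (τ • π - π)`.
-/

set_option autoImplicit false
set_option linter.unusedSectionVars false

open Finset

namespace Fermat.Agent.TW.Ram

/-- An integer valued order function on a field (junk value at `0`). -/
structure OrdFn (L : Type*) [Field L] where
  ord : L → ℤ
  ord_mul : ∀ {x y : L}, x ≠ 0 → y ≠ 0 → ord (x * y) = ord x + ord y
  ord_add : ∀ {x y : L}, x ≠ 0 → y ≠ 0 → x + y ≠ 0 → min (ord x) (ord y) ≤ ord (x + y)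
  ord_neg : ∀ x : L, ord (-x) = ord x

namespace OrdFn

variable {L : Type*} [Field L] (v : OrdFn L)

theorem ord_one : v.ord 1 = 0 := by
  have h := v.ord_mul (one_ne_zero (α := L)) (one_ne_zero (α := L))
  rw [one_mul] at h
  linarith

theorem ord_sub {x y : L} (hx : x ≠ 0) (hy : y ≠ 0) (hxy : x - y ≠ 0) :
    min (v.ord x) (v.ord y) ≤ v.ord (x - y) := by
  have := v.ord_add hx (neg_ne_zero.mpr hy) (by rwa [← sub_eq_add_neg])
  rwa [v.ord_neg, ← sub_eq_add_neg] at this

theorem ord_sub_comm (x y : L) : v.ord (x - y) = v.ord (y - x) := by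
  rw [← neg_sub, v.ord_neg]

theorem ord_add_of_lt {x y : L} (hx : x ≠ 0) (hy : y ≠ 0) (h : v.ord x < v.ord y) :
    v.ord (x + y) = v.ord x := by
  have hxy : x + y ≠ 0 := by
    intro h0
    have : y = -x := by linear_combination h0
    rw [this, v.ord_neg] at h
    exact lt_irrefl _ h
  have h1 := v.ord_add hx hy hxy
  rw [min_eq_left h.le] at h1
  have h2 : min (v.ord (x + y)) (v.ord y) ≤ v.ord x := by
    have := v.ord_sub hxy hy (by simpa using hx)
    simpa using this
  rcases le_total (v.ord (x + y)) (v.ord y) with h3 | h3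
  · rw [min_eq_left h3] at h2; omega
  · rw [min_eq_right h3] at h2; omega

theorem ord_prod {ι : Type*} (s : Finset ι) (f : ι → L) (hf : ∀ i ∈ s, f i ≠ 0) :
    v.ord (∏ i ∈ s, f i) = ∑ i ∈ s, v.ord (f i) := by
  classical
  induction s using Finset.induction_on with
  | empty => simp [v.ord_one]
  | insert a s ha ih =>
    rw [Finset.prod_insert ha, Finset.sum_insert ha,
      v.ord_mul (hf a (Finset.mem_insert_self a s))
        (Finset.prod_ne_zero_iff.mpr fun i hi => hf i (Finset.mem_insert_of_mem hi)),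
      ih fun i hi => hf i (Finset.mem_insert_of_mem hi)]

end OrdFn

section Phi

variable {G : Type*} [Group G] [Fintype G]

open Classical in
/-- `Φ s = s + ∑_{τ ≠ 1} min s (i τ)`. -/
noncomputable def phiFn (i : G → ℤ) (s : ℤ) : ℤ :=
  s + ∑ τ ∈ (Finset.univ : Finset G).filter (· ≠ 1), min s (i τ)

theorem phiFn_eq_erase [DecidableEq G] (i : G → ℤ) (s : ℤ) :
    phiFn i s = s + ∑ τ ∈ (Finset.univ : Finset G).erase 1, min s (i τ) := by
  unfold phiFn
  congr 1
  exact Finset.sum_congr (by ext τ; simp) fun _ _ => rfl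

theorem phiFn_eq_sum_ite [DecidableEq G] (i : G → ℤ) (s : ℤ) :
    phiFn i s = s + ∑ τ : G, if τ = 1 then 0 else min s (i τ) := by
  unfold phiFn
  congr 1
  rw [Finset.sum_filter]
  exact Finset.sum_congr rfl fun τ _ => by by_cases h : τ = 1 <;> simp [h]

theorem phiFn_mono (i : G → ℤ) {s t : ℤ} (h : s ≤ t) : phiFn i s + (t - s) ≤ phiFn i t := by
  classical
  unfold phiFn
  have : ∑ τ ∈ (Finset.univ : Finset G).filter (· ≠ 1), min s (i τ) ≤
      ∑ τ ∈ (Finset.univ : Finset G).filter (· ≠ 1), min t (i τ) :=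
    Finset.sum_le_sum fun τ _ => min_le_min_right _ h
  linarith

theorem phiFn_succ_of_lt (i : G → ℤ) {s : ℤ} {τ₀ : G} (hτ₀ : τ₀ ≠ 1) (hs : s < i τ₀) :
    phiFn i s + 2 ≤ phiFn i (s + 1) := by
  classical
  unfold phiFn
  have hmem : τ₀ ∈ (Finset.univ : Finset G).filter (· ≠ 1) := by simp [hτ₀]
  have h1 : ∑ τ ∈ (Finset.univ : Finset G).filter (· ≠ 1), min s (i τ) + 1 ≤
      ∑ τ ∈ (Finset.univ : Finset G).filter (· ≠ 1), min (s + 1) (i τ) := by
    rw [← Finset.add_sum_erase _ _ hmem, ← Finset.add_sum_erase _ (fun τ => min (s + 1) (i τ)) hmem]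
    have h2 : ∑ τ ∈ ((Finset.univ : Finset G).filter (· ≠ 1)).erase τ₀, min s (i τ) ≤
        ∑ τ ∈ ((Finset.univ : Finset G).filter (· ≠ 1)).erase τ₀, min (s + 1) (i τ) :=
      Finset.sum_le_sum fun τ _ => min_le_min_right _ (by omega)
    have h3 : min s (i τ₀) = s := min_eq_left hs.le
    have h4 : min (s + 1) (i τ₀) = s + 1 := min_eq_left (by omega)
    rw [h3, h4]
    linarith
  linarith

/-- `Φ` never takes the value `Φ imax - 1` at an integer. -/
theorem phiFn_ne (i : G → ℤ) (imax : ℤ) {τ₀ : G} (hτ₀ : τ₀ ≠ 1) (h0 : i τ₀ = imax) (t : ℤ) :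
    phiFn i t ≠ phiFn i imax - 1 := by
  rcases lt_or_ge t imax with h | h
  · have h1 : phiFn i t + (imax - 1 - t) ≤ phiFn i (imax - 1) := phiFn_mono i (by omega)
    have h2 : phiFn i (imax - 1) + 2 ≤ phiFn i (imax - 1 + 1) :=
      phiFn_succ_of_lt i hτ₀ (by omega)
    rw [sub_add_cancel] at h2
    omega
  · have h1 := phiFn_mono i h
    omega

end Phi

section Formula

variable {L : Type*} [Field L] (v : OrdFn L) {G : Type*} [Group G] [Fintype G]
  [MulSemiringAction G L]

/-- Key local computation: if `g₀` maximises `v (β - g • π)` then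
`v (β - (g₀ * τ) • π) = min (v (β - g₀ • π)) (v (τ • π - π))`. -/
theorem ord_sub_smul_eq_min (hG : ∀ (g : G) (x : L), v.ord (g • x) = v.ord x) (π β : L)
    (hβ : ∀ g : G, β ≠ g • π) (g₀ : G)
    (hmax : ∀ g : G, v.ord (β - g • π) ≤ v.ord (β - g₀ • π)) (τ : G) (hτ : τ • π ≠ π) :
    v.ord (β - (g₀ * τ) • π) = min (v.ord (β - g₀ • π)) (v.ord (τ • π - π)) := by
  set A : L := β - g₀ • π with hA
  set B : L := g₀ • π - (g₀ * τ) • π with hB
  have hAB : β - (g₀ * τ) • π = A + B := by rw [hA, hB]; ring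
  have hA0 : A ≠ 0 := sub_ne_zero.mpr (hβ g₀)
  have hB' : B = g₀ • (π - τ • π) := by rw [hB, smul_sub, mul_smul]
  have hB0 : B ≠ 0 := by
    rw [hB']
    intro h0
    have h1 : π - τ • π = 0 := by
      have := congrArg (fun x => g₀⁻¹ • x) h0
      simpa using this
    exact hτ (sub_eq_zero.mp h1).symm
  have hordB : v.ord B = v.ord (τ • π - π) := by
    rw [hB', hG, v.ord_sub_comm]
  have hAB0 : A + B ≠ 0 := by rw [← hAB]; exact sub_ne_zero.mpr (hβ _)
  rw [hAB, ← hordB]
  rcases lt_trichotomy (v.ord A) (v.ord B) with h | h | h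
  · rw [v.ord_add_of_lt hA0 hB0 h, min_eq_left h.le]
  · have h1 := v.ord_add hA0 hB0 hAB0
    have h2 := hmax (g₀ * τ)
    rw [hAB] at h2
    rw [← h, min_self] at h1 ⊢
    omega
  · rw [add_comm, v.ord_add_of_lt hB0 hA0 h, min_eq_right h.le]

/-- The `Φ`-formula. -/
theorem ord_prod_sub_smul (hG : ∀ (g : G) (x : L), v.ord (g • x) = v.ord x) (π β : L)
    (hπ : ∀ τ : G, τ ≠ 1 → τ • π ≠ π) (hβ : ∀ g : G, β ≠ g • π) (g₀ : G)
    (hmax : ∀ g : G, v.ord (β - g • π) ≤ v.ord (β - g₀ • π)) :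
    v.ord (∏ g : G, (β - g • π)) =
      phiFn (fun τ : G => v.ord (τ • π - π)) (v.ord (β - g₀ • π)) := by
  classical
  rw [v.ord_prod _ _ fun g _ => sub_ne_zero.mpr (hβ g)]
  rw [← Equiv.sum_comp (Equiv.mulLeft g₀)]
  simp only [Equiv.coe_mulLeft]
  unfold phiFn
  have hmem : (1 : G) ∈ (Finset.univ : Finset G) := Finset.mem_univ _
  rw [← Finset.add_sum_erase _ _ hmem, mul_one]
  congr 1
  have hset : (Finset.univ : Finset G).erase 1 = (Finset.univ : Finset G).filter (· ≠ 1) := by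
    ext τ; simp
  rw [hset]
  refine Finset.sum_congr rfl fun τ hτ => ?_
  have hτ1 : τ ≠ 1 := by simpa using hτ
  exact ord_sub_smul_eq_min v hG π β hβ g₀ hmax τ (hπ τ hτ1)

/-- **Fontaine 1.5 (ii), abstract core.**  The order of `∏ g, (β - g • π)` is never
`Φ imax - 1`. -/
theorem ord_prod_sub_smul_ne (hG : ∀ (g : G) (x : L), v.ord (g • x) = v.ord x) (π β : L)
    (hπ : ∀ τ : G, τ ≠ 1 → τ • π ≠ π) (hβ : ∀ g : G, β ≠ g • π)
    {τ₀ : G} (hτ₀ : τ₀ ≠ 1) :
    v.ord (∏ g : G, (β - g • π)) ≠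
      phiFn (fun τ : G => v.ord (τ • π - π)) (v.ord (τ₀ • π - π)) - 1 := by
  obtain ⟨g₀, -, hg₀⟩ := Finset.exists_max_image (Finset.univ : Finset G)
    (fun g => v.ord (β - g • π)) ⟨1, Finset.mem_univ _⟩
  rw [ord_prod_sub_smul v hG π β hπ hβ g₀ fun g => hg₀ g (Finset.mem_univ _)]
  exact phiFn_ne _ _ hτ₀ rfl _

end Formula

end Fermat.Agent.TW.Ram
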