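import Fermat.Agent.CFT.Local.ExtDVROrd
import Fermat.Agent.TW.Ram.PhiFormula
import Fermat.Agent.TW.Ram.Averaging

/-!
# TW / Ram: the ramification function in Layer-B vocabulary

* `ordFnOfDVR B L : OrdFn L` — the abstract order function attached to `dvrOrd B L`;
* `ramFn O K L x τ = ord_L (τ x - x)`;
* `isRamFn_ramFn` — for a primitive element `x` (`τ x ≠ x` for `τ ≠ 1`), `ramFn x` satisfies the
  axioms `IsRamFn` of `Averaging.lean`.
-/

set_option autoImplicit false
set_option linter.unusedSectionVars false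

open IsLocalRing Fermat.Agent.CFT

namespace Fermat.Agent.TW.Ram

/-- The abstract order function of a discrete valuation ring `B` with fraction field `L`. -/
noncomputable def ordFnOfDVR (B L : Type) [CommRing B] [IsDomain B] [IsDiscreteValuationRing B]
    [Field L] [Algebra B L] [IsFractionRing B L] : OrdFn L where
  ord := dvrOrd B L
  ord_mul := fun hx hy => dvrOrd_mul B L hx hy
  ord_add := fun hx hy hxy => min_dvrOrd_le_dvrOrd_add B L hx hy hxy
  ord_neg := fun x => dvrOrd_neg B L x

@[simp] theorem ordFnOfDVR_ord (B L : Type) [CommRing B] [IsDomain B] [IsDiscreteValuationRing B]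
    [Field L] [Algebra B L] [IsFractionRing B L] (x : L) :
    (ordFnOfDVR B L).ord x = dvrOrd B L x := rfl

section

variable (O K : Type) [CommRing O] [IsDomain O] [IsDiscreteValuationRing O]
  [Field K] [Algebra O K] [IsFractionRing O K] [CharZero K]
  (L : Type) [Field L] [Algebra K L] [FiniteDimensional K L] [Algebra O L] [IsScalarTower O K L]
  [IsDiscreteValuationRing (integralClosure O L)] [IsFractionRing (integralClosure O L) L]

/-- The ramification function `τ ↦ ord_L (τ x - x)` of an element `x : L`. -/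
noncomputable def ramFn (x : L) (τ : L ≃ₐ[K] L) : ℤ :=
  dvrOrd (integralClosure O L) L (τ x - x)

theorem ramFn_def (x : L) (τ : L ≃ₐ[K] L) :
    ramFn O K L x τ = dvrOrd (integralClosure O L) L (τ x - x) := rfl

theorem ramFn_inv (x : L) (τ : L ≃ₐ[K] L) : ramFn O K L x τ⁻¹ = ramFn O K L x τ := by
  unfold ramFn
  rw [← dvrOrd_galois O K L τ (τ⁻¹ x - x), map_sub, ← AlgEquiv.mul_apply, mul_inv_cancel,
    AlgEquiv.one_apply, ← dvrOrd_neg, neg_sub]

theorem isRamFn_ramFn {x : L} (hx : ∀ τ : L ≃ₐ[K] L, τ ≠ 1 → τ x ≠ x) :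
    IsRamFn (ramFn O K L x) where
  inv := ramFn_inv O K L x
  mul := by
    intro σ τ hσ hτ hστ
    unfold ramFn
    have h1 : (σ * τ) x - x = σ (τ x - x) + (σ x - x) := by
      rw [AlgEquiv.mul_apply, map_sub]; ring
    have hA : σ (τ x - x) ≠ 0 := by
      rw [Ne, EmbeddingLike.map_eq_zero_iff, sub_eq_zero]
      exact hx τ hτ
    have hB : σ x - x ≠ 0 := sub_ne_zero.mpr (hx σ hσ)
    have hAB : σ (τ x - x) + (σ x - x) ≠ 0 := by
      rw [← h1]; exact sub_ne_zero.mpr (hx _ hστ)
    have h2 := min_dvrOrd_le_dvrOrd_add (integralClosure O L) L hA hB hAB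
    rw [dvrOrd_galois O K L σ] at h2
    rw [h1, min_comm]
    exact h2

end

end Fermat.Agent.TW.Ram
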