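import Mathlib
import Fermat.Agent.CFT.Local.ExtDVRTower
import Fermat.Agent.TW.Ram.RamFn
import Fermat.Agent.TW.Ram.Eisenstein

/-!
# Program G (S56), block F3-(e): tower glue for totally ramified extensions

Layer-B vocabulary of main's `CFT/Local/ExtDVR*.lean`.  `L / K` totally ramified
(`ramIdx O L = finrank K L`), `M : IntermediateField K L`.

* (G0) `ramIdx_bot_eq_finrank`, `ramIdx_top_eq_finrank` : `M / K` and `L / M` are totally ramified;
* (G1) `hgen_of_uniformiser` : every integer of `M` is a polynomial in a uniformiser of `M` with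
  coefficients in `O` (the hypothesis `hgen` of E2 / E3);
* (G2) `dvrOrd_coe_eq_finrank_mul`, `dvrOrd_coe_eq_card_mul`, `ramFn_coe_eq_card_mul` :
  `ord_L = [L : M] · ord_M` on `M`;
* (G3) `card_fixingSubgroup_mul_ramIdx`, `relIndex_fixingSubgroup_mul_card`,
  `relIndex_fixingSubgroup_mul_ramIdx` : the counting identities.
-/

set_option autoImplicit false
set_option linter.unusedSectionVars false

open IsLocalRing Polynomial Module

namespace Fermat.Agent.TW.Ram

open Fermat.Agent.CFT

variable (O K : Type) [CommRing O] [IsDomain O] [IsDiscreteValuationRing O]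
  [IsAdicComplete (maximalIdeal O) O]
  [Field K] [Algebra O K] [IsFractionRing O K] [CharZero K]
  (L : Type) [Field L] [Algebra K L] [FiniteDimensional K L] [Algebra O L] [IsScalarTower O K L]

/-- Both steps of a tower inside a totally ramified extension are totally ramified. -/
theorem ramIdx_bot_top_eq_finrank [IsLocalRing (integralClosure O L)]
    (htr : ramIdx O L = finrank K L) (M : IntermediateField K L)
    [IsLocalRing (integralClosure O M)] [IsLocalRing (integralClosure (integralClosure O M) L)] :
    ramIdx O M = finrank K M ∧ ramIdx (integralClosure O M) L = finrank M L := by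
  have := intRing_isDiscreteValuationRing O K M
  have := intRing_isFractionRing O K M
  have := intRing_isAdicComplete O K M
  have := tower_charZero K M
  have h1 := ramIdx_tower O K M L
  have h2 := finrank_mul_finrank K M L
  obtain ⟨p1, l1⟩ := ramIdx_pos_le O K M
  obtain ⟨p2, l2⟩ := ramIdx_pos_le (integralClosure O M) M L
  rw [htr, ← h2] at h1
  have hn1 : 0 < finrank K M := finrank_pos
  have hn2 : 0 < finrank M L := finrank_pos
  -- `n₁ n₂ = e₁ e₂`, `e₁ ≤ n₁`, `e₂ ≤ n₂`
  have hA : ramIdx O M = finrank K M := by
    by_contra hne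
    have hlt : ramIdx O M < finrank K M := lt_of_le_of_ne l1 hne
    have : ramIdx O M * ramIdx (integralClosure O M) L < finrank K M * finrank M L :=
      calc ramIdx O M * ramIdx (integralClosure O M) L
          ≤ ramIdx O M * finrank M L := Nat.mul_le_mul_left _ l2
        _ < finrank K M * finrank M L := Nat.mul_lt_mul_of_pos_right hlt hn2
    omega
  refine ⟨hA, ?_⟩
  rw [hA] at h1
  exact (Nat.eq_of_mul_eq_mul_left hn1 h1).symm

/-- **(G0a)** Total ramification is inherited by the bottom step. -/
theorem ramIdx_bot_eq_finrank [IsLocalRing (integralClosure O L)]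
    (htr : ramIdx O L = finrank K L) (M : IntermediateField K L)
    [IsLocalRing (integralClosure O M)] : ramIdx O M = finrank K M := by
  have := intRing_isDiscreteValuationRing O K M
  have := intRing_isFractionRing O K M
  have := intRing_isAdicComplete O K M
  have := tower_charZero K M
  have := intRing_isLocalRing (integralClosure O M) M L
  exact (ramIdx_bot_top_eq_finrank O K L htr M).1

/-- **(G0b)** Total ramification is inherited by the top step. -/
theorem ramIdx_top_eq_finrank [IsLocalRing (integralClosure O L)]
    (htr : ramIdx O L = finrank K L) (M : IntermediateField K L)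
    [IsLocalRing (integralClosure O M)] [IsLocalRing (integralClosure (integralClosure O M) L)] :
    ramIdx (integralClosure O M) L = finrank M L :=
  (ramIdx_bot_top_eq_finrank O K L htr M).2

/-- **(G2)** `ord_L = [L : M] · ord_M` on `M`. -/
theorem dvrOrd_coe_eq_finrank_mul [IsDiscreteValuationRing (integralClosure O L)]
    [IsFractionRing (integralClosure O L) L]
    (htr : ramIdx O L = finrank K L) (M : IntermediateField K L)
    [IsDiscreteValuationRing (integralClosure O M)] [IsFractionRing (integralClosure O M) M]
    (z : M) :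
    dvrOrd (integralClosure O L) L (z : L) =
      finrank M L * dvrOrd (integralClosure O M) M z := by
  have := intRing_isAdicComplete O K M
  have := tower_charZero K M
  have := intRing_isDiscreteValuationRing (integralClosure O M) M L
  have := intRing_isFractionRing (integralClosure O M) M L
  have h1 := dvrOrd_algebraMap_eq_ramIdx_mul (integralClosure O M) M L z
  rw [dvrOrd_tower_eq O K M L, ramIdx_top_eq_finrank O K L htr M] at h1
  exact h1

/-- **(G2')** `ord_L = |Gal(L/M)| · ord_M` on `M`. -/
theorem dvrOrd_coe_eq_card_mul [IsGalois K L] [IsDiscreteValuationRing (integralClosure O L)]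
    [IsFractionRing (integralClosure O L) L]
    (htr : ramIdx O L = finrank K L) (M : IntermediateField K L)
    [IsDiscreteValuationRing (integralClosure O M)] [IsFractionRing (integralClosure O M) M]
    (z : M) :
    dvrOrd (integralClosure O L) L (z : L) =
      Nat.card M.fixingSubgroup * dvrOrd (integralClosure O M) M z := by
  rw [IsGalois.card_fixingSubgroup_eq_finrank M]
  exact dvrOrd_coe_eq_finrank_mul O K L htr M z

/-- **(G2'')** The ramification function of an element of `M`, computed in `M`. -/
theorem ramFn_coe_eq_card_mul [IsGalois K L] [IsDiscreteValuationRing (integralClosure O L)]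
    [IsFractionRing (integralClosure O L) L]
    (htr : ramIdx O L = finrank K L) (M : IntermediateField K L)
    [IsDiscreteValuationRing (integralClosure O M)] [IsFractionRing (integralClosure O M) M]
    (y w : M) (σ : L ≃ₐ[K] L) (hw : σ (y : L) = (w : L)) :
    ramFn O K L (y : L) σ =
      Nat.card M.fixingSubgroup * dvrOrd (integralClosure O M) M (w - y) := by
  rw [← dvrOrd_coe_eq_card_mul O K L htr M (w - y), ramFn_def, hw]
  rfl

/-- **(G1)** `hgen` of E2 / E3: `O_M = O[π]`, with coefficients in `O`, hence fixed by the whole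
Galois group. -/
theorem hgen_of_uniformiser [IsGalois K L] [IsLocalRing (integralClosure O L)]
    (htr : ramIdx O L = finrank K L) (M : IntermediateField K L)
    {π : integralClosure O M} (hπ : Irreducible π) :
    ∀ x : L, IsIntegral O x → (∀ h ∈ M.fixingSubgroup, h x = x) →
      ∃ g : L[X], (∀ n, IsIntegral O (g.coeff n) ∧ ∀ σ : L ≃ₐ[K] L, σ (g.coeff n) = g.coeff n) ∧
        g.eval (((π : M) : L)) = x := by
  intro x hx hxH
  have := intRing_isDiscreteValuationRing O K M
  have htrM := ramIdx_bot_eq_finrank O K L htr M
  have hsc : IsScalarTower O M L := tower_isScalarTower_O_L_M O K M L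
  have hsc2 : IsScalarTower O (integralClosure O M) L := tower_isScalarTower_O_intRing_M O K M L
  -- `x ∈ M`
  have hxM : x ∈ M := by
    have h1 : x ∈ IntermediateField.fixedField M.fixingSubgroup := by
      rw [IntermediateField.mem_fixedField_iff]
      exact hxH
    rwa [IsGalois.fixedField_fixingSubgroup] at h1
  -- `x` is an integer of `M`
  have hxint : IsIntegral O (⟨x, hxM⟩ : M) := by
    have hinj : Function.Injective (algebraMap M L) := (algebraMap M L).injective
    exact (isIntegral_algebraMap_iff hinj).mp hx
  obtain ⟨a, ha⟩ := exists_repr_uniformiser O K M htrM hπ ⟨⟨x, hxM⟩, hxint⟩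
  set q : O[X] := ∑ i : Fin (finrank K M), C (a i) * X ^ (i : ℕ) with hq
  refine ⟨q.map (algebraMap O L), fun n => ⟨?_, fun σ => ?_⟩, ?_⟩
  · rw [coeff_map]; exact isIntegral_algebraMap
  · rw [coeff_map, IsScalarTower.algebraMap_apply O K L]
    exact σ.commutes _
  · rw [eval_map, ← aeval_def]
    have h1 : aeval π q = (⟨⟨x, hxM⟩, hxint⟩ : integralClosure O M) := by
      rw [ha, hq, map_sum]
      exact Finset.sum_congr rfl fun i _ => by rw [map_mul, map_pow, aeval_C, aeval_X]
    have h2 := aeval_algebraMap_apply L π q
    rw [h1] at h2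
    exact h2

/-- **(G3a)** `|Gal(L/M)| · e(M/K) = [L : K]`. -/
theorem card_fixingSubgroup_mul_ramIdx [IsGalois K L] [IsLocalRing (integralClosure O L)]
    (htr : ramIdx O L = finrank K L) (M : IntermediateField K L)
    [IsLocalRing (integralClosure O M)] :
    Nat.card M.fixingSubgroup * ramIdx O M = finrank K L := by
  rw [IsGalois.card_fixingSubgroup_eq_finrank M, ramIdx_bot_eq_finrank O K L htr M, mul_comm]
  exact finrank_mul_finrank K M L

/-- **(G3b)** `[Γ₁ : H] · |H| = |Γ₁|` for `K₁ ≤ M`, `H = Gal(L/M)`, `Γ₁ = Gal(L/K₁)`. -/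
theorem relIndex_fixingSubgroup_mul_card [IsGalois K L] (K₁ M : IntermediateField K L)
    (h : K₁ ≤ M) :
    M.fixingSubgroup ≤ K₁.fixingSubgroup ∧
    (M.fixingSubgroup).relIndex K₁.fixingSubgroup * Nat.card M.fixingSubgroup =
      Nat.card K₁.fixingSubgroup := by
  have hle : M.fixingSubgroup ≤ K₁.fixingSubgroup := IntermediateField.fixingSubgroup_le h
  refine ⟨hle, ?_⟩
  have := Subgroup.relIndex_mul_relIndex ⊥ M.fixingSubgroup K₁.fixingSubgroup bot_le hle
  rw [Subgroup.relIndex_bot_left, Subgroup.relIndex_bot_left] at this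
  rw [mul_comm]
  exact this

/-- **(G3c)** `[Γ₁ : H] · e(K₁/K) = e(M/K)` for `K₁ ≤ M`. -/
theorem relIndex_fixingSubgroup_mul_ramIdx [IsGalois K L] [IsLocalRing (integralClosure O L)]
    (htr : ramIdx O L = finrank K L) (K₁ M : IntermediateField K L) (h : K₁ ≤ M)
    [IsLocalRing (integralClosure O K₁)] [IsLocalRing (integralClosure O M)] :
    (M.fixingSubgroup).relIndex K₁.fixingSubgroup * ramIdx O K₁ = ramIdx O M := by
  obtain ⟨-, h1⟩ := relIndex_fixingSubgroup_mul_card K L K₁ M h
  have h2 := card_fixingSubgroup_mul_ramIdx O K L htr M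
  have h3 := card_fixingSubgroup_mul_ramIdx O K L htr K₁
  have hpos : 0 < Nat.card M.fixingSubgroup := Nat.card_pos
  apply Nat.eq_of_mul_eq_mul_left hpos
  rw [h2, ← h3, ← h1]
  ring

end Fermat.Agent.TW.Ram
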