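import Fermat.Agent.TW.Ram.BreakBound
import Fermat.Agent.TW.Ram.TowerGlue
import Fermat.Agent.TW.Ram.PmDescent
import Fermat.Agent.CFT.Local.UnramBasic
import Fermat.Agent.TW.Ram.MaxUnram

/-!
# TW / Ram: the packaged break bound (F3-(e), final statement)

* `break_le_of_fontainePAbove` (totally ramified base): `L / K` totally ramified Galois (Layer B),
  `(P_m)` for all `m > p / (p - 1)`, `K₁ ≤ M` intermediate fields with `[Gal(L/K₁) : Gal(L/M)] = p`
  prime, `σ ∈ Gal(L/K₁) \ Gal(L/M)`, `π` a uniformiser of `M`.  Then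
  `(p - 1) * (ord_M (σ π - π) - 1) ≤ e(K₁/K)`.
* `break_le_packaged` : the same over an unramified `K₀ / K` (`L / K` Galois, `L / K₀` totally
  ramified), via the descent E0 of `(P_m)`.
-/

set_option autoImplicit false
set_option linter.unusedSectionVars false
set_option linter.style.haveILetI false

open IsLocalRing Polynomial Module Fermat.Agent.CFT

namespace Fermat.Agent.TW.Ram

section TotallyRamified

variable (O K : Type) [CommRing O] [IsDomain O] [IsDiscreteValuationRing O]
  [IsAdicComplete (maximalIdeal O) O]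
  [Field K] [Algebra O K] [IsFractionRing O K] [CharZero K]
  (L : Type) [Field L] [Algebra K L] [FiniteDimensional K L] [Algebra O L] [IsScalarTower O K L]

variable [IsDiscreteValuationRing (integralClosure O L)]
  [IsFractionRing (integralClosure O L) L]

/-- A uniformiser of a totally ramified extension generates it as an algebra over `K`. -/
theorem adjoin_field_uniformiser_eq_top (htr : ramIdx O L = finrank K L)
    {π : integralClosure O L} (hπ : Irreducible π) : Algebra.adjoin K {(π : L)} = ⊤ := by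
  have hint : IsIntegral K (π : L) := IsIntegral.of_finite K _
  have hdeg : finrank K L ≤ (minpoly K (π : L)).natDegree := by
    by_contra hlt
    exact aeval_uniformiser_ne_zero O K L htr hπ _ (minpoly.ne_zero hint) (not_le.mp hlt)
      (minpoly.aeval K _)
  have hdeg' : (minpoly K (π : L)).natDegree = finrank K L :=
    le_antisymm (minpoly.natDegree_le _) hdeg
  have htop : IntermediateField.adjoin K {(π : L)} = ⊤ :=
    (Field.primitive_element_iff_minpoly_natDegree_eq K _).mpr hdeg'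
  rw [← IntermediateField.adjoin_simple_toSubalgebra_of_isAlgebraic hint.isAlgebraic, htop,
    IntermediateField.top_toSubalgebra]

/-- The subgroup `{τ ∈ Γ₁ | τ y = y ∨ i ≤ ord (τ y - y)}`. -/
def geSubgroup (Γ₁ : Subgroup (L ≃ₐ[K] L)) (y : L) (i : ℤ) : Subgroup (L ≃ₐ[K] L) where
  carrier := {τ | τ ∈ Γ₁ ∧ (ordFnOfDVR (integralClosure O L) L).IsGe i (τ y - y)}
  mul_mem' := by
    intro a b ha hb
    refine ⟨Γ₁.mul_mem ha.1 hb.1, ?_⟩
    have h1 : (a * b) y - y = a • (b y - y) + (a y - y) := by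
      rw [AlgEquiv.mul_apply, AlgEquiv.smul_def, map_sub]; ring
    rw [h1]
    exact OrdFn.IsGe.add (isGe_smul _ (fun g z => dvrOrd_galois O K L g z) hb.2 a) ha.2
  one_mem' := by
    refine ⟨Γ₁.one_mem, ?_⟩
    rw [AlgEquiv.one_apply, sub_self]
    exact OrdFn.isGe_zero _
  inv_mem' := by
    intro a ha
    refine ⟨Γ₁.inv_mem ha.1, ?_⟩
    have h1 : a⁻¹ y - y = -(a⁻¹ • (a y - y)) := by
      rw [AlgEquiv.smul_def, map_sub, ← AlgEquiv.mul_apply, inv_mul_cancel, AlgEquiv.one_apply]
      ring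
    rw [h1]
    exact OrdFn.IsGe.neg (isGe_smul _ (fun g z => dvrOrd_galois O K L g z) ha.2 a⁻¹)

theorem mem_geSubgroup (Γ₁ : Subgroup (L ≃ₐ[K] L)) (y : L) (i : ℤ) (τ : L ≃ₐ[K] L) :
    τ ∈ geSubgroup O K L Γ₁ y i ↔
      τ ∈ Γ₁ ∧ (ordFnOfDVR (integralClosure O L) L).IsGe i (τ y - y) := Iff.rfl

/-- If `[Γ₁ : H]` is prime, `y` is `H`-invariant with stabiliser (in `Γ₁`) equal to `H`, then
`ord (τ y - y)` takes its minimum over `Γ₁ \ H` at every `σ ∈ Γ₁ \ H`. -/
theorem ramFn_le_of_relIndex_prime {p : ℕ} (hp : p.Prime) (Γ₁ H : Subgroup (L ≃ₐ[K] L))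
    (hH : H ≤ Γ₁) (hidx : H.relIndex Γ₁ = p) (y : L) (hyH : ∀ h ∈ H, h y = y)
    (hstab : ∀ τ ∈ Γ₁, τ y = y → τ ∈ H) {σ : L ≃ₐ[K] L} (hσ : σ ∈ Γ₁) (hσH : σ ∉ H) :
    ∀ τ ∈ Γ₁, τ ∉ H → ramFn O K L y σ ≤ ramFn O K L y τ := by
  set G := geSubgroup O K L Γ₁ y (ramFn O K L y σ) with hG
  have hHG : H ≤ G := by
    intro h hh
    refine ⟨hH hh, ?_⟩
    rw [hyH h hh, sub_self]
    exact OrdFn.isGe_zero _
  have hGΓ : G ≤ Γ₁ := fun τ hτ => hτ.1
  have hσG : σ ∈ G := ⟨hσ, Or.inr le_rfl⟩
  have hmul := Subgroup.relIndex_mul_relIndex H G Γ₁ hHG hGΓ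
  rw [hidx] at hmul
  have h1 : H.relIndex G ≠ 1 := by
    intro h1
    exact hσH (Subgroup.relIndex_eq_one.mp h1 hσG)
  have h2 : H.relIndex G = p := by
    rcases (Nat.dvd_prime hp).mp (Dvd.intro _ hmul) with h | h
    · exact absurd h h1
    · exact h
  have h3 : G.relIndex Γ₁ = 1 := by
    rw [h2] at hmul
    have hp0 : 0 < p := hp.pos
    exact Nat.eq_of_mul_eq_mul_left hp0 (by rw [hmul, mul_one])
  have hΓG : Γ₁ ≤ G := Subgroup.relIndex_eq_one.mp h3
  intro τ hτ hτH
  rcases (hΓG hτ).2 with h | h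
  · exact absurd (hstab τ hτ (sub_eq_zero.mp h)) hτH
  · exact h

variable [IsGalois K L]

/-- **Packaged break bound, totally ramified base.** -/
theorem break_le_of_fontainePAbove (htr : ramIdx O L = finrank K L) {ϖ : O}
    (hϖ : Irreducible ϖ) {p : ℕ} (hp : p.Prime) (hP : FontainePAbove O K L ϖ p (p - 1))
    (K₁ M : IntermediateField K L) (h : K₁ ≤ M)
    [IsDiscreteValuationRing (integralClosure O M)] [IsFractionRing (integralClosure O M) M]
    [IsLocalRing (integralClosure O K₁)]
    (hidx : (M.fixingSubgroup).relIndex K₁.fixingSubgroup = p)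
    {σ : L ≃ₐ[K] L} (hσ : σ ∈ K₁.fixingSubgroup) (hσM : σ ∉ M.fixingSubgroup)
    {π : integralClosure O M} (hπ : Irreducible π) (w : M)
    (hw : σ (((π : M) : L)) = (w : L)) :
    ((p : ℤ) - 1) * (dvrOrd (integralClosure O M) M (w - (π : M)) - 1) ≤ ramIdx O K₁ := by
  set Γ₁ := K₁.fixingSubgroup with hΓ₁
  set H := M.fixingSubgroup with hHdef
  set y : L := ((π : M) : L) with hy
  obtain ⟨hH, hcard⟩ := relIndex_fixingSubgroup_mul_card K L K₁ M h
  rw [← hΓ₁, ← hHdef, hidx] at hcard
  have htrM : ramIdx O M = finrank K M := ramIdx_bot_eq_finrank O K L htr M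
  -- `y` is integral, `H`-invariant, with stabiliser `H`
  have hyint : IsIntegral O y := by
    haveI := tower_isScalarTower_O_L_M O K M L
    have : IsIntegral O (π : M) := π.2
    exact this.map (IsScalarTower.toAlgHom O M L)
  have hyH : ∀ τ ∈ H, τ y = y := by
    intro τ hτ
    exact (IntermediateField.mem_fixingSubgroup_iff M τ).mp hτ y (π : M).2
  have hstab : ∀ τ : L ≃ₐ[K] L, τ y = y → τ ∈ H := by
    intro τ hτ
    have hadj := adjoin_field_uniformiser_eq_top O K M htrM hπ
    have heq : ((τ : L →ₐ[K] L).comp M.val) = M.val := by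
      refine AlgHom.ext_of_adjoin_eq_top hadj ?_
      intro x hx
      rw [Set.mem_singleton_iff] at hx
      subst hx
      exact hτ
    rw [hHdef, IntermediateField.mem_fixingSubgroup_iff]
    intro x hx
    exact DFunLike.congr_fun heq ⟨x, hx⟩
  have hgen := hgen_of_uniformiser O K L htr M hπ
  have hmin := ramFn_le_of_relIndex_prime O K L hp Γ₁ H hH hidx y hyH
    (fun τ _ hτ => hstab τ hτ) hσ hσM
  have hBB := break_bound_intrinsic O K L htr hϖ p hp.two_le hP Γ₁ H hH hidx y hyint hyH
    (fun x hx hxH => by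
      obtain ⟨g, hg, hgy⟩ := hgen x hx hxH
      exact ⟨g, fun n => ⟨(hg n).1, fun σ _ => (hg n).2 σ⟩, hgy⟩)
    hσ hσM hmin
  -- translate
  have hram : ramFn O K L y σ =
      Nat.card H * dvrOrd (integralClosure O M) M (w - (π : M)) :=
    ramFn_coe_eq_card_mul O K L htr M (π : M) w σ hw
  have hdeg : Nat.card Γ₁ * ramIdx O K₁ = finrank K L :=
    card_fixingSubgroup_mul_ramIdx O K L htr K₁
  rw [hram] at hBB
  set i : ℤ := dvrOrd (integralClosure O M) M (w - (π : M)) with hi
  set e1 : ℕ := ramIdx O K₁ with he1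
  have hHpos : (1 : ℤ) ≤ (Nat.card H : ℤ) := by exact_mod_cast Nat.card_pos
  have hp2 : (2 : ℤ) ≤ p := by exact_mod_cast hp.two_le
  have hdeg' : (finrank K L : ℤ) = (p : ℤ) * Nat.card H * e1 := by
    rw [← hdeg, ← hcard]; push_cast; ring
  rw [hdeg'] at hBB
  -- `n * ((p-1)(i-1) - e1) ≤ p - 1 < n`, `n = p * |H|`
  by_contra hcon
  rw [not_le] at hcon
  have h6 : (1 : ℤ) ≤ ((p : ℤ) - 1) * (i - 1) - e1 := by omega
  have h7 : (p : ℤ) * Nat.card H * 1 ≤ (p : ℤ) * Nat.card H * (((p : ℤ) - 1) * (i - 1) - e1) :=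
    mul_le_mul_of_nonneg_left h6 (by positivity)
  have h8 : (p : ℤ) * 1 ≤ (p : ℤ) * Nat.card H := mul_le_mul_of_nonneg_left hHpos (by positivity)
  nlinarith

/-- **Packaged (e)**, literal statement fixed by the sub-owner (helper13, msg 19684); the
normality hypothesis `hN` is not needed. -/
theorem break_bound_packaged (htr : ramIdx O L = Module.finrank K L) {ϖ : O} (hϖ : Irreducible ϖ)
    {p : ℕ} (hp : p.Prime) (hP : FontainePAbove O K L ϖ p (p - 1))
    (K₁ M : IntermediateField K L) (h1M : K₁ ≤ M)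
    [IsDiscreteValuationRing (integralClosure O K₁)]
    [IsDiscreteValuationRing (integralClosure O M)] [IsFractionRing (integralClosure O M) M]
    (_hN : (M.fixingSubgroup.subgroupOf K₁.fixingSubgroup).Normal)
    (hidx : M.fixingSubgroup.relIndex K₁.fixingSubgroup = p)
    {π : integralClosure O M} (hπ : Irreducible π) {σ : L ≃ₐ[K] L}
    (hσ₁ : σ ∈ K₁.fixingSubgroup) (hσM : σ ∉ M.fixingSubgroup) (w : M)
    (hw : σ ((π : M) : L) = (w : L)) :
    ((p : ℤ) - 1) * (dvrOrd (integralClosure O M) M (w - (π : M)) - 1) ≤ (ramIdx O K₁ : ℤ) :=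
  break_le_of_fontainePAbove O K L htr hϖ hp hP K₁ M h1M hidx hσ₁ hσM hπ w hw

end TotallyRamified

section Packaged

variable (O K : Type) [CommRing O] [IsDomain O] [IsDiscreteValuationRing O]
  [IsAdicComplete (maximalIdeal O) O]
  [Field K] [Algebra O K] [IsFractionRing O K] [CharZero K]

/-- A uniformiser of `O` stays a uniformiser in an unramified extension. -/
theorem irreducible_algebraMap_of_isUnramExt (K₀ : Type) [Field K₀] [Algebra K K₀]
    [FiniteDimensional K K₀] [Algebra O K₀] [IsScalarTower O K K₀]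
    [IsDiscreteValuationRing (integralClosure O K₀)] (h : IsUnramExt O K₀) {ϖ : O}
    (hϖ : Irreducible ϖ) : Irreducible (algebraMap O (integralClosure O K₀) ϖ) := by
  have h1 := (isUnramExt_iff_map_eq O K₀).mp h
  rw [hϖ.maximalIdeal_eq, Ideal.map_span, Set.image_singleton] at h1
  have h0 : algebraMap O (integralClosure O K₀) ϖ ≠ 0 := by
    intro h0
    exact hϖ.ne_zero (intRing_algebraMap_injective O K K₀ (h0.trans (map_zero _).symm))
  exact IsDiscreteValuationRing.irreducible_of_span_eq_maximalIdeal _ h0 h1.symm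

variable (L : Type) [Field L] [Algebra K L] [FiniteDimensional K L] [Algebra O L]
  [IsScalarTower O K L] [IsGalois K L]

/-- **Packaged break bound (F3-(e)).**  `L / K` finite Galois (Layer B) with `(P_m)` for all
`m > p / (p - 1)`; `K₀ / K` unramified, `L / K₀` totally ramified; `K₁ ≤ M` intermediate fields of
`L / K₀` with `[Gal(L/K₁) : Gal(L/M)] = p`; `σ ∈ Gal(L/K₁) \ Gal(L/M)`; `π` a uniformiser of `M`.
Then `(p - 1) * (ord_M (σ π - π) - 1) ≤ e(K₁/K₀)`. -/
theorem break_le_packaged {ϖ : O} (hϖ : Irreducible ϖ) {p : ℕ} (hp : p.Prime)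
    (hP : FontainePAbove O K L ϖ p (p - 1)) (K₀ : IntermediateField K L)
    [IsLocalRing (integralClosure O K₀)] [IsLocalRing (integralClosure (integralClosure O K₀) L)]
    (hunr : IsUnramExt O K₀)
    (htr : ramIdx (integralClosure O K₀) L = finrank K₀ L)
    (K₁ M : IntermediateField K₀ L) (h : K₁ ≤ M)
    [IsDiscreteValuationRing (integralClosure (integralClosure O K₀) M)]
    [IsFractionRing (integralClosure (integralClosure O K₀) M) M]
    [IsLocalRing (integralClosure (integralClosure O K₀) K₁)]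
    (hidx : (M.fixingSubgroup).relIndex K₁.fixingSubgroup = p)
    {σ : L ≃ₐ[K₀] L} (hσ : σ ∈ K₁.fixingSubgroup) (hσM : σ ∉ M.fixingSubgroup)
    {π : integralClosure (integralClosure O K₀) M} (hπ : Irreducible π) (w : M)
    (hw : σ (((π : M) : L)) = (w : L)) :
    ((p : ℤ) - 1) * (dvrOrd (integralClosure (integralClosure O K₀) M) M (w - (π : M)) - 1) ≤
      ramIdx (integralClosure O K₀) K₁ := by
  haveI := intRing_isDiscreteValuationRing O K K₀
  haveI := intRing_isFractionRing O K K₀
  haveI := intRing_isAdicComplete O K K₀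
  haveI := tower_charZero K K₀
  haveI := intRing_isDiscreteValuationRing (integralClosure O K₀) K₀ L
  haveI := intRing_isFractionRing (integralClosure O K₀) K₀ L
  have hϖ₀ := irreducible_algebraMap_of_isUnramExt O K K₀ hunr hϖ
  exact break_le_of_fontainePAbove (integralClosure O K₀) K₀ L htr hϖ₀ hp
    (FontainePAbove.descent O K K₀ L hP) K₁ M h hidx hσ hσM hπ w hw

/-- **E0-BASE.**  From the untouched Galois base `(O, K, L)` (finite residue field) to a totally
ramified base `(integralClosure O K₀, K₀, L)`: `K₀ / K` unramified of degree `f(L/K)`, `L / K₀`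
totally ramified, the uniformiser stays a uniformiser and `(P_m)` descends.  Instance-dependent
clauses are stated for every instance (`IsLocalRing` is a proposition). -/
theorem exists_totRam_base [Finite (ResidueField O)] {ϖ : O} (hϖ : Irreducible ϖ) {c d : ℕ}
    (hP : FontainePAbove O K L ϖ c d) :
    ∃ K₀ : IntermediateField K L, IsUnramExt O K₀ ∧
      (∀ [IsLocalRing (integralClosure O L)], finrank K K₀ = inertDeg O L) ∧
      (∀ [IsLocalRing (integralClosure (integralClosure O K₀) L)],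
        ramIdx (integralClosure O K₀) L = finrank K₀ L) ∧
      Irreducible (algebraMap O (integralClosure O K₀) ϖ) ∧
      FontainePAbove (integralClosure O K₀) K₀ L (algebraMap O (integralClosure O K₀) ϖ) c d := by
  haveI := intRing_isLocalRing O K L
  obtain ⟨K₀, h₀, hf⟩ := exists_maxUnram O K L
  haveI := intRing_isDiscreteValuationRing O K K₀
  refine ⟨K₀, h₀, fun {_} => hf, fun {_} => ?_,
    irreducible_algebraMap_of_isUnramExt O K K₀ h₀ hϖ, FontainePAbove.descent O K K₀ L hP⟩
  exact ramIdx_eq_finrank_of_unram O K L K₀ h₀ hf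

end Packaged

end Fermat.Agent.TW.Ram
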