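import Mathlib
import Fermat.Agent.TW.Ram.PhiFormula

/-!
# TW / Ram: the coset bound (easy half of Serre, *Local Fields*, IV Prop. 3) and `Φ(i_max)`

Abstract setting of `PhiFormula`: `L` a field with an order function `v`, `Γ` a finite group
acting on `L` preserving `v`, `x ∈ L` integral with trivial stabiliser (a uniformiser generating
the ring of integers in the application), `i τ := v (τ • x - x)`.

* `coset_sum_ge` : if `s ∉ H` and every `H`-invariant integral `c` satisfies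
  `Bnd ≤ v (s • c - c)` (unless `s • c = c`), then `Bnd ≤ ∑_{h ∈ H} i (s h)`.
  (Proof: `∏_h (x - s h x) = (s • f)(x) - f(x) = ∑_k (s • c_k - c_k) x ^ k`, `f = ∏_h (X - h x)`.)
* `card_mul_phiFn_ge`, `phiFn_ge` : for subgroups `H ≤ Γ1` (`H ≠ Γ1`), if `i τ ≥ 1` outside `Γ1`,
  then `(#Γ - #Γ1) + #Γ1 * B ≤ Φ(J)` (`J ≥ i_max`) when the bound above holds with `Bnd = #H * B`.
-/

set_option autoImplicit false
set_option linter.unusedSectionVars false

open Finset Polynomial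

namespace Fermat.Agent.TW.Ram

namespace OrdFn

variable {L : Type*} [Field L] (v : OrdFn L)

/-- `y = 0` or `n ≤ v y`. -/
def IsGe (n : ℤ) (y : L) : Prop := y = 0 ∨ n ≤ v.ord y

variable {v}

theorem isGe_zero (n : ℤ) : v.IsGe n 0 := Or.inl rfl

theorem isGe_one : v.IsGe 0 1 := Or.inr (by rw [v.ord_one])

theorem IsGe.neg {n : ℤ} {y : L} (h : v.IsGe n y) : v.IsGe n (-y) := by
  rcases h with h | h
  · exact Or.inl (by rw [h, neg_zero])
  · exact Or.inr (by rwa [v.ord_neg])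

theorem IsGe.add {n : ℤ} {y z : L} (hy : v.IsGe n y) (hz : v.IsGe n z) : v.IsGe n (y + z) := by
  by_cases h0 : y + z = 0
  · exact Or.inl h0
  rcases hy with hy | hy
  · rw [hy, zero_add]; exact hz
  rcases hz with hz | hz
  · rw [hz, add_zero]; exact Or.inr hy
  by_cases hy0 : y = 0
  · rw [hy0, zero_add]; exact Or.inr hz
  by_cases hz0 : z = 0
  · rw [hz0, add_zero]; exact Or.inr hy
  exact Or.inr (le_trans (le_min hy hz) (v.ord_add hy0 hz0 h0))

theorem IsGe.sub {n : ℤ} {y z : L} (hy : v.IsGe n y) (hz : v.IsGe n z) : v.IsGe n (y - z) := by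
  rw [sub_eq_add_neg]; exact hy.add hz.neg

theorem IsGe.mul {n m : ℤ} {y z : L} (hy : v.IsGe n y) (hz : v.IsGe m z) :
    v.IsGe (n + m) (y * z) := by
  by_cases hy0 : y = 0
  · exact Or.inl (by rw [hy0, zero_mul])
  by_cases hz0 : z = 0
  · exact Or.inl (by rw [hz0, mul_zero])
  rcases hy with hy | hy
  · exact absurd hy hy0
  rcases hz with hz | hz
  · exact absurd hz hz0
  exact Or.inr (by rw [v.ord_mul hy0 hz0]; omega)

theorem IsGe.pow {y : L} (hy : v.IsGe 0 y) (k : ℕ) : v.IsGe 0 (y ^ k) := by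
  induction k with
  | zero => rw [pow_zero]; exact isGe_one
  | succ k ih => rw [pow_succ]; simpa using ih.mul hy

theorem isGe_sum {ι : Type*} (s : Finset ι) (f : ι → L) (n : ℤ) (hf : ∀ i ∈ s, v.IsGe n (f i)) :
    v.IsGe n (∑ i ∈ s, f i) := by
  classical
  induction s using Finset.induction_on with
  | empty => rw [Finset.sum_empty]; exact isGe_zero n
  | insert a s ha ih =>
    rw [Finset.sum_insert ha]
    exact (hf a (Finset.mem_insert_self a s)).add (ih fun i hi => hf i (Finset.mem_insert_of_mem hi))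

variable (v)

/-- The subring of integral elements of an order function. -/
def integerSubring : Subring L where
  carrier := {y | v.IsGe 0 y}
  mul_mem' := fun {a b} ha hb => by simpa using IsGe.mul ha hb
  one_mem' := isGe_one
  add_mem' := fun {a b} ha hb => IsGe.add ha hb
  zero_mem' := isGe_zero 0
  neg_mem' := fun {a} ha => IsGe.neg ha

theorem mem_integerSubring {y : L} : y ∈ v.integerSubring ↔ v.IsGe 0 y := Iff.rfl

end OrdFn

section Coset

variable {L : Type*} [Field L] (v : OrdFn L) {Γ : Type*} [Group Γ] [Fintype Γ]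
  [MulSemiringAction Γ L]

theorem isGe_smul (hG : ∀ (g : Γ) (y : L), v.ord (g • y) = v.ord y) {n : ℤ} {y : L}
    (hy : v.IsGe n y) (g : Γ) : v.IsGe n (g • y) := by
  rcases hy with hy | hy
  · exact Or.inl (by rw [hy, smul_zero])
  · exact Or.inr (by rwa [hG])

open Classical in
/-- **Coset bound.**  `Bnd ≤ ∑_{h ∈ H} v ((s h) • x - x)` for `s ∉ H`, provided `Bnd` bounds
`v (s • c - c)` for all `H`-invariant integral `c` moved by `s`. -/
theorem coset_sum_ge (hG : ∀ (g : Γ) (y : L), v.ord (g • y) = v.ord y) (H : Subgroup Γ) (x : L)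
    (hx : ∀ τ : Γ, τ ≠ 1 → τ • x ≠ x) (hx0 : v.IsGe 0 x) (Bnd : ℤ) (s : Γ) (hs : s ∉ H)
    (hM : ∀ c : L, (∀ h ∈ H, h • c = c) → v.IsGe 0 c → s • c ≠ c → Bnd ≤ v.ord (s • c - c)) :
    Bnd ≤ ∑ h : H, v.ord ((s * (h : Γ)) • x - x) := by
  set f : L[X] := ∏ h : H, (X - C ((h : Γ) • x)) with hf
  -- the action on `f`
  have hact : ∀ g : Γ, g • f = ∏ h : H, (X - C ((g * (h : Γ)) • x)) := by
    intro g
    rw [Polynomial.smul_eq_map, hf, Polynomial.map_prod]
    refine Finset.prod_congr rfl fun h _ => ?_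
    rw [Polynomial.map_sub, Polynomial.map_X, Polynomial.map_C, MulSemiringAction.toRingHom_apply,
      mul_smul]
  -- `f` is `H`-invariant
  have hinv : ∀ h0 ∈ H, h0 • f = f := by
    intro h0 hh0
    rw [hact, hf]
    exact Fintype.prod_equiv (Equiv.mulLeft (⟨h0, hh0⟩ : H)) _ _ fun h => rfl
  -- coefficients are integral
  have hint : ∀ k : ℕ, v.IsGe 0 (f.coeff k) := by
    intro k
    have hmem : ∀ h : H, (h : Γ) • x ∈ v.integerSubring := fun h => isGe_smul v hG hx0 _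
    set fA : (v.integerSubring)[X] := ∏ h : H, (X - C ⟨(h : Γ) • x, hmem h⟩) with hfA
    have hmap : fA.map v.integerSubring.subtype = f := by
      rw [hfA, hf, Polynomial.map_prod]
      refine Finset.prod_congr rfl fun h _ => ?_
      rw [Polynomial.map_sub, Polynomial.map_X, Polynomial.map_C]
      rfl
    rw [← hmap, Polynomial.coeff_map]
    exact (fA.coeff k).2
  -- evaluations
  have hev1 : f.eval x = 0 := by
    rw [hf, Polynomial.eval_prod]
    refine Finset.prod_eq_zero (Finset.mem_univ (1 : H)) ?_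
    simp
  have hev2 : (s • f).eval x = ∏ h : H, (x - (s * (h : Γ)) • x) := by
    rw [hact, Polynomial.eval_prod]
    refine Finset.prod_congr rfl fun h _ => ?_
    simp
  -- expansion
  set N : ℕ := f.natDegree + (s • f).natDegree + 1 with hN
  have hexp : (s • f).eval x - f.eval x =
      ∑ k ∈ Finset.range N, (s • f.coeff k - f.coeff k) * x ^ k := by
    rw [Polynomial.eval_eq_sum_range' (show (s • f).natDegree < N by omega) x,
      Polynomial.eval_eq_sum_range' (show f.natDegree < N by omega) x, ← Finset.sum_sub_distrib]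
    refine Finset.sum_congr rfl fun k _ => ?_
    rw [Polynomial.coeff_smul, sub_mul]
  have hge : v.IsGe Bnd (∏ h : H, (x - (s * (h : Γ)) • x)) := by
    rw [← hev2, ← sub_zero ((s • f).eval x), ← hev1, hexp]
    refine OrdFn.isGe_sum _ _ _ fun k _ => ?_
    by_cases hk : s • f.coeff k = f.coeff k
    · rw [hk, sub_self, zero_mul]; exact OrdFn.isGe_zero _
    · have h1 : Bnd ≤ v.ord (s • f.coeff k - f.coeff k) := by
        refine hM _ (fun h hh => ?_) (hint k) hk
        rw [← Polynomial.coeff_smul, hinv h hh]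
      have h2 : v.IsGe (Bnd + 0) ((s • f.coeff k - f.coeff k) * x ^ k) :=
        OrdFn.IsGe.mul (Or.inr h1) (hx0.pow k)
      simpa using h2
  have hne : ∀ h : H, x - (s * (h : Γ)) • x ≠ 0 := by
    intro h h0
    refine hx (s * (h : Γ)) ?_ (sub_eq_zero.mp h0).symm
    intro h1
    apply hs
    have : s = ((h : Γ))⁻¹ := eq_inv_of_mul_eq_one_left h1
    rw [this]
    exact H.inv_mem h.2
  rcases hge with h0 | h0
  · exact absurd h0 (Finset.prod_ne_zero_iff.mpr fun h _ => hne h)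
  · rw [v.ord_prod _ _ fun h _ => hne h] at h0
    refine le_trans h0 (le_of_eq ?_)
    refine Finset.sum_congr rfl fun h _ => ?_
    rw [v.ord_sub_comm]

open Classical in
/-- **`Φ(i_max)` from below**, multiplied by `#H`.  `H ≤ Γ1 ≤ Γ`, `H ≠ Γ1`,
`i τ := v (τ • x - x) ≥ 1` outside `Γ1`, and the hypothesis of `coset_sum_ge` for every
`s ∈ Γ1 \ H`.  Then `#H * (#Γ - #Γ1) + #Γ1 * Bnd ≤ #H * Φ(i_max)`. -/
theorem card_mul_phiFn_ge (hG : ∀ (g : Γ) (y : L), v.ord (g • y) = v.ord y) (H Γ1 : Subgroup Γ)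
    (hH : H ≤ Γ1) (x : L) (hx : ∀ τ : Γ, τ ≠ 1 → τ • x ≠ x) (hx0 : v.IsGe 0 x) (Bnd : ℤ)
    (hM : ∀ s ∈ Γ1, s ∉ H → ∀ c : L, (∀ h ∈ H, h • c = c) → v.IsGe 0 c → s • c ≠ c →
      Bnd ≤ v.ord (s • c - c))
    (hne : ∃ s ∈ Γ1, s ∉ H)
    (h1 : ∀ τ : Γ, τ ∉ Γ1 → 1 ≤ v.ord (τ • x - x))
    (J : ℤ) (hJ : ∀ τ : Γ, τ ≠ 1 → v.ord (τ • x - x) ≤ J) :
    (Nat.card H : ℤ) * ((Nat.card Γ : ℤ) - Nat.card Γ1) + (Nat.card Γ1 : ℤ) * Bnd ≤
      (Nat.card H : ℤ) * phiFn (fun τ : Γ => v.ord (τ • x - x)) J := by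
  set i : Γ → ℤ := fun τ => v.ord (τ • x - x) with hi
  -- the three finsets
  set A : Finset Γ := Finset.univ.filter (fun τ => τ ∉ Γ1) with hA
  set B : Finset Γ := Finset.univ.filter (fun τ => τ ∈ Γ1 ∧ τ ∉ H) with hB
  set D : Finset Γ := Finset.univ.filter (fun τ => τ ∈ H ∧ τ ≠ 1) with hD
  set HF : Finset Γ := Finset.univ.filter (fun τ => τ ∈ H) with hHF
  set GF : Finset Γ := Finset.univ.filter (fun τ => τ ∈ Γ1) with hGF
  have hcardH : (Nat.card H : ℤ) = HF.card := by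
    rw [Nat.card_eq_fintype_card, Fintype.card_subtype]
  have hcardG1 : (Nat.card Γ1 : ℤ) = GF.card := by
    rw [Nat.card_eq_fintype_card, Fintype.card_subtype]
  have hcardA : (A.card : ℤ) = (Nat.card Γ : ℤ) - Nat.card Γ1 := by
    have h := Finset.card_filter_add_card_filter_not (s := (Finset.univ : Finset Γ))
      (fun τ => τ ∈ Γ1)
    rw [Finset.card_univ, ← Nat.card_eq_fintype_card] at h
    rw [hcardG1, hA, hGF]
    omega
  have hcardB : (B.card : ℤ) = (Nat.card Γ1 : ℤ) - Nat.card H := by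
    have h := Finset.card_filter_add_card_filter_not (s := GF) (fun τ => τ ∈ H)
    have e1 : GF.filter (fun τ => τ ∈ H) = HF := by
      ext τ
      simp only [hGF, hHF, Finset.mem_filter, Finset.mem_univ, true_and]
      exact ⟨fun h => h.2, fun h => ⟨hH h, h⟩⟩
    have e2 : GF.filter (fun τ => ¬ τ ∈ H) = B := by
      ext τ
      simp only [hGF, hB, Finset.mem_filter, Finset.mem_univ, true_and]
    rw [e1, e2] at h
    rw [hcardG1, hcardH]
    omega
  -- splitting the sum over `τ ≠ 1`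
  have hsplit : ∑ τ ∈ (Finset.univ : Finset Γ).filter (· ≠ 1), i τ =
      ∑ τ ∈ A, i τ + ∑ τ ∈ B, i τ + ∑ τ ∈ D, i τ := by
    rw [← Finset.sum_filter_add_sum_filter_not ((Finset.univ : Finset Γ).filter (· ≠ 1))
      (fun τ => τ ∈ Γ1)]
    rw [← Finset.sum_filter_add_sum_filter_not
      (((Finset.univ : Finset Γ).filter (· ≠ 1)).filter (fun τ => τ ∈ Γ1)) (fun τ => τ ∈ H)]
    have e1 : ((Finset.univ : Finset Γ).filter (· ≠ 1)).filter (fun τ => ¬ τ ∈ Γ1) = A := by
      ext τ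
      simp only [hA, Finset.mem_filter, Finset.mem_univ, true_and]
      exact ⟨fun h => h.2, fun h => ⟨fun h0 => h (h0 ▸ Γ1.one_mem), h⟩⟩
    have e2 : (((Finset.univ : Finset Γ).filter (· ≠ 1)).filter (fun τ => τ ∈ Γ1)).filter
        (fun τ => ¬ τ ∈ H) = B := by
      ext τ
      simp only [hB, Finset.mem_filter, Finset.mem_univ, true_and]
      exact ⟨fun h => ⟨h.1.2, h.2⟩, fun h => ⟨⟨fun h0 => h.2 (h0 ▸ H.one_mem), h.1⟩, h.2⟩⟩
    have e3 : (((Finset.univ : Finset Γ).filter (· ≠ 1)).filter (fun τ => τ ∈ Γ1)).filter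
        (fun τ => τ ∈ H) = D := by
      ext τ
      simp only [hD, Finset.mem_filter, Finset.mem_univ, true_and]
      exact ⟨fun h => ⟨h.2, h.1.1⟩, fun h => ⟨⟨h.2, hH h.1⟩, h.1⟩⟩
    rw [e1, e2, e3]
    ring
  -- `Φ(i_max) = i_max + ∑_{τ ≠ 1} i τ`
  have hphi : phiFn i J = J + ∑ τ ∈ (Finset.univ : Finset Γ).filter (· ≠ 1), i τ := by
    unfold phiFn
    congr 1
    refine Finset.sum_congr rfl fun τ hτ => ?_
    have hτ1 : τ ≠ 1 := by simpa using hτ
    exact min_eq_right (hJ τ hτ1)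
  -- part A
  have hpartA : (A.card : ℤ) ≤ ∑ τ ∈ A, i τ := by
    have : ∑ _τ ∈ A, (1 : ℤ) ≤ ∑ τ ∈ A, i τ :=
      Finset.sum_le_sum fun τ hτ => h1 τ (by simpa [hA] using hτ)
    simpa using this
  -- the coset bound in `Finset` form
  have hcoset : ∀ s ∈ B, Bnd ≤ ∑ h ∈ HF, i (s * h) := by
    intro s hsB
    have hs : s ∈ Γ1 ∧ s ∉ H := by simpa [hB] using hsB
    have := coset_sum_ge v hG H x hx hx0 Bnd s hs.2 (hM s hs.1 hs.2)
    rw [Finset.sum_subtype HF (p := fun τ => τ ∈ H) (by intro τ; simp [hHF])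
      (fun h => i (s * h))]
    exact this
  -- part B (double counting)
  have hpartB : (B.card : ℤ) * Bnd ≤ (HF.card : ℤ) * ∑ τ ∈ B, i τ := by
    have hsum : ∑ _s ∈ B, Bnd ≤ ∑ s ∈ B, ∑ h ∈ HF, i (s * h) := Finset.sum_le_sum hcoset
    rw [Finset.sum_const, nsmul_eq_mul, Finset.sum_comm] at hsum
    have hinner : ∀ h ∈ HF, ∑ s ∈ B, i (s * h) = ∑ τ ∈ B, i τ := by
      intro h hh
      have hhH : h ∈ H := by simpa [hHF] using hh
      refine Finset.sum_equiv (Equiv.mulRight h) ?_ fun _ _ => rfl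
      intro s
      simp only [hB, Finset.mem_filter, Finset.mem_univ, true_and, Equiv.coe_mulRight]
      constructor
      · rintro ⟨h1, h2⟩
        exact ⟨Γ1.mul_mem h1 (hH hhH), fun h3 => h2 ((Subgroup.mul_mem_cancel_right H hhH).mp h3)⟩
      · rintro ⟨h1, h2⟩
        exact ⟨(Subgroup.mul_mem_cancel_right Γ1 (hH hhH)).mp h1,
          fun h3 => h2 (H.mul_mem h3 hhH)⟩
    rw [Finset.sum_congr rfl hinner, Finset.sum_const, nsmul_eq_mul] at hsum
    exact hsum
  -- part D (top term)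
  have hpartD : Bnd ≤ J + ∑ τ ∈ D, i τ := by
    obtain ⟨s1, hs1, hs1'⟩ := hne
    have hBne : B.Nonempty := ⟨s1, by simp [hB, hs1, hs1']⟩
    obtain ⟨s0, hs0B, hs0max⟩ := Finset.exists_max_image B i hBne
    have hs0 : s0 ∈ Γ1 ∧ s0 ∉ H := by simpa [hB] using hs0B
    have hs0ne : s0 ≠ 1 := fun h0 => hs0.2 (h0 ▸ H.one_mem)
    have h2 := hcoset s0 hs0B
    have h1mem : (1 : Γ) ∈ HF := by simp [hHF, H.one_mem]
    rw [← Finset.add_sum_erase _ _ h1mem, mul_one] at h2
    have e4 : HF.erase 1 = D := by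
      ext τ
      simp only [hHF, hD, Finset.mem_erase, Finset.mem_filter, Finset.mem_univ, true_and]
      tauto
    rw [e4] at h2
    have h3 : ∑ h ∈ D, i (s0 * h) ≤ ∑ h ∈ D, i h := by
      refine Finset.sum_le_sum fun h hh => ?_
      have hh' : h ∈ H ∧ h ≠ 1 := by simpa [hD] using hh
      have hmemB : s0 * h ∈ B := by
        simp only [hB, Finset.mem_filter, Finset.mem_univ, true_and]
        exact ⟨Γ1.mul_mem hs0.1 (hH hh'.1),
          fun h3 => hs0.2 ((Subgroup.mul_mem_cancel_right H hh'.1).mp h3)⟩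
      have hle : i (s0 * h) ≤ i s0 := hs0max _ hmemB
      by_contra hcon
      have hlt : i h < i (s0 * h) := not_le.mp hcon
      -- `(s0 h) x - x = s0 (h x - x) + (s0 x - x)`
      have hdec : (s0 * h) • x - x = s0 • (h • x - x) + (s0 • x - x) := by
        rw [mul_smul, smul_sub]; ring
      have hn1 : s0 • (h • x - x) ≠ 0 := by
        intro h0
        have : h • x - x = 0 := by
          have := congrArg (fun y => s0⁻¹ • y) h0
          simpa using this
        exact hx h hh'.2 (sub_eq_zero.mp this)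
      have hn2 : s0 • x - x ≠ 0 := fun h0 => hx s0 hs0ne (sub_eq_zero.mp h0)
      have hord1 : v.ord (s0 • (h • x - x)) = i h := by rw [hG]
      have hlt' : v.ord (s0 • (h • x - x)) < v.ord (s0 • x - x) := by
        rw [hord1]; exact lt_of_lt_of_le hlt hle
      have := v.ord_add_of_lt hn1 hn2 hlt'
      rw [← hdec, hord1] at this
      have h5 : i (s0 * h) = i h := this
      omega
    have h4 : i s0 ≤ J := hJ s0 hs0ne
    linarith
  rw [hphi, hsplit, ← hcardH] at *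
  rw [hcardA] at hpartA
  rw [hcardB] at hpartB
  have hHpos : (0 : ℤ) ≤ (Nat.card H : ℤ) := Int.natCast_nonneg _
  nlinarith [mul_le_mul_of_nonneg_left hpartA hHpos, mul_le_mul_of_nonneg_left hpartD hHpos]

/-- **`Φ(i_max)` from below.**  With `Bnd = #H * B` in `card_mul_phiFn_ge`:
`(#Γ - #Γ1) + #Γ1 * B ≤ Φ(i_max)`. -/
theorem phiFn_ge (hG : ∀ (g : Γ) (y : L), v.ord (g • y) = v.ord y) (H Γ1 : Subgroup Γ)
    (hH : H ≤ Γ1) (x : L) (hx : ∀ τ : Γ, τ ≠ 1 → τ • x ≠ x) (hx0 : v.IsGe 0 x) (B : ℤ)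
    (hM : ∀ s ∈ Γ1, s ∉ H → ∀ c : L, (∀ h ∈ H, h • c = c) → v.IsGe 0 c → s • c ≠ c →
      (Nat.card H : ℤ) * B ≤ v.ord (s • c - c))
    (hne : ∃ s ∈ Γ1, s ∉ H)
    (h1 : ∀ τ : Γ, τ ∉ Γ1 → 1 ≤ v.ord (τ • x - x))
    (J : ℤ) (hJ : ∀ τ : Γ, τ ≠ 1 → v.ord (τ • x - x) ≤ J) :
    ((Nat.card Γ : ℤ) - Nat.card Γ1) + (Nat.card Γ1 : ℤ) * B ≤
      phiFn (fun τ : Γ => v.ord (τ • x - x)) J := by
  have h := card_mul_phiFn_ge v hG H Γ1 hH x hx hx0 _ hM hne h1 J hJ
  have hpos : (0 : ℤ) < (Nat.card H : ℤ) := by exact_mod_cast Nat.card_pos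
  have h' : (Nat.card H : ℤ) * (((Nat.card Γ : ℤ) - Nat.card Γ1) + (Nat.card Γ1 : ℤ) * B) ≤
      (Nat.card H : ℤ) * phiFn (fun τ : Γ => v.ord (τ • x - x)) J := by
    calc _ = (Nat.card H : ℤ) * ((Nat.card Γ : ℤ) - Nat.card Γ1) +
          (Nat.card Γ1 : ℤ) * ((Nat.card H : ℤ) * B) := by ring
      _ ≤ _ := h
  exact le_of_mul_le_mul_left h' hpos

end Coset

end Fermat.Agent.TW.Ram
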