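import Fermat.Agent.TW.Ram.RamFn
import Fermat.Agent.TW.Ram.CosetBound

/-!
# TW / Ram: E2 in Layer-B vocabulary (`index_mul_le_phiFn_ramFn`)

`L / K` totally ramified Galois (Layer B of main's `CFT/Local`), `π` a uniformiser of `L`.

* `aeval_uniformiser_ne_zero` : `1, π, …, π^(e-1)` are linearly independent over `K`;
* `uniformiser_primitive` : `τ π ≠ π` for `τ ≠ 1`;
* `one_le_ramFn_uniformiser` : `1 ≤ ord_L (τ π - π)` for `τ ≠ 1`;
* `index_mul_le_phiFn_ramFn` : the literal statement E2 of `Statements.lean`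
  (via `CosetBound.card_mul_phiFn_ge`).
-/

set_option autoImplicit false
set_option linter.unusedSectionVars false

open IsLocalRing Polynomial IntermediateField Fermat.Agent.CFT

namespace Fermat.Agent.TW.Ram

namespace OrdFn

variable {L : Type*} [Field L] (v : OrdFn L)

theorem add_ne_zero_of_ord_lt {x y : L} (h : v.ord x < v.ord y) : x + y ≠ 0 := by
  intro h0
  have : y = -x := by linear_combination h0
  rw [this, v.ord_neg] at h
  exact lt_irrefl _ h

/-- A finite nonempty sum of nonzero elements with pairwise distinct orders is nonzero, and its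
order is the order of one of the terms. -/
theorem sum_ne_zero_of_ord_injOn {ι : Type*} (s : Finset ι) (f : ι → L) (hs : s.Nonempty)
    (hf : ∀ i ∈ s, f i ≠ 0)
    (hinj : ∀ i ∈ s, ∀ j ∈ s, v.ord (f i) = v.ord (f j) → i = j) :
    ∑ i ∈ s, f i ≠ 0 ∧ ∃ i ∈ s, v.ord (∑ i ∈ s, f i) = v.ord (f i) := by
  classical
  induction s using Finset.induction_on with
  | empty => exact absurd hs (by simp)
  | insert a s ha ih =>
    rw [Finset.sum_insert ha]
    by_cases hse : s.Nonempty
    · obtain ⟨hne, i, hi, hord⟩ := ih hse (fun i hi => hf i (Finset.mem_insert_of_mem hi))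
        (fun i hi j hj => hinj i (Finset.mem_insert_of_mem hi) j (Finset.mem_insert_of_mem hj))
      have hfa : f a ≠ 0 := hf a (Finset.mem_insert_self a s)
      have hneq : v.ord (f a) ≠ v.ord (∑ i ∈ s, f i) := by
        rw [hord]
        intro h
        have := hinj a (Finset.mem_insert_self a s) i (Finset.mem_insert_of_mem hi) h
        exact ha (this ▸ hi)
      rcases lt_or_gt_of_ne hneq with h | h
      · exact ⟨v.add_ne_zero_of_ord_lt h, a, Finset.mem_insert_self a s,
          v.ord_add_of_lt hfa hne h⟩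
      · refine ⟨by rw [add_comm]; exact v.add_ne_zero_of_ord_lt h, i,
          Finset.mem_insert_of_mem hi, ?_⟩
        rw [add_comm, v.ord_add_of_lt hne hfa h, hord]
    · rw [Finset.not_nonempty_iff_eq_empty] at hse
      subst hse
      simp only [Finset.sum_empty, add_zero]
      exact ⟨hf a (Finset.mem_insert_self a _), a, Finset.mem_insert_self a _, rfl⟩

end OrdFn

section

variable (O K : Type) [CommRing O] [IsDomain O] [IsDiscreteValuationRing O]
  [IsAdicComplete (maximalIdeal O) O]
  [Field K] [Algebra O K] [IsFractionRing O K] [CharZero K]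
  (L : Type) [Field L] [Algebra K L] [FiniteDimensional K L] [Algebra O L] [IsScalarTower O K L]

variable [IsDiscreteValuationRing (integralClosure O L)]
  [IsFractionRing (integralClosure O L) L]

/-- Integral elements are those of non-negative order. -/
theorem isGe_zero_iff_isIntegral (c : L) :
    (ordFnOfDVR (integralClosure O L) L).IsGe 0 c ↔ IsIntegral O c := by
  constructor
  · rintro (h | h)
    · rw [h]; exact isIntegral_zero
    · by_cases hc : c = 0
      · rw [hc]; exact isIntegral_zero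
      · obtain ⟨b, hb⟩ := (dvrOrd_nonneg_iff (integralClosure O L) L hc).mp h
        rw [← hb]
        exact b.2
  · intro h
    refine Or.inr ?_
    have := dvrOrd_algebraMap_nonneg (integralClosure O L) L (⟨c, h⟩ : integralClosure O L)
    exact this

theorem dvrOrd_uniformiser {π : integralClosure O L} (hπ : Irreducible π) :
    dvrOrd (integralClosure O L) L (π : L) = 1 :=
  dvrOrd_irreducible (integralClosure O L) L hπ

theorem uniformiser_ne_zero {π : integralClosure O L} (hπ : Irreducible π) : (π : L) ≠ 0 := by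
  intro h
  exact hπ.ne_zero (Subtype.ext h)

/-- `1, π, …, π^(e-1)` are linearly independent over `K` (`L / K` totally ramified). -/
theorem aeval_uniformiser_ne_zero (htr : ramIdx O L = Module.finrank K L)
    {π : integralClosure O L} (hπ : Irreducible π) (g : K[X]) (hg : g ≠ 0)
    (hdeg : g.natDegree < Module.finrank K L) : aeval (π : L) g ≠ 0 := by
  set v := ordFnOfDVR (integralClosure O L) L with hv
  have hπ0 := uniformiser_ne_zero O L hπ
  have hsum : aeval (π : L) g = ∑ i ∈ g.support, algebraMap K L (g.coeff i) * (π : L) ^ i := by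
    rw [aeval_def, eval₂_eq_sum, Polynomial.sum_def]
  have hterm : ∀ i ∈ g.support, algebraMap K L (g.coeff i) * (π : L) ^ i ≠ 0 := by
    intro i hi
    refine mul_ne_zero ?_ (pow_ne_zero _ hπ0)
    rw [Ne, map_eq_zero]
    exact mem_support_iff.mp hi
  have hord : ∀ i ∈ g.support, v.ord (algebraMap K L (g.coeff i) * (π : L) ^ i) =
      (Module.finrank K L : ℤ) * dvrOrd O K (g.coeff i) + i := by
    intro i hi
    have hc : algebraMap K L (g.coeff i) ≠ 0 := by
      rw [Ne, map_eq_zero]; exact mem_support_iff.mp hi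
    rw [hv, ordFnOfDVR_ord, dvrOrd_mul _ _ hc (pow_ne_zero _ hπ0), dvrOrd_pow,
      dvrOrd_uniformiser O L hπ, dvrOrd_algebraMap_eq_ramIdx_mul O K L, htr, mul_one]
  rw [hsum]
  refine (v.sum_ne_zero_of_ord_injOn g.support _ ?_ hterm ?_).1
  · exact nonempty_support_iff.mpr hg
  · intro i hi j hj hij
    rw [hord i hi, hord j hj] at hij
    have hi' : i < Module.finrank K L := lt_of_le_of_lt (le_natDegree_of_mem_supp i hi) hdeg
    have hj' : j < Module.finrank K L := lt_of_le_of_lt (le_natDegree_of_mem_supp j hj) hdeg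
    have h1 : ((Module.finrank K L : ℤ) * dvrOrd O K (g.coeff i) + i) % (Module.finrank K L : ℤ)
        = (i : ℤ) := by
      rw [add_comm, Int.add_mul_emod_self_left]
      exact Int.emod_eq_of_lt (by positivity) (by exact_mod_cast hi')
    have h2 : ((Module.finrank K L : ℤ) * dvrOrd O K (g.coeff j) + j) % (Module.finrank K L : ℤ)
        = (j : ℤ) := by
      rw [add_comm, Int.add_mul_emod_self_left]
      exact Int.emod_eq_of_lt (by positivity) (by exact_mod_cast hj')
    rw [hij, h2] at h1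
    exact_mod_cast h1.symm

/-- A uniformiser of a totally ramified extension is a primitive element. -/
theorem uniformiser_primitive (htr : ramIdx O L = Module.finrank K L)
    {π : integralClosure O L} (hπ : Irreducible π) (τ : L ≃ₐ[K] L) (hτ : τ ≠ 1) :
    τ (π : L) ≠ (π : L) := by
  intro hfix
  have hint : IsIntegral K (π : L) := IsIntegral.of_finite K _
  have hdeg : Module.finrank K L ≤ (minpoly K (π : L)).natDegree := by
    by_contra hlt
    exact aeval_uniformiser_ne_zero O K L htr hπ _ (minpoly.ne_zero hint) (not_le.mp hlt)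
      (minpoly.aeval K _)
  have hdeg' : (minpoly K (π : L)).natDegree = Module.finrank K L :=
    le_antisymm (minpoly.natDegree_le _) hdeg
  have htop : K⟮(π : L)⟯ = ⊤ := (Field.primitive_element_iff_minpoly_natDegree_eq K _).mpr hdeg'
  have hadj : Algebra.adjoin K {(π : L)} = ⊤ := by
    rw [← IntermediateField.adjoin_simple_toSubalgebra_of_isAlgebraic hint.isAlgebraic, htop,
      IntermediateField.top_toSubalgebra]
  have : (τ : L →ₐ[K] L) = AlgHom.id K L := by
    refine AlgHom.ext_of_adjoin_eq_top hadj ?_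
    intro x hx
    rw [Set.mem_singleton_iff] at hx
    subst hx
    exact hfix
  apply hτ
  ext x
  exact DFunLike.congr_fun this x

/-- `1 ≤ ord_L (τ π - π)` for `τ ≠ 1`. -/
theorem one_le_ramFn_uniformiser (htr : ramIdx O L = Module.finrank K L)
    {π : integralClosure O L} (hπ : Irreducible π) (τ : L ≃ₐ[K] L) (hτ : τ ≠ 1) :
    1 ≤ ramFn O K L (π : L) τ := by
  have hπ0 := uniformiser_ne_zero O L hπ
  have h1 : τ (π : L) ≠ 0 := by rwa [Ne, EmbeddingLike.map_eq_zero_iff]
  have h2 : τ (π : L) + -(π : L) ≠ 0 := by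
    rw [← sub_eq_add_neg]
    exact sub_ne_zero.mpr (uniformiser_primitive O K L htr hπ τ hτ)
  have := min_dvrOrd_le_dvrOrd_add (integralClosure O L) L h1 (neg_ne_zero.mpr hπ0) h2
  rw [dvrOrd_neg, dvrOrd_galois O K L τ, dvrOrd_uniformiser O L hπ, min_self,
    ← sub_eq_add_neg] at this
  exact this

variable [IsGalois K L]

/-- **E2, concrete** (literal statement of `Statements.lean`). -/
theorem index_mul_le_phiFn_ramFn (htr : ramIdx O L = Module.finrank K L)
    {π : integralClosure O L} (hπ : Irreducible π)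
    (Γ₁ H : Subgroup (L ≃ₐ[K] L)) (hH : H ≤ Γ₁) (y : L) (hy : IsIntegral O y)
    (hyH : ∀ h ∈ H, h y = y)
    (hgen : ∀ x : L, IsIntegral O x → (∀ h ∈ H, h x = x) →
      ∃ g : L[X], (∀ n, IsIntegral O (g.coeff n) ∧ ∀ σ ∈ Γ₁, σ (g.coeff n) = g.coeff n) ∧
        g.eval y = x)
    (S₀ : ℤ) (hS₀ : ∀ σ ∈ Γ₁, σ ∉ H → S₀ ≤ ramFn O K L y σ) (hne : ∃ σ ∈ Γ₁, σ ∉ H)
    (J : ℤ) (hJ : ∀ τ : L ≃ₐ[K] L, τ ≠ 1 → ramFn O K L (π : L) τ ≤ J) :
    ((Module.finrank K L : ℤ) - Nat.card Γ₁) + (H.relIndex Γ₁ : ℤ) * S₀ ≤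
      phiFn (ramFn O K L (π : L)) J := by
  classical
  set v : OrdFn L := ordFnOfDVR (integralClosure O L) L with hv
  have hG : ∀ (g : L ≃ₐ[K] L) (z : L), v.ord (g • z) = v.ord z :=
    fun g z => dvrOrd_galois O K L g z
  have hprim : ∀ τ : L ≃ₐ[K] L, τ ≠ 1 → τ • (π : L) ≠ (π : L) :=
    fun τ hτ => uniformiser_primitive O K L htr hπ τ hτ
  have hπ0 : v.IsGe 0 (π : L) := (isGe_zero_iff_isIntegral O L _).mpr π.2
  have hy0 : v.IsGe 0 y := (isGe_zero_iff_isIntegral O L _).mpr hy
  have hM : ∀ s ∈ Γ₁, s ∉ H → ∀ c : L, (∀ h ∈ H, h • c = c) → v.IsGe 0 c → s • c ≠ c →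
      S₀ ≤ v.ord (s • c - c) := by
    intro s hs hsH c hcH hc0 hsc
    obtain ⟨g, hg, hgy⟩ := hgen c ((isGe_zero_iff_isIntegral O L _).mp hc0) hcH
    -- `s • c = g.eval (s y)`
    have hsg : s • g = g := by
      ext n
      rw [Polynomial.coeff_smul]
      exact (hg n).2 s hs
    have h1 : s • c = g.eval (s • y) := by
      rw [← hgy, ← Polynomial.smul_eval_smul, hsg]
    -- descend `g` to the subring of integers
    have hlift : g ∈ Polynomial.lifts v.integerSubring.subtype := by
      rw [Polynomial.lifts_iff_coeff_lifts]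
      intro n
      exact ⟨⟨g.coeff n, (isGe_zero_iff_isIntegral O L _).mpr (hg n).1⟩, rfl⟩
    obtain ⟨gA, hgA⟩ := (Polynomial.lifts_iff_set_range g).mp hlift
    set a : v.integerSubring := ⟨s • y, isGe_smul v hG hy0 s⟩ with ha
    set b : v.integerSubring := ⟨y, hy0⟩ with hb
    obtain ⟨q, hq⟩ := Polynomial.sub_dvd_eval_sub a b gA
    have hevala : g.eval (s • y) = v.integerSubring.subtype (gA.eval a) := by
      rw [← hgA, Polynomial.eval_map, ← Polynomial.eval₂_at_apply]
      rfl
    have hevalb : g.eval y = v.integerSubring.subtype (gA.eval b) := by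
      rw [← hgA, Polynomial.eval_map, ← Polynomial.eval₂_at_apply]
      rfl
    have h2 : s • c - c = (s • y - y) * (q : L) := by
      rw [h1, ← hgy, hevala, hevalb, ← map_sub, hq, map_mul, map_sub]
      rfl
    have h3 : s • c - c ≠ 0 := sub_ne_zero.mpr hsc
    have h4 : s • y - y ≠ 0 := by
      intro h0; rw [h2, h0, zero_mul] at h3; exact h3 rfl
    have h5 : (q : L) ≠ 0 := by
      intro h0; rw [h2, h0, mul_zero] at h3; exact h3 rfl
    have h6 : 0 ≤ v.ord (q : L) := by
      rcases q.2 with h | h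
      · exact absurd h h5
      · exact h
    rw [h2, v.ord_mul h4 h5]
    have h7 : S₀ ≤ v.ord (s • y - y) := hS₀ s hs hsH
    omega
  have h1 : ∀ τ : L ≃ₐ[K] L, τ ∉ Γ₁ → 1 ≤ v.ord (τ • (π : L) - (π : L)) := by
    intro τ hτ
    exact one_le_ramFn_uniformiser O K L htr hπ τ fun h1 => hτ (h1 ▸ Γ₁.one_mem)
  have hmain := card_mul_phiFn_ge v hG H Γ₁ hH (π : L) hprim hπ0 S₀ hM hne h1 J hJ
  have hcard : (Nat.card (L ≃ₐ[K] L) : ℤ) = Module.finrank K L := by
    exact_mod_cast IsGalois.card_aut_eq_finrank K L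
  have hidx : (Nat.card Γ₁ : ℤ) = (Nat.card H : ℤ) * (H.relIndex Γ₁ : ℤ) := by
    have := Subgroup.relIndex_mul_relIndex (⊥ : Subgroup (L ≃ₐ[K] L)) H Γ₁ bot_le hH
    rw [Subgroup.relIndex_bot_left, Subgroup.relIndex_bot_left] at this
    exact_mod_cast this.symm
  have hpos : (0 : ℤ) < (Nat.card H : ℤ) := by exact_mod_cast Nat.card_pos
  rw [hcard] at hmain
  have hphi : phiFn (fun τ : L ≃ₐ[K] L => v.ord (τ • (π : L) - (π : L))) J =
      phiFn (ramFn O K L (π : L)) J := rfl
  rw [hphi] at hmain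
  have h' : (Nat.card H : ℤ) *
      (((Module.finrank K L : ℤ) - Nat.card Γ₁) + (H.relIndex Γ₁ : ℤ) * S₀) ≤
      (Nat.card H : ℤ) * phiFn (ramFn O K L (π : L)) J := by
    calc _ = (Nat.card H : ℤ) * ((Module.finrank K L : ℤ) - Nat.card Γ₁) +
          ((Nat.card H : ℤ) * (H.relIndex Γ₁ : ℤ)) * S₀ := by ring
      _ = (Nat.card H : ℤ) * ((Module.finrank K L : ℤ) - Nat.card Γ₁) +
          (Nat.card Γ₁ : ℤ) * S₀ := by rw [← hidx]
      _ ≤ _ := hmain
  exact le_of_mul_le_mul_left h' hpos

end

end Fermat.Agent.TW.Ram
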