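import Fermat.Agent.TW.Ram.E1
import Fermat.Agent.TW.Ram.E2Concrete

/-!
# TW / Ram: the intrinsic break bound (`break_bound_intrinsic`, literal statement E3 of
`Statements.lean`)

`L / K` totally ramified Galois (Layer B), `(P_m)` for all `m > p / (p - 1)`,
`H ≤ Γ₁ ≤ Gal(L/K)` of relative index `p ≥ 2`, `y` an `H`-invariant integer generating the
`H`-invariant integers over the `Γ₁`-invariant ones, `σ ∈ Γ₁ \ H` minimising `ord_L (σ y - y)`.
Then `p (p - 1) (ord_L (σ y - y) - #H) ≤ e + p - 1`.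

Assembly of E1' (`fontainePAbove_bound`), E2 (`index_mul_le_phiFn_ramFn`) and the tame branch.
-/

set_option autoImplicit false
set_option linter.unusedSectionVars false

open IsLocalRing Polynomial Fermat.Agent.CFT

namespace Fermat.Agent.TW.Ram

variable (O K : Type) [CommRing O] [IsDomain O] [IsDiscreteValuationRing O]
  [IsAdicComplete (maximalIdeal O) O]
  [Field K] [Algebra O K] [IsFractionRing O K] [CharZero K]
  (L : Type) [Field L] [Algebra K L] [FiniteDimensional K L] [Algebra O L] [IsScalarTower O K L]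

variable [IsGalois K L] [IsDiscreteValuationRing (integralClosure O L)]
  [IsFractionRing (integralClosure O L) L]

/-- **E3, intrinsic break bound.**  No tameness, no divisibility, no `p`-group hypothesis: only
`[Γ₁ : H] = p ≥ 2`. -/
theorem break_bound_intrinsic (htr : ramIdx O L = Module.finrank K L) {ϖ : O}
    (hϖ : Irreducible ϖ) (p : ℕ) (hp : 2 ≤ p) (hP : FontainePAbove O K L ϖ p (p - 1))
    (Γ₁ H : Subgroup (L ≃ₐ[K] L)) (hH : H ≤ Γ₁) (hidx : H.relIndex Γ₁ = p)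
    (y : L) (hy : IsIntegral O y) (hyH : ∀ h ∈ H, h y = y)
    (hgen : ∀ x : L, IsIntegral O x → (∀ h ∈ H, h x = x) →
      ∃ g : L[X], (∀ n, IsIntegral O (g.coeff n) ∧ ∀ σ ∈ Γ₁, σ (g.coeff n) = g.coeff n) ∧
        g.eval y = x)
    {σ : L ≃ₐ[K] L} (hσ : σ ∈ Γ₁) (hσH : σ ∉ H)
    (hmin : ∀ τ ∈ Γ₁, τ ∉ H → ramFn O K L y σ ≤ ramFn O K L y τ) :
    (p : ℤ) * (p - 1) * (ramFn O K L y σ - Nat.card H) ≤ Module.finrank K L + p - 1 := by
  classical
  obtain ⟨π, hπ⟩ := IsDiscreteValuationRing.exists_irreducible (integralClosure O L)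
  have hσ1 : σ ≠ 1 := fun h => hσH (h ▸ H.one_mem)
  -- an element `τ₀ ≠ 1` with `i τ₀` maximal
  obtain ⟨τ₀, hτ₀mem, hτ₀max⟩ := Finset.exists_max_image
    ((Finset.univ : Finset (L ≃ₐ[K] L)).erase 1) (ramFn O K L (π : L))
    ⟨σ, Finset.mem_erase.mpr ⟨hσ1, Finset.mem_univ _⟩⟩
  have hτ₀ : τ₀ ≠ 1 := (Finset.mem_erase.mp hτ₀mem).1
  have hmax : ∀ τ : L ≃ₐ[K] L, τ ≠ 1 → ramFn O K L (π : L) τ ≤ ramFn O K L (π : L) τ₀ :=
    fun τ hτ => hτ₀max τ (Finset.mem_erase.mpr ⟨hτ, Finset.mem_univ _⟩)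
  -- E2
  have hE2 := index_mul_le_phiFn_ramFn O K L htr hπ Γ₁ H hH y hy hyH hgen (ramFn O K L y σ) hmin
    ⟨σ, hσ, hσH⟩ (ramFn O K L (π : L) τ₀) hmax
  rw [hidx] at hE2
  have hcard : (Nat.card Γ₁ : ℤ) = Nat.card H * p := by
    have h1 := Subgroup.relIndex_mul_relIndex (H := ⊥) (K := H) (L := Γ₁) bot_le hH
    rw [Subgroup.relIndex_bot_left, Subgroup.relIndex_bot_left, hidx] at h1
    exact_mod_cast h1.symm
  rw [hcard] at hE2
  have hp' : (2 : ℤ) ≤ p := by exact_mod_cast hp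
  have he0 : (0 : ℤ) < Module.finrank K L := by exact_mod_cast Module.finrank_pos (R := K) (M := L)
  by_cases hwild : (Module.finrank K L : ℤ) + 2 ≤
      phiFn (ramFn O K L (π : L)) (ramFn O K L (π : L) τ₀)
  · -- wild branch: E1'
    have hE1 := fontainePAbove_bound O K L htr hϖ hπ hτ₀ hwild (c := p) (d := p - 1)
      (by omega) hP
    have hcast : ((p - 1 : ℕ) : ℤ) = (p : ℤ) - 1 := by
      rw [Nat.cast_sub (by omega)]; simp
    rw [hcast] at hE1
    have h2 := mul_le_mul_of_nonneg_left hE2 (by omega : (0 : ℤ) ≤ (p : ℤ) - 1)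
    nlinarith
  · -- tame branch
    rw [not_le] at hwild
    have h1 : (p : ℤ) * (ramFn O K L y σ - Nat.card H) ≤ 1 := by nlinarith
    have h2 : ramFn O K L y σ - Nat.card H ≤ 0 := by
      by_contra hcon
      rw [not_le] at hcon
      nlinarith
    have h3 : (p : ℤ) * (p - 1) * (ramFn O K L y σ - Nat.card H) ≤ 0 :=
      mul_nonpos_of_nonneg_of_nonpos (by nlinarith) h2
    linarith

end Fermat.Agent.TW.Ram
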