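import Fermat.Agent.TW.Ram.PhiFormula

/-!
# TW / Ram: Eisenstein perturbation, abstract valuation form (Fontaine 1.5 (ii), step E1)

On top of `PhiFormula` (`OrdFn`, `phiFn`, `ord_prod_sub_smul_ne`):

* `OrdFn.ord_pow`, `OrdFn.ord_sum_ge` : small API;
* `eisenstein_root_ord` : if `β ^ n + ∑_{k < n} c k * β ^ k = 0` with `c k = 0 ∨ r ≤ ord (c k)`,
  `ord (c 0) = r`, `1 ≤ r`, then `n * ord β = r` (a root of an Eisenstein-shaped polynomial);
* `prod_sub_smul_ne_mul_pow` (**E1, abstract**) : for `π` with `ord π = 1` and trivial stabiliser,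
  `τ₀ ≠ 1`, `η ≠ 0` with `ord η = #G * a'`, `j < #G`, `#G < #G * a' + j = Φ (i τ₀) - 1`, there is
  no `β` with `∏ g, (β - g • π) = η * β ^ j`, i.e. the perturbed polynomial
  `∏ g, (X - g • π) - η X ^ j` has no root.
-/

set_option autoImplicit false
set_option linter.unusedSectionVars false

open Finset

namespace Fermat.Agent.TW.Ram

namespace OrdFn

variable {L : Type*} [Field L] (v : OrdFn L)

theorem ord_pow {x : L} (hx : x ≠ 0) (n : ℕ) : v.ord (x ^ n) = n * v.ord x := by
  induction n with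
  | zero => simp [v.ord_one]
  | succ n ih =>
    rw [pow_succ, v.ord_mul (pow_ne_zero n hx) hx, ih]
    push_cast
    ring

/-- A finite sum of terms which are zero or of order `≥ m` is zero or of order `≥ m`. -/
theorem ord_sum_ge {ι : Type*} (s : Finset ι) (f : ι → L) (m : ℤ)
    (hf : ∀ i ∈ s, f i = 0 ∨ m ≤ v.ord (f i)) :
    ∑ i ∈ s, f i = 0 ∨ m ≤ v.ord (∑ i ∈ s, f i) := by
  classical
  induction s using Finset.induction_on with
  | empty => left; simp
  | insert a s ha ih =>
    rw [Finset.sum_insert ha]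
    have h1 := hf a (Finset.mem_insert_self a s)
    have h2 := ih fun i hi => hf i (Finset.mem_insert_of_mem hi)
    by_cases h0 : f a + ∑ i ∈ s, f i = 0
    · left; exact h0
    right
    rcases h1 with h1 | h1
    · rw [h1, zero_add] at h0 ⊢
      exact h2.resolve_left h0
    rcases h2 with h2 | h2
    · rw [h2, add_zero]
      exact h1
    · by_cases hfa : f a = 0
      · rw [hfa, zero_add]; exact h2
      by_cases hs0 : ∑ i ∈ s, f i = 0
      · rw [hs0, add_zero]; exact h1
      · exact (le_min h1 h2).trans (v.ord_add hfa hs0 h0)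

end OrdFn

variable {L : Type*} [Field L] (v : OrdFn L)

/-- A root `β` of an Eisenstein-shaped polynomial `X ^ n + ∑_{k < n} c k X ^ k` (all `c k` of order
`≥ r` or zero, `c 0` of order exactly `r ≥ 1`) satisfies `n * ord β = r`. -/
theorem eisenstein_root_ord {n : ℕ} (hn : 0 < n) (r : ℤ) (hr : 1 ≤ r) (c : ℕ → L)
    (hc : ∀ k, k < n → c k = 0 ∨ r ≤ v.ord (c k)) (hc0 : c 0 ≠ 0) (hc0r : v.ord (c 0) = r)
    (β : L) (hβ : β ^ n + ∑ k ∈ range n, c k * β ^ k = 0) : (n : ℤ) * v.ord β = r := by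
  obtain ⟨m, rfl⟩ : ∃ m, n = m + 1 := ⟨n - 1, by omega⟩
  -- `β ≠ 0`
  have hβ0 : β ≠ 0 := by
    rintro rfl
    rw [Finset.sum_range_succ'] at hβ
    simp at hβ
    exact hc0 hβ
  set t := v.ord β with ht
  set S : L := ∑ k ∈ range (m + 1), c k * β ^ k with hS
  have hpow0 : β ^ (m + 1) ≠ 0 := pow_ne_zero _ hβ0
  have hSeq : S = -β ^ (m + 1) := by linear_combination hβ
  have hS0 : S ≠ 0 := by rw [hSeq]; exact neg_ne_zero.mpr hpow0
  have hordS : v.ord S = ((m + 1 : ℕ) : ℤ) * t := by
    rw [hSeq, v.ord_neg, v.ord_pow hβ0]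
  -- order of the individual terms
  have hterm : ∀ k, k < m + 1 → c k * β ^ k = 0 ∨ r + (k : ℤ) * t ≤ v.ord (c k * β ^ k) := by
    intro k hk
    rcases hc k hk with h | h
    · left; rw [h, zero_mul]
    · by_cases hck : c k = 0
      · left; rw [hck, zero_mul]
      · right
        rw [v.ord_mul hck (pow_ne_zero k hβ0), v.ord_pow hβ0]
        linarith
  -- first step: `1 ≤ t`
  have ht1 : 1 ≤ t := by
    by_contra hcon
    rw [not_le] at hcon
    have hle : t ≤ 0 := by omega
    have hall : ∀ k ∈ range (m + 1), c k * β ^ k = 0 ∨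
        r + (m : ℤ) * t ≤ v.ord (c k * β ^ k) := by
      intro k hk
      rw [Finset.mem_range] at hk
      rcases hterm k hk with h | h
      · left; exact h
      · right
        have hkm : (k : ℤ) ≤ m := by exact_mod_cast Nat.lt_succ_iff.mp hk
        have : (m : ℤ) * t ≤ (k : ℤ) * t := by nlinarith
        linarith
    rcases v.ord_sum_ge _ _ _ hall with h | h
    · exact hS0 h
    · rw [← hS, hordS] at h
      push_cast at h
      nlinarith
  -- second step: split off the constant term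
  have hsplit : S = (∑ k ∈ range m, c (k + 1) * β ^ (k + 1)) + c 0 := by
    rw [hS, Finset.sum_range_succ']
    simp
  set S' : L := ∑ k ∈ range m, c (k + 1) * β ^ (k + 1) with hS'
  have hall' : ∀ k ∈ range m, c (k + 1) * β ^ (k + 1) = 0 ∨
      r + 1 ≤ v.ord (c (k + 1) * β ^ (k + 1)) := by
    intro k hk
    rw [Finset.mem_range] at hk
    rcases hterm (k + 1) (by omega) with h | h
    · left; exact h
    · right
      have : (1 : ℤ) ≤ ((k + 1 : ℕ) : ℤ) * t := by
        push_cast
        nlinarith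
      linarith
  have hordS2 : v.ord S = r := by
    rcases v.ord_sum_ge _ _ _ hall' with h | h
    · have h' : S' = 0 := h
      rw [hsplit, h', zero_add, hc0r]
    · have h' : r + 1 ≤ v.ord S' := h
      by_cases hS'0 : S' = 0
      · rw [hsplit, hS'0, zero_add, hc0r]
      · rw [hsplit, add_comm, v.ord_add_of_lt hc0 hS'0 (by rw [hc0r]; omega), hc0r]
  rw [← hordS, hordS2]

variable {G : Type*} [Group G] [Fintype G] [MulSemiringAction G L]

/-- **E1, abstract form.**  The perturbed polynomial `∏ g, (X - g • π) - η X ^ j` has no root in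
`L` when `ord η + j = Φ (i τ₀) - 1 > #G`. -/
theorem prod_sub_smul_ne_mul_pow (hG : ∀ (g : G) (x : L), v.ord (g • x) = v.ord x) (π : L)
    (hπ1 : v.ord π = 1) (hπ0 : π ≠ 0) (hπ : ∀ τ : G, τ ≠ 1 → τ • π ≠ π) {τ₀ : G} (hτ₀ : τ₀ ≠ 1)
    (η : L) (hη : η ≠ 0) (a' : ℤ) (j : ℕ) (hj : j < Fintype.card G)
    (hηord : v.ord η = Fintype.card G * a')
    (hN : (Fintype.card G : ℤ) * a' + j =
      phiFn (fun τ : G => v.ord (τ • π - π)) (v.ord (τ₀ • π - π)) - 1)
    (hNe : (Fintype.card G : ℤ) < Fintype.card G * a' + j) (β : L) :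
    ∏ g : G, (β - g • π) ≠ η * β ^ j := by
  intro heq
  have hgπ0 : ∀ g : G, g • π ≠ 0 := fun g => (smul_ne_zero_iff_ne g).mpr hπ0
  have hgπ1 : ∀ g : G, v.ord (g • π) = 1 := fun g => by rw [hG, hπ1]
  have hcard : (∑ _g : G, (1 : ℤ)) = Fintype.card G := by simp
  have hjlt : (j : ℤ) < Fintype.card G := by exact_mod_cast hj
  -- `β ≠ 0`
  have hβ0 : β ≠ 0 := by
    rintro rfl
    rcases Nat.eq_zero_or_pos j with hj0 | hj0
    · subst hj0
      have h1 : v.ord (∏ g : G, ((0 : L) - g • π)) = Fintype.card G := by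
        rw [v.ord_prod _ _ fun g _ => by rw [zero_sub]; exact neg_ne_zero.mpr (hgπ0 g)]
        rw [← hcard]
        refine Finset.sum_congr rfl fun g _ => ?_
        rw [zero_sub, v.ord_neg, hgπ1]
      rw [heq, pow_zero, mul_one, hηord] at h1
      push_cast at hNe
      omega
    · rw [zero_pow hj0.ne', mul_zero] at heq
      rcases Finset.prod_eq_zero_iff.mp heq with ⟨g, -, hg⟩
      rw [zero_sub] at hg
      exact hgπ0 g (neg_eq_zero.mp hg)
  -- `β` is not a conjugate of `π`
  have hβ : ∀ g : G, β ≠ g • π := by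
    intro g hg
    have h0 : ∏ g : G, (β - g • π) = 0 :=
      Finset.prod_eq_zero (Finset.mem_univ g) (sub_eq_zero.mpr hg)
    rw [h0] at heq
    exact mul_ne_zero hη (pow_ne_zero j hβ0) heq.symm
  set t := v.ord β with ht
  have hne := ord_prod_sub_smul_ne v hG π β hπ hβ hτ₀
  rw [← hN] at hne
  have hordR : v.ord (η * β ^ j) = Fintype.card G * a' + j * t := by
    rw [v.ord_mul hη (pow_ne_zero j hβ0), v.ord_pow hβ0, hηord]
  have hordL : v.ord (∏ g : G, (β - g • π)) = ∑ g : G, v.ord (β - g • π) :=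
    v.ord_prod _ _ fun g _ => sub_ne_zero.mpr (hβ g)
  -- it suffices to show `t = 1`
  suffices ht1 : t = 1 by
    rw [heq, hordR, ht1, mul_one] at hne
    exact hne rfl
  have hj0 : (0 : ℤ) ≤ j := by positivity
  rcases lt_trichotomy t 1 with hlt | heq1 | hgt
  · -- `t ≤ 0`: every factor has order `t`
    exfalso
    have hfac : ∀ g : G, v.ord (β - g • π) = t := by
      intro g
      rw [sub_eq_add_neg]
      exact v.ord_add_of_lt hβ0 (neg_ne_zero.mpr (hgπ0 g)) (by rw [v.ord_neg, hgπ1]; exact hlt)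
    have hsum : ∑ g : G, v.ord (β - g • π) = Fintype.card G * t := by
      rw [Finset.sum_congr rfl fun g _ => hfac g]
      simp
    rw [heq, hordR, hsum] at hordL
    -- `#G a' + j t = #G t`, `t ≤ 0`, `j < #G`, `#G < #G a' + j`
    have ht0 : t ≤ 0 := by omega
    nlinarith
  · exact heq1
  · -- `t ≥ 2`: every factor has order `1`
    exfalso
    have hfac : ∀ g : G, v.ord (β - g • π) = 1 := by
      intro g
      rw [sub_eq_add_neg, add_comm]
      have := v.ord_add_of_lt (neg_ne_zero.mpr (hgπ0 g)) hβ0 (by rw [v.ord_neg, hgπ1]; exact hgt)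
      rw [this, v.ord_neg, hgπ1]
    have hsum : ∑ g : G, v.ord (β - g • π) = Fintype.card G := by
      rw [Finset.sum_congr rfl fun g _ => hfac g]
      simp
    rw [heq, hordR, hsum] at hordL
    nlinarith

end Fermat.Agent.TW.Ram
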