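import Fermat.Agent.TW.Ram.FontaineP
import Fermat.Agent.TW.Ram.EisPerturb
import Fermat.Agent.TW.Ram.RamFn
import Fermat.Agent.TW.Ram.Eisenstein
import Fermat.Agent.CFT.Local.ExtDVRTower

/-!
# TW / Ram, step E1 (Fontaine 1.5 (ii)) in Layer-B vocabulary

`O` complete DVR, `K = Frac O` of characteristic `0`, `L / K` finite Galois and totally ramified,
`π` a uniformiser of `integralClosure O L`, `i τ := ramFn O K L π τ = ord_L (τ π - π)`,
`Φ = phiFn i`.  If `L / K` has Fontaine's property `(P_m)`, `m = a / b`, (valuation normalised by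
`v(ϖ) = 1`, `ϖ` a uniformiser of `O`) then `m · e > Φ (i τ₀) - 1` for every `τ₀ ≠ 1` (the sharp
bound is at the `τ₀` with `i τ₀` maximal), provided `Φ (i τ₀) ≥ e + 2` (automatic if `i τ₀ ≥ 2`).
-/

set_option autoImplicit false
set_option linter.unusedSectionVars false

open IsLocalRing Polynomial

namespace Fermat.Agent.TW.Ram

open Fermat.Agent.CFT

section Perturb

variable {R : Type*} [CommRing R] {𝓟 : Ideal R}

/-- Perturbing a monic Eisenstein polynomial by `η X ^ j`, `j < deg`, `η ∈ 𝓟` (`η ∈ 𝓟 ^ 2` if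
`j = 0`) gives a monic Eisenstein polynomial of the same degree. -/
theorem isEisensteinAt_sub_C_mul_X_pow [Nontrivial R] {P : R[X]} (hP : P.IsEisensteinAt 𝓟)
    (hmon : P.Monic) {η : R} {j : ℕ} (hj : j < P.natDegree) (hη : η ∈ 𝓟)
    (hη0 : j = 0 → η ∈ 𝓟 ^ 2) :
    (P - C η * X ^ j).IsEisensteinAt 𝓟 ∧ (P - C η * X ^ j).Monic ∧
      (P - C η * X ^ j).natDegree = P.natDegree := by
  have hdeg : (C η * X ^ j).natDegree < P.natDegree :=
    lt_of_le_of_lt (natDegree_C_mul_X_pow_le η j) hj
  have hdeg' : (C η * X ^ j).degree < P.degree := by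
    refine lt_of_le_of_lt (degree_C_mul_X_pow_le j η) ?_
    rw [degree_eq_natDegree hmon.ne_zero]
    exact_mod_cast hj
  have hmon' : (P - C η * X ^ j).Monic := hmon.sub_of_left hdeg'
  have hnat : (P - C η * X ^ j).natDegree = P.natDegree :=
    natDegree_sub_eq_left_of_natDegree_lt hdeg
  refine ⟨⟨?_, ?_, ?_⟩, hmon', hnat⟩
  · rw [hmon'.leadingCoeff]
    have := hP.leading
    rwa [hmon.leadingCoeff] at this
  · intro n hn
    rw [hnat] at hn
    rw [coeff_sub, coeff_C_mul, coeff_X_pow]
    refine Ideal.sub_mem _ (hP.mem hn) ?_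
    split_ifs
    · simpa using hη
    · simp
  · rw [coeff_sub, coeff_C_mul, coeff_X_pow]
    intro hmem
    apply hP.notMem
    by_cases hj0 : j = 0
    · have h2 : η ∈ 𝓟 ^ 2 := hη0 hj0
      have : P.coeff 0 = (P.coeff 0 - η * if 0 = j then 1 else 0) + η := by
        rw [if_pos hj0.symm]; ring
      rw [this]
      exact Ideal.add_mem _ hmem h2
    · rw [if_neg (Ne.symm hj0), mul_zero, sub_zero] at hmem
      exact hmem

end Perturb

section Galois

variable (K : Type) [Field K] (L : Type) [Field L] [Algebra K L] [FiniteDimensional K L]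

/-- An automorphism fixing an element whose minimal polynomial has full degree is trivial. -/
theorem aut_eq_one_of_apply_eq {x : L} (hdeg : (minpoly K x).natDegree = Module.finrank K L)
    (τ : L ≃ₐ[K] L) (h : τ x = x) : τ = 1 := by
  have h1 : IntermediateField.adjoin K {x} = ⊤ :=
    (Field.primitive_element_iff_minpoly_natDegree_eq K x).mpr hdeg
  have halg : IsAlgebraic K x := Algebra.IsAlgebraic.isAlgebraic x
  have h2 : Algebra.adjoin K {x} = ⊤ := by
    have h3 := IntermediateField.adjoin_simple_toSubalgebra_of_isAlgebraic halg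
    rw [h1] at h3
    rw [← h3]
    rfl
  have h4 : (τ : L →ₐ[K] L) = AlgHom.id K L :=
    AlgHom.ext_of_adjoin_eq_top h2 fun y hy => by
      rw [Set.mem_singleton_iff.mp hy]
      simpa using h
  ext y
  exact DFunLike.congr_fun h4 y

variable [IsGalois K L]

/-- For `x` generating the Galois extension `L / K`, `minpoly K x = ∏_τ (X - τ x)` over `L`. -/
theorem minpoly_map_eq_prod {x : L} (hdeg : (minpoly K x).natDegree = Module.finrank K L) :
    (minpoly K x).map (algebraMap K L) = ∏ τ : L ≃ₐ[K] L, (X - C (τ x)) := by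
  classical
  have hint : IsIntegral K x := Algebra.IsIntegral.isIntegral x
  have hmonP : ((minpoly K x).map (algebraMap K L)).Monic := (minpoly.monic hint).map _
  have hmonR : (∏ τ : L ≃ₐ[K] L, (X - C (τ x))).Monic :=
    monic_prod_of_monic _ _ fun τ _ => monic_X_sub_C (τ x)
  have hinj : Function.Injective fun τ : L ≃ₐ[K] L => τ x := by
    intro σ τ hστ
    have h1 : (τ⁻¹ * σ) x = x := by
      rw [AlgEquiv.mul_apply]
      change τ.symm (σ x) = x
      rw [show σ x = τ x from hστ]
      exact τ.symm_apply_apply x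
    have h2 := aut_eq_one_of_apply_eq K L hdeg _ h1
    have : σ = τ * (τ⁻¹ * σ) := by group
    rw [this, h2, mul_one]
  have hdvd : ∏ τ : L ≃ₐ[K] L, (X - C (τ x)) ∣ (minpoly K x).map (algebraMap K L) := by
    refine Finset.prod_dvd_of_coprime ?_ ?_
    · intro σ _ τ _ hne
      exact pairwise_coprime_X_sub_C hinj hne
    · intro τ _
      rw [dvd_iff_isRoot, IsRoot.def, eval_map_algebraMap, aeval_algHom_apply, minpoly.aeval,
        map_zero]
  have hdegR : (∏ τ : L ≃ₐ[K] L, (X - C (τ x))).natDegree = Module.finrank K L := by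
    rw [natDegree_prod_of_monic _ _ fun τ _ => monic_X_sub_C (τ x)]
    simp only [natDegree_X_sub_C, Finset.sum_const, Finset.card_univ, smul_eq_mul, mul_one]
    rw [← Nat.card_eq_fintype_card, IsGalois.card_aut_eq_finrank]
  refine eq_of_monic_of_dvd_of_natDegree_le hmonR hmonP hdvd ?_
  rw [(minpoly.monic hint).natDegree_map, hdeg, hdegR]

end Galois

section LayerB

variable (O K : Type) [CommRing O] [IsDomain O] [IsDiscreteValuationRing O]
  [IsAdicComplete (maximalIdeal O) O]
  [Field K] [Algebra O K] [IsFractionRing O K] [CharZero K]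

section ESide

variable (E : Type) [Field E] [Algebra K E] [FiniteDimensional K E] [Algebra O E]
  [IsScalarTower O K E]

include K in
/-- `(ϖ ^ a) O_E = 𝔪_E ^ (e a)`. -/
theorem span_algebraMap_pow_eq [IsLocalRing (integralClosure O E)] {ϖ : O} (hϖ : Irreducible ϖ)
    (a : ℕ) :
    Ideal.span {algebraMap O (integralClosure O E) (ϖ ^ a)} =
      maximalIdeal (integralClosure O E) ^ (ramIdx O E * a) := by
  have h1 := map_maximalIdeal_eq_pow_ramIdx O K E
  rw [hϖ.maximalIdeal_eq, Ideal.map_span, Set.image_singleton] at h1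
  rw [map_pow, ← Ideal.span_singleton_pow, h1, pow_mul]

end ESide

variable (L : Type) [Field L] [Algebra K L] [FiniteDimensional K L] [Algebra O L]
  [IsScalarTower O K L]

/-- The `E`-side of E1: if `β : E` is a root of the perturbed polynomial
`Q = minpoly O π - ϖ ^ q X ^ j` (`[E : K] = [L : K] = e`, `N = e q + j`), then `π ↦ β` defines an
`O`-algebra homomorphism `O_L → O_E ⧸ 𝔪_E ^ N`, and `(𝔪_E ^ N) ^ b ⊆ (ϖ ^ a)` if `a e ≤ b N`. -/
theorem exists_ideal_hom [IsDiscreteValuationRing (integralClosure O L)]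
    (htr : ramIdx O L = Module.finrank K L) {ϖ : O} (hϖ : Irreducible ϖ)
    {π : integralClosure O L} (hπ : Irreducible π)
    (E : Type) [Field E] [Algebra K E] [FiniteDimensional K E] [Algebra O E] [IsScalarTower O K E]
    (hE : Module.finrank K E = Module.finrank K L)
    {q j N a b : ℕ} (hN : Module.finrank K L * q + j = N)
    (hab : a * Module.finrank K L ≤ b * N)
    (hj : j < Module.finrank K L) (hq : 1 ≤ q) (hq0 : j = 0 → 2 ≤ q)
    {β : E} (hβ : aeval β (minpoly O π - C (ϖ ^ q) * X ^ j) = 0) :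
    ∃ J : Ideal (integralClosure O E),
      J ^ b ≤ Ideal.span {algebraMap O (integralClosure O E) (ϖ ^ a)} ∧
      Nonempty (integralClosure O L →ₐ[O] integralClosure O E ⧸ J) := by
  have := intRing_isDiscreteValuationRing O K E
  have := intRing_isFractionRing O K E
  obtain ⟨hPeis, hPdeg⟩ := minpoly_uniformiser_isEisensteinAt O K L htr hπ
  have hπint : IsIntegral O π := (intRing_isIntegral O L).isIntegral π
  have hPmon : (minpoly O π).Monic := minpoly.monic hπint
  have hϖmem : ϖ ∈ maximalIdeal O := by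
    rw [hϖ.maximalIdeal_eq]; exact Ideal.mem_span_singleton_self ϖ
  have hηmem : ϖ ^ q ∈ maximalIdeal O :=
    Ideal.pow_mem_of_mem _ hϖmem q (by omega)
  have hη0 : j = 0 → ϖ ^ q ∈ maximalIdeal O ^ 2 := fun h0 =>
    Ideal.pow_le_pow_right (hq0 h0) (Ideal.pow_mem_pow hϖmem q)
  obtain ⟨hQeis, hQmon, hQdeg⟩ := isEisensteinAt_sub_C_mul_X_pow hPeis hPmon
    (by rw [hPdeg]; exact hj) hηmem hη0
  set Q : O[X] := minpoly O π - C (ϖ ^ q) * X ^ j with hQ
  obtain ⟨hordβ, hramE⟩ := ramIdx_eq_of_isEisensteinAt O K E hQeis hQmon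
    (by rw [hQdeg, hPdeg, hE]) hβ
  have hβint : IsIntegral O β := ⟨Q, hQmon, by rwa [← aeval_def]⟩
  set βB : integralClosure O E := ⟨β, hβint⟩ with hβB
  have hβB0 : βB ≠ 0 := by
    intro h0
    have : β = 0 := congrArg Subtype.val h0
    rw [this, dvrOrd_zero] at hordβ
    omega
  have hβmem : βB ∈ maximalIdeal (integralClosure O E) :=
    (mem_maximalIdeal_iff_dvrOrd_pos _ E hβB0).mpr (by
      change 0 < dvrOrd _ E β
      omega)
  refine ⟨maximalIdeal (integralClosure O E) ^ N, ?_, ?_⟩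
  · rw [span_algebraMap_pow_eq O K E hϖ, ← pow_mul, hramE, hE]
    apply Ideal.pow_le_pow_right
    rw [mul_comm N b, mul_comm (Module.finrank K L) a]
    exact hab
  · have h1 : aeval βB Q = 0 := by
      apply Subtype.ext
      have := aeval_algHom_apply (integralClosure O E).val βB Q
      rw [← Subalgebra.val_apply, ← this]
      exact hβ
    have h2 : aeval βB (minpoly O π) =
        algebraMap O (integralClosure O E) (ϖ ^ q) * βB ^ j := by
      have h3 : minpoly O π = Q + C (ϖ ^ q) * X ^ j := by rw [hQ]; ring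
      rw [h3, map_add, h1, zero_add, map_mul, aeval_C, aeval_X_pow]
    have h3 : aeval βB (minpoly O π) ∈ maximalIdeal (integralClosure O E) ^ N := by
      rw [h2, ← hN, pow_add]
      apply Ideal.mul_mem_mul
      · have h4 := span_algebraMap_pow_eq O K E hϖ q
        rw [hramE, hE] at h4
        rw [← h4]
        exact Ideal.mem_span_singleton_self _
      · exact Ideal.pow_mem_pow hβmem j
    have hr : aeval (Ideal.Quotient.mk (maximalIdeal (integralClosure O E) ^ N) βB)
        (minpoly O π) = 0 := by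
      rw [← Ideal.Quotient.mkₐ_eq_mk O, aeval_algHom_apply, Ideal.Quotient.mkₐ_eq_mk,
        Ideal.Quotient.eq_zero_iff_mem]
      exact h3
    obtain ⟨φ, -, -⟩ := exists_unique_lift_uniformiser O K L htr hπ _ _ hr
    exact ⟨φ⟩

/-- **E1.**  `(P_{a/b})` for the totally ramified Galois extension `L / K` implies
`b * (Φ (i τ₀) - 1) < a * e`, for every `τ₀ ≠ 1` with `Φ (i τ₀) ≥ e + 2`. -/
theorem fontaineP_bound [IsGalois K L] [IsDiscreteValuationRing (integralClosure O L)]
    [IsFractionRing (integralClosure O L) L]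
    (htr : ramIdx O L = Module.finrank K L) {ϖ : O} (hϖ : Irreducible ϖ)
    {π : integralClosure O L} (hπ : Irreducible π) {τ₀ : L ≃ₐ[K] L} (hτ₀ : τ₀ ≠ 1)
    (hwild : (Module.finrank K L : ℤ) + 2 ≤
      phiFn (ramFn O K L (π : L)) (ramFn O K L (π : L) τ₀))
    {a b : ℕ} (_hb : 0 < b) (hP : FontaineP O K L ϖ a b) :
    (b : ℤ) * (phiFn (ramFn O K L (π : L)) (ramFn O K L (π : L) τ₀) - 1) <
      a * Module.finrank K L := by
  classical
  by_contra hcon
  rw [not_lt] at hcon
  have he0 : 0 < Module.finrank K L := Module.finrank_pos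
  obtain ⟨N, hNΦ⟩ : ∃ N : ℕ,
      (N : ℤ) = phiFn (ramFn O K L (π : L)) (ramFn O K L (π : L) τ₀) - 1 :=
    ⟨(phiFn (ramFn O K L (π : L)) (ramFn O K L (π : L) τ₀) - 1).toNat,
      Int.toNat_of_nonneg (by omega)⟩
  rw [← hNΦ] at hcon
  have hNe : Module.finrank K L + 1 ≤ N := by
    have : ((Module.finrank K L + 1 : ℕ) : ℤ) ≤ N := by push_cast; omega
    exact_mod_cast this
  have hab : a * Module.finrank K L ≤ b * N := by exact_mod_cast hcon
  have hqj : Module.finrank K L * (N / Module.finrank K L) + N % Module.finrank K L = N :=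
    Nat.div_add_mod N _
  have hj : N % Module.finrank K L < Module.finrank K L := Nat.mod_lt N he0
  have hq : 1 ≤ N / Module.finrank K L := Nat.div_pos (by omega) he0
  have hq0 : N % Module.finrank K L = 0 → 2 ≤ N / Module.finrank K L := by
    intro h0
    by_contra h2
    have h1 : N / Module.finrank K L = 1 := by omega
    rw [h0, h1] at hqj
    omega
  generalize N / Module.finrank K L = q at hqj hq hq0
  generalize N % Module.finrank K L = j at hqj hj hq0
  -- the perturbed polynomial `Q`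
  obtain ⟨hPeis, hPdeg⟩ := minpoly_uniformiser_isEisensteinAt O K L htr hπ
  have hπint : IsIntegral O π := (intRing_isIntegral O L).isIntegral π
  have hPmon : (minpoly O π).Monic := minpoly.monic hπint
  have hϖmem : ϖ ∈ maximalIdeal O := by
    rw [hϖ.maximalIdeal_eq]; exact Ideal.mem_span_singleton_self ϖ
  have hηmem : ϖ ^ q ∈ maximalIdeal O := Ideal.pow_mem_of_mem _ hϖmem q (by omega)
  have hη0 : j = 0 → ϖ ^ q ∈ maximalIdeal O ^ 2 := fun h0 =>
    Ideal.pow_le_pow_right (hq0 h0) (Ideal.pow_mem_pow hϖmem q)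
  obtain ⟨hQeis, hQmon, hQdeg⟩ := isEisensteinAt_sub_C_mul_X_pow hPeis hPmon
    (by rw [hPdeg]; exact hj) hηmem hη0
  set Q : O[X] := minpoly O π - C (ϖ ^ q) * X ^ j with hQ
  have hQdeg' : Q.natDegree = Module.finrank K L := by rw [hQdeg, hPdeg]
  -- the field `E = K[X]/(Q)`
  have hirr : Irreducible (Q.map (algebraMap O K)) :=
    (Monic.irreducible_iff_irreducible_map_fraction_map hQmon).mp
      (hQeis.irreducible inferInstance hQmon.isPrimitive (by rw [hQdeg']; exact he0))
  have : Fact (Irreducible (Q.map (algebraMap O K))) := ⟨hirr⟩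
  have hQK0 : Q.map (algebraMap O K) ≠ 0 := hirr.ne_zero
  have : FiniteDimensional K (AdjoinRoot (Q.map (algebraMap O K))) :=
    (AdjoinRoot.powerBasis hQK0).finite
  have hE : Module.finrank K (AdjoinRoot (Q.map (algebraMap O K))) = Module.finrank K L := by
    rw [(AdjoinRoot.powerBasis hQK0).finrank, AdjoinRoot.powerBasis_dim, hQmon.natDegree_map,
      hQdeg']
  have hβ : aeval (AdjoinRoot.root (Q.map (algebraMap O K))) Q = 0 := by
    rw [← aeval_map_algebraMap K, AdjoinRoot.aeval_eq, AdjoinRoot.mk_self]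
  obtain ⟨J, hJ, hφ⟩ := exists_ideal_hom O K L htr hϖ hπ
    (AdjoinRoot (Q.map (algebraMap O K))) hE hqj hab hj hq hq0 hβ
  obtain ⟨ι⟩ := hP (AdjoinRoot (Q.map (algebraMap O K))) J hJ hφ
  -- transport the root to `L`
  have hsurj : Function.Surjective ι :=
    (LinearMap.injective_iff_surjective_of_finrank_eq_finrank hE.symm
      (f := ι.toLinearMap)).mp ι.injective
  obtain ⟨β', hβ'⟩ := hsurj (AdjoinRoot.root (Q.map (algebraMap O K)))
  have hβ'Q : aeval β' Q = 0 := by
    apply ι.injective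
    have := aeval_algHom_apply (ι.restrictScalars O) β' Q
    rw [AlgHom.restrictScalars_apply, hβ', hβ] at this
    rw [map_zero]
    exact this.symm
  -- the equation `∏_τ (β' - τ π) = ϖ ^ q β' ^ j` in `L`
  have hminK : minpoly K (π : L) = (minpoly O π).map (algebraMap O K) :=
    minpoly.isIntegrallyClosed_eq_field_fractions K L hπint
  have hdegK : (minpoly K (π : L)).natDegree = Module.finrank K L := by
    rw [hminK, hPmon.natDegree_map, hPdeg]
  have hevalP : aeval β' (minpoly O π) = ∏ τ : L ≃ₐ[K] L, (β' - τ • (π : L)) := by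
    rw [← aeval_map_algebraMap K, ← hminK, aeval_def, ← eval_map,
      minpoly_map_eq_prod K L hdegK, eval_prod]
    refine Finset.prod_congr rfl fun τ _ => ?_
    rw [eval_sub, eval_X, eval_C]
    rfl
  have hprod : ∏ τ : L ≃ₐ[K] L, (β' - τ • (π : L)) = algebraMap O L (ϖ ^ q) * β' ^ j := by
    rw [← hevalP]
    have h3 : minpoly O π = Q + C (ϖ ^ q) * X ^ j := by rw [hQ]; ring
    rw [h3, map_add, hβ'Q, zero_add, map_mul, aeval_C, aeval_X_pow]
  -- the contradiction
  have hcard : Fintype.card (L ≃ₐ[K] L) = Module.finrank K L := by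
    rw [← Nat.card_eq_fintype_card, IsGalois.card_aut_eq_finrank]
  have hϖL : dvrOrd (integralClosure O L) L (algebraMap O L ϖ) = Module.finrank K L := by
    rw [dvrOrd_algebraMap_irreducible O K L hϖ, htr]
  have hϖL0 : algebraMap O L ϖ ≠ 0 := by
    intro h0
    rw [h0, dvrOrd_zero] at hϖL
    have : (0 : ℤ) < Module.finrank K L := by exact_mod_cast he0
    omega
  refine prod_sub_smul_ne_mul_pow (ordFnOfDVR (integralClosure O L) L) (G := L ≃ₐ[K] L)
    (fun g x => dvrOrd_galois O K L g x) (π : L) (dvrOrd_irreducible _ L hπ) ?_ ?_ hτ₀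
    (algebraMap O L (ϖ ^ q)) ?_ q j (by rw [hcard]; exact hj) ?_ ?_ ?_ β' hprod
  · intro h0
    exact hπ.ne_zero (Subtype.ext h0)
  · intro τ hτ h
    exact hτ (aut_eq_one_of_apply_eq K L hdegK τ h)
  · rw [map_pow]
    exact pow_ne_zero q hϖL0
  · rw [ordFnOfDVR_ord, map_pow, dvrOrd_pow, hϖL, hcard]
    ring
  · rw [hcard]
    have : ((Module.finrank K L * q + j : ℕ) : ℤ) = N := by rw [hqj]
    push_cast at this
    rw [this, hNΦ]
    rfl
  · rw [hcard]
    have : ((Module.finrank K L + 1 : ℕ) : ℤ) ≤ ((Module.finrank K L * q + j : ℕ) : ℤ) := by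
      rw [hqj]; exact_mod_cast hNe
    push_cast at this
    omega

/-- **E1'.**  The limit form: `(P_m)` for all `m > c / d` implies `d * (Φ (i τ₀) - 1) ≤ c * e`. -/
theorem fontainePAbove_bound [IsGalois K L] [IsDiscreteValuationRing (integralClosure O L)]
    [IsFractionRing (integralClosure O L) L]
    (htr : ramIdx O L = Module.finrank K L) {ϖ : O} (hϖ : Irreducible ϖ)
    {π : integralClosure O L} (hπ : Irreducible π) {τ₀ : L ≃ₐ[K] L} (hτ₀ : τ₀ ≠ 1)
    (hwild : (Module.finrank K L : ℤ) + 2 ≤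
      phiFn (ramFn O K L (π : L)) (ramFn O K L (π : L) τ₀))
    {c d : ℕ} (hd : 0 < d) (hP : FontainePAbove O K L ϖ c d) :
    (d : ℤ) * (phiFn (ramFn O K L (π : L)) (ramFn O K L (π : L) τ₀) - 1) ≤
      c * Module.finrank K L := by
  have he0 : 0 < Module.finrank K L := Module.finrank_pos
  have hb : 0 < d * Module.finrank K L := Nat.mul_pos hd he0
  have hlt : c * (d * Module.finrank K L) < (c * Module.finrank K L + 1) * d := by nlinarith
  have h := fontaineP_bound O K L htr hϖ hπ hτ₀ hwild hb (hP _ _ hb hlt)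
  push_cast at h
  have he' : (0 : ℤ) < Module.finrank K L := by exact_mod_cast he0
  by_contra hcon
  rw [not_le] at hcon
  have h1 : (c : ℤ) * Module.finrank K L + 1 ≤
      (d : ℤ) * (phiFn (ramFn O K L (π : L)) (ramFn O K L (π : L) τ₀) - 1) := by omega
  have h2 := mul_le_mul_of_nonneg_right h1 he'.le
  nlinarith

/-- The wildness hypothesis of `fontaineP_bound` holds as soon as `2 ≤ i τ₀`. -/
theorem finrank_add_two_le_phiFn [IsGalois K L] [IsDiscreteValuationRing (integralClosure O L)]
    [IsFractionRing (integralClosure O L) L]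
    (htr : ramIdx O L = Module.finrank K L)
    {π : integralClosure O L} (hπ : Irreducible π) {τ₀ : L ≃ₐ[K] L} (hτ₀ : τ₀ ≠ 1)
    (h2 : 2 ≤ ramFn O K L (π : L) τ₀) :
    (Module.finrank K L : ℤ) + 2 ≤
      phiFn (ramFn O K L (π : L)) (ramFn O K L (π : L) τ₀) := by
  classical
  obtain ⟨-, hPdeg⟩ := minpoly_uniformiser_isEisensteinAt O K L htr hπ
  have hπint : IsIntegral O π := (intRing_isIntegral O L).isIntegral π
  have hminK : minpoly K (π : L) = (minpoly O π).map (algebraMap O K) :=
    minpoly.isIntegrallyClosed_eq_field_fractions K L hπint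
  have hdegK : (minpoly K (π : L)).natDegree = Module.finrank K L := by
    rw [hminK, (minpoly.monic hπint).natDegree_map, hPdeg]
  have hπ0 : (π : L) ≠ 0 := fun h0 => hπ.ne_zero (Subtype.ext h0)
  have hπ1 : dvrOrd (integralClosure O L) L (π : L) = 1 := dvrOrd_irreducible _ L hπ
  -- `1 ≤ i τ` for `τ ≠ 1`
  have hone : ∀ τ : L ≃ₐ[K] L, τ ≠ 1 → 1 ≤ ramFn O K L (π : L) τ := by
    intro τ hτ
    have hne : τ (π : L) - (π : L) ≠ 0 := fun h0 =>
      hτ (aut_eq_one_of_apply_eq K L hdegK τ (sub_eq_zero.mp h0))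
    have hτπ0 : τ (π : L) ≠ 0 := (map_ne_zero τ).mpr hπ0
    have := min_dvrOrd_le_dvrOrd_add (integralClosure O L) L hτπ0 (neg_ne_zero.mpr hπ0)
      (by rwa [← sub_eq_add_neg])
    rw [dvrOrd_neg, dvrOrd_galois O K L τ, hπ1, min_self, ← sub_eq_add_neg] at this
    exact this
  have hcard : Fintype.card (L ≃ₐ[K] L) = Module.finrank K L := by
    rw [← Nat.card_eq_fintype_card, IsGalois.card_aut_eq_finrank]
  rw [phiFn_eq_erase]
  have hmem : τ₀ ∈ (Finset.univ : Finset (L ≃ₐ[K] L)).erase 1 :=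
    Finset.mem_erase.mpr ⟨hτ₀, Finset.mem_univ _⟩
  rw [← Finset.add_sum_erase _ _ hmem, min_self]
  have hsum : ((((Finset.univ : Finset (L ≃ₐ[K] L)).erase 1).erase τ₀).card : ℤ) ≤
      ∑ τ ∈ ((Finset.univ : Finset (L ≃ₐ[K] L)).erase 1).erase τ₀,
        min (ramFn O K L (π : L) τ₀) (ramFn O K L (π : L) τ) := by
    have : ∀ τ ∈ ((Finset.univ : Finset (L ≃ₐ[K] L)).erase 1).erase τ₀,
        (1 : ℤ) ≤ min (ramFn O K L (π : L) τ₀) (ramFn O K L (π : L) τ) := by
      intro τ hτ
      have hτ1 : τ ≠ 1 := (Finset.mem_erase.mp (Finset.mem_erase.mp hτ).2).1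
      exact le_min (by omega) (hone τ hτ1)
    have h3 := Finset.sum_le_sum this
    simpa using h3
  have hc1 := Finset.card_erase_add_one hmem
  have hc2 := Finset.card_erase_add_one (Finset.mem_univ (1 : L ≃ₐ[K] L))
  rw [Finset.card_univ, hcard] at hc2
  have hc3 : ((((Finset.univ : Finset (L ≃ₐ[K] L)).erase 1).erase τ₀).card : ℤ) + 2 =
      Module.finrank K L := by
    have : (((Finset.univ : Finset (L ≃ₐ[K] L)).erase 1).erase τ₀).card + 2 =
        Module.finrank K L := by omega
    exact_mod_cast this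
  omega

end LayerB

end Fermat.Agent.TW.Ram
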